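import Fermat.Agent.LT.Geo.Ops

/-!
# LT/G: insertions at a list of places

* `Pure.insT ht hs l k` : left insertion of `t w` at all the places of the list `l`;
* `opT t l` : the corresponding operator; `Pure.appK_insT`.
-/

set_option autoImplicit false
set_option linter.unusedSectionVars false

open NumberField IsDedekindDomain Matrix MeasureTheory
open Fermat.Agent.LT.B (appK)

namespace Fermat.LT

variable {F : Type} [Field F] [NumberField F] {D : Datum F}

namespace Pure

variable {t : Pl F → G2 F → ℂ} (ht : ∀ w, BiInv (D.H w) (t w)) (hs : ∀ w, FinS (D.H w) (t w))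

/-- left insertion of `t w` at the places of a list -/
noncomputable def insT (l : List (Pl F)) (k : Pure D) : Pure D :=
  l.foldr (fun w k => k.insL w (ht w) (hs w)) k

theorem insT_nil (k : Pure D) : insT ht hs [] k = k := rfl

theorem insT_cons (w : Pl F) (l : List (Pl F)) (k : Pure D) :
    insT ht hs (w :: l) k = (insT ht hs l k).insL w (ht w) (hs w) := rfl

theorem insT_a (l : List (Pl F)) (k : Pure D) : (insT ht hs l k).a = k.a := by
  induction l with
  | nil => rfl
  | cons w l ih => rw [insT_cons, insL_a, ih]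

theorem insT_f_notMem {l : List (Pl F)} (k : Pure D) {w : Pl F} (h : w ∉ l) :
    (insT ht hs l k).f w = k.f w := by
  induction l with
  | nil => rfl
  | cons v l ih =>
    rw [insT_cons, insL_f_ne _ v (ht v) (hs v) fun e => h (e ▸ List.mem_cons_self), ih]
    exact fun h' => h (List.mem_cons_of_mem _ h')

theorem insT_f_mem {l : List (Pl F)} (hl : l.Nodup) (k : Pure D) {w : Pl F} (h : w ∈ l) :
    (insT ht hs l k).f w = convF (D.H w) (t w) (k.f w) := by
  induction l with
  | nil => simp at h
  | cons v l ih =>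
    rw [List.nodup_cons] at hl
    rcases List.mem_cons.mp h with rfl | h'
    · rw [insT_cons, insL_f, insT_f_notMem ht hs k hl.1]
    · rw [insT_cons, insL_f_ne _ v (ht v) (hs v) fun e => hl.1 (e ▸ h'), ih hl.2 h']

theorem insT_mul (l : List (Pl F)) (k k' : Pure D) :
    (insT ht hs l k).mul k' = insT ht hs l (k.mul k') := by
  induction l with
  | nil => rfl
  | cons w l ih => rw [insT_cons, insT_cons, insL_mul, ih]

theorem insT_append (l l' : List (Pl F)) (k : Pure D) :
    insT ht hs (l ++ l') k = insT ht hs l (insT ht hs l' k) := by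
  unfold insT
  rw [List.foldr_append]

/-- insertions at two lists commute with insertion at a place outside -/
theorem insT_insL {l : List (Pl F)} (k : Pure D) {v : Pl F} (h : v ∉ l) {t' : G2 F → ℂ}
    (ht' : BiInv (D.H v) t') (hs' : FinS (D.H v) t') :
    insT ht hs l (k.insL v ht' hs') = (insT ht hs l k).insL v ht' hs' := by
  induction l with
  | nil => rfl
  | cons w l ih =>
    rw [insT_cons, insT_cons, ih fun h' => h (List.mem_cons_of_mem _ h')]
    have hne : v ≠ w := fun e => h (e ▸ List.mem_cons_self)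
    refine ext' (by rfl) ?_
    funext u
    by_cases h1 : u = w
    · subst h1
      rw [insL_f, insL_f_ne _ v _ _ hne.symm, insL_f_ne _ v _ _ hne.symm, insL_f]
    · by_cases h2 : u = v
      · subst h2
        rw [insL_f_ne _ w _ _ h1, insL_f, insL_f, insL_f_ne _ w _ _ h1]
      · rw [insL_f_ne _ w _ _ h1, insL_f_ne _ v _ _ h2, insL_f_ne _ v _ _ h2,
          insL_f_ne _ w _ _ h1]

theorem insT_insAL (l : List (Pl F)) (k : Pure D) (i : D.I) {b : H3 → H3 → ℂ} (hb : PPI b) :
    insT ht hs l (k.insAL i hb) = (insT ht hs l k).insAL i hb := by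
  induction l with
  | nil => rfl
  | cons w l ih =>
    rw [insT_cons, insT_cons, ih]
    rfl

end Pure

/-- the operator of `Pure.insT` -/
noncomputable def opT (t : Pl F → G2 F → ℂ) (l : List (Pl F)) (φ : X D → ℂ) : X D → ℂ :=
  l.foldr (fun w φ => opX w (t w) φ) φ

theorem opT_nil (t : Pl F → G2 F → ℂ) (φ : X D → ℂ) : opT t [] φ = φ := rfl

theorem opT_cons (t : Pl F → G2 F → ℂ) (w : Pl F) (l : List (Pl F)) (φ : X D → ℂ) :
    opT t (w :: l) φ = opX w (t w) (opT t l φ) := rfl

theorem opT_append (t : Pl F → G2 F → ℂ) (l l' : List (Pl F)) (φ : X D → ℂ) :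
    opT t (l ++ l') φ = opT t l (opT t l' φ) := by
  unfold opT
  rw [List.foldr_append]

theorem opT_smul (t : Pl F → G2 F → ℂ) (l : List (Pl F)) (c : ℂ) (φ : X D → ℂ) :
    opT t l (fun x => c * φ x) = fun x => c * opT t l φ x := by
  induction l with
  | nil => rfl
  | cons w l ih => rw [opT_cons, opT_cons, ih, opX_smul]

theorem opT_add {t : Pl F → G2 F → ℂ} (ht : ∀ w, BiInv (D.H w) (t w))
    (hs : ∀ w, FinS (D.H w) (t w)) (l : List (Pl F)) (φ ψ : X D → ℂ) :
    opT t l (fun x => φ x + ψ x) = fun x => opT t l φ x + opT t l ψ x := by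
  induction l with
  | nil => rfl
  | cons w l ih => rw [opT_cons, opT_cons, opT_cons, ih, opX_add (ht w) (hs w)]

/-- eigenfunctions -/
theorem opT_eig {t : Pl F → G2 F → ℂ} {c : Pl F → ℂ} {φ : X D → ℂ} {l : List (Pl F)}
    (h : ∀ w ∈ l, opX w (t w) φ = fun x => c w * φ x) :
    opT t l φ = fun x => (l.map c).prod * φ x := by
  induction l with
  | nil => funext x; rw [opT_nil, List.map_nil, List.prod_nil, one_mul]
  | cons w l ih =>
    rw [opT_cons, ih fun w hw => h w (List.mem_cons_of_mem _ hw), opX_smul,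
      h w List.mem_cons_self]
    funext x
    rw [List.map_cons, List.prod_cons]
    ring

theorem opT_fix {t : Pl F → G2 F → ℂ} {φ : X D → ℂ} {l : List (Pl F)}
    (h : ∀ w ∈ l, opX w (t w) φ = φ) : opT t l φ = φ := by
  induction l with
  | nil => rfl
  | cons w l ih =>
    rw [opT_cons, ih fun w hw => h w (List.mem_cons_of_mem _ hw), h w List.mem_cons_self]

theorem Pure.appK_insT {t : Pl F → G2 F → ℂ} (ht : ∀ w, BiInv (D.H w) (t w))
    (hs : ∀ w, FinS (D.H w) (t w)) (l : List (Pl F)) (k : Pure D) {φ : X D → ℂ}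
    (hφ : Continuous φ) :
    appK volume (k.insT ht hs l).ker φ = opT t l (appK volume k.ker φ) := by
  induction l with
  | nil => rfl
  | cons w l ih => rw [insT_cons, appK_insL _ _ _ _ hφ, ih, opT_cons]

end Fermat.LT
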