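import Fermat.Agent.LT.G.SphConv
import Fermat.Agent.LT.G.InsT
import Fermat.Agent.LT.Geo.BMul
import Fermat.Agent.LT.B.SpecTw

/-!
# LT/G: insertions at a list of places and finite kernels; spherical families

* `kT t l` : the finite kernel of the local functions `t w`, `w ∈ l`; `isFinTest_kT`, `commP_kT`,
  `opF_kT : opF (kT t l) = opT t l`;
* `Pure.ker_insT`, `PS.ker_insT`, `PS.ker_mul_insT`;
* `Pure.IsTF` : all finite components are of the form `tF w Q`; `Pure.IsTF.mem_Sph`,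
  `PS.mem_Sph_of_isTF`, `GeoDatum.isTF_aPure`.
-/

set_option autoImplicit false
set_option linter.unusedSectionVars false

open NumberField IsDedekindDomain Matrix MeasureTheory
open Fermat.Agent.LT.B
open Fermat.Agent.LT.D (Cub)

namespace Fermat.LT

section kT

variable {F : Type} [Field F] [NumberField F] {U : Level F} {D : Datum F}
  {t : Pl F → G2 F → ℂ}

/-- The finite kernel of the local functions `t w` at the places `w` of a list. -/
noncomputable def kT (t : Pl F → G2 F → ℂ) : List (Pl F) → Y U → Y U → ℂ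
  | [] => fun y z => Fermat.Agent.LT.B.dl z y
  | w :: l => kc (k1p w (t w)) (kT t l)

theorem kT_eq_kL (ht : ∀ w, BiInv (U.H w) (t w)) (hs : ∀ w, FinS (U.H w) (t w))
    (l : List (Pl F)) :
    kT (U := U) t l = kL (l.map fun w => ⟨w, t w, ht w, hs w⟩) := by
  induction l with
  | nil => rfl
  | cons w l ih =>
    change kc (k1p w (t w)) (kT t l) = kc (k1p w (t w)) (kL _)
    rw [ih]

/-- `kT t l` is a finite test kernel. -/
theorem isFinTest_kT (ht : ∀ w, BiInv (U.H w) (t w)) (hs : ∀ w, FinS (U.H w) (t w))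
    (l : List (Pl F)) : IsFinTest (kT (U := U) t l) := by
  rw [kT_eq_kL ht hs]
  exact isFinTest_kL _

theorem RF_kT (ht : ∀ w, BiInv (U.H w) (t w)) (hs : ∀ w, FinS (U.H w) (t w))
    (l : List (Pl F)) : RF (kT (U := U) t l) := (isFinTest_kT ht hs l).fin

/-- commutation with the Hecke operators at the other places -/
theorem ka_kT_TY (ht : ∀ w, BiInv (U.H w) (t w)) (hs : ∀ w, FinS (U.H w) (t w))
    {l : List (Pl F)} {w : Pl F} (h : w ∉ l) (hw : U.n w = 0) (φ : Y U → ℂ) :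
    ka (kT t l) (TY w φ) = TY w (ka (kT t l) φ) := by
  rw [kT_eq_kL ht hs]
  refine ka_kL_TY ?_ hw φ
  intro p hp
  obtain ⟨v, hv, rfl⟩ := List.mem_map.1 hp
  rintro rfl
  exact h hv

/-- `kT t l` commutes with the Hecke operators at the places in `P`. -/
theorem commP_kT (ht : ∀ w, BiInv (D.H w) (t w)) (hs : ∀ w, FinS (D.H w) (t w))
    {l : List (Pl F)} {P : Set (Pl F)} (hP : ∀ w ∈ P, D.n w = 0) (h : ∀ w ∈ l, w ∉ P) :
    CommP P (kT (U := D.toLevel) t l) := fun w hw φ =>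
  ka_kT_TY ht hs (fun hl => h w hl hw) (hP w hw) φ

theorem opF_kT (ht : ∀ w, BiInv (D.H w) (t w)) (hs : ∀ w, FinS (D.H w) (t w))
    (l : List (Pl F)) (φ : X D → ℂ) : opF (kT t l) φ = opT t l φ := by
  induction l with
  | nil => exact opF_kL_nil φ
  | cons w l ih =>
    rw [opT_cons, ← ih, ← opF_k1p (ht w) (hs w), opF_opF (RF_k1p (ht w) (hs w)) (RF_kT ht hs l)]
    rfl

/-- the kernel of an insertion -/
theorem Pure.ker_insT (ht : ∀ w, BiInv (D.H w) (t w)) (hs : ∀ w, FinS (D.H w) (t w))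
    (l : List (Pl F)) (k : Pure D) (x z : X D) :
    (k.insT ht hs l).ker x z = opF (kT t l) (fun y => k.ker y z) x := by
  rw [opF_kT ht hs]
  induction l generalizing x with
  | nil => rfl
  | cons w l ih =>
    rw [insT_cons, ker_insL, opT_cons]
    simp only [ih]

/-- the kernel of an insertion, in terms of `opT` -/
theorem Pure.ker_insT' (ht : ∀ w, BiInv (D.H w) (t w)) (hs : ∀ w, FinS (D.H w) (t w))
    (l : List (Pl F)) (k : Pure D) (x z : X D) :
    (k.insT ht hs l).ker x z = opT t l (fun y => k.ker y z) x := by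
  rw [ker_insT ht hs, opF_kT ht hs]

namespace PS

/-- the kernel of an insertion -/
theorem ker_insT (ht : ∀ w, BiInv (D.H w) (t w)) (hs : ∀ w, FinS (D.H w) (t w))
    (l : List (Pl F)) (Q : PS D) (x z : X D) :
    (Q.map (Pure.insT ht hs l)).ker x z = opF (kT t l) (fun y => Q.ker y z) x := by
  let _ := Q.fJ
  have e : (fun y => Q.ker y z) = fun y => ∑ j, Q.c j * (Q.k j).ker y z := rfl
  rw [e, opF_psum Finset.univ Q.c (RF_kT ht hs l) (fun j y => (Q.k j).ker y z)]
  exact Finset.sum_congr rfl fun j _ => by rw [← Pure.ker_insT ht hs]; rfl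

/-- **The kernels of the families.** -/
theorem ker_mul_insT (ht : ∀ w, BiInv (D.H w) (t w)) (hs : ∀ w, FinS (D.H w) (t w))
    (l : List (Pl F)) (Q R : PS D) (x z : X D) :
    ((Q.mul R).map (Pure.insT ht hs l)).ker x z =
      opF (kT t l) (fun y => ∫ u, Q.ker y u * R.ker u z) x := by
  rw [ker_insT]
  congr 1
  funext y
  exact ((PS.ker_mul Q R y z).2).symm

end PS

/-! ### Components given by polynomials in the Hecke operators -/

/-- All finite components are polynomials in the Hecke operator (units at the bad places). -/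
def Pure.IsTF (k : Pure D) : Prop :=
  ∀ w, ∃ Q : Polynomial ℂ, k.f w = Fermat.Agent.LT.CTree.tF D.toLevel w Q

theorem Pure.IsTF.isSph {k : Pure D} (h : k.IsTF) : k.IsSph {w | D.n w = 0} := by
  intro w
  obtain ⟨Q, hQ⟩ := h w
  by_cases hw : D.n w = 0
  · refine Or.inr ⟨hw, _, Fermat.Agent.LT.CTree.sf_support w Q, ?_⟩
    rw [hQ, Fermat.Agent.LT.CTree.tF_good (U := D.toLevel) hw]
  · refine Or.inl ?_
    rw [hQ, Fermat.Agent.LT.CTree.tF_bad (U := D.toLevel) hw]

theorem Pure.IsTF.mem_Sph {k : Pure D} (h : k.IsTF) (hr : k.Rad) :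
    k.ker ∈ Sph D {w | D.n w = 0} :=
  Pure.mem_Sph (fun _ hw => hw) hr h.isSph

theorem Pure.IsTF.mul {k k' : Pure D} (h : k.IsTF) (h' : k'.IsTF) : (k.mul k').IsTF := by
  intro w
  obtain ⟨Q, hQ⟩ := h w
  obtain ⟨Q', hQ'⟩ := h' w
  refine ⟨Q * Q', ?_⟩
  rw [Pure.mul_f, hQ, hQ']
  exact Fermat.Agent.LT.CTree.convF_tF D.toLevel w Q Q'

theorem exists_tF_T1 {w : Pl F} (hw : D.n w = 0) :
    ∃ Q : Polynomial ℂ, T1 w = Fermat.Agent.LT.CTree.tF D.toLevel w Q := by
  obtain ⟨Q, hQ⟩ := Fermat.Agent.LT.CTree.exists_sf_eq w Fermat.Agent.LT.CTree.δ₁_support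
  refine ⟨Q, ?_⟩
  rw [Fermat.Agent.LT.CTree.tF_good (U := D.toLevel) hw, hQ, T1_eq_sphF]

/-- insertion of a Hecke operator at a good place -/
theorem Pure.IsTF.insL_T1 {k : Pure D} (h : k.IsTF) {w : Pl F} (hw : D.n w = 0)
    (ht : BiInv (D.H w) (T1 w)) (ht' : FinS (D.H w) (T1 w)) : (k.insL w ht ht').IsTF := by
  intro v
  by_cases hv : v = w
  · subst hv
    obtain ⟨Q, hQ⟩ := h v
    obtain ⟨Q', hQ'⟩ := exists_tF_T1 (D := D) hw
    refine ⟨Q' * Q, ?_⟩
    rw [Pure.insL_f, hQ, hQ']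
    exact Fermat.Agent.LT.CTree.convF_tF D.toLevel v Q' Q
  · rw [Pure.insL_f_ne k w ht ht' hv]
    exact h v

theorem Pure.IsTF.insAL {k : Pure D} (h : k.IsTF) (i : D.I) {b : H3 → H3 → ℂ} (hb : PPI b) :
    (k.insAL i hb).IsTF := h

/-- insertion of Hecke operators at a list of good places -/
theorem Pure.IsTF.insT_T1 {k : Pure D} (h : k.IsTF) {l : List (Pl F)}
    (hl : ∀ w ∈ l, D.n w = 0) (ht : ∀ w, BiInv (D.H w) (T1 w))
    (ht' : ∀ w, FinS (D.H w) (T1 w)) : (Pure.insT ht ht' l k).IsTF := by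
  induction l with
  | nil => exact h
  | cons w l ih =>
    rw [Pure.insT_cons]
    exact (ih fun v hv => hl v (List.mem_cons_of_mem _ hv)).insL_T1 (hl w List.mem_cons_self) _ _

theorem PS.mem_Sph_of_isTF {Q : PS D} (hr : Q.Rad) (h : ∀ j, (Q.k j).IsTF) :
    Q.ker ∈ Sph D {w | D.n w = 0} :=
  PS.mem_Sph (fun _ hw => hw) hr fun j => (h j).isSph

end kT

namespace GeoDatum

variable {K L : Type} [Field K] [NumberField K] [Field L] [NumberField L] [Algebra K L]
variable {C : Cub K L} {G : GeoDatum C}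

open Fermat.Agent.LT.CTree (tF tF_good tF_bad tF_one sf sf_congr convF_tF)

theorem fs_tF {k : Pure G.DL.toDatum} (h : k.IsTF) {v : Pl K} (hv : Split C v (G.up v))
    (hn : G.U.n v = 0) (j : Fin 3) : ∃ Q : Polynomial ℂ, fs k v j = tF G.U v Q := by
  obtain ⟨Q, hQ⟩ := h (G.wj v j)
  by_cases hj : G.DL.n (G.wj v j) = 0
  · refine ⟨Q, ?_⟩
    rw [tF_good hn]
    funext g
    change k.f (G.wj v j) (Cub.Inc g) = _
    rw [hQ, tF_good (U := G.DL.toLevel) hj, sphF_wj_Inc hv j,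
      sf_congr (w := G.wj v j) (w' := v) ((qv_wj v j).trans hv.q_eq)]
  · refine ⟨1, ?_⟩
    rw [tF_one, G.U_eq v fun h' => h'.not_split hv]
    refine fs_eq_unitF k hv j ?_
    change k.f (G.wj v j) = unitF (G.DL.H (G.wj v j))
    rw [hQ, tF_bad (U := G.DL.toLevel) hj]

/-- The matching of the spherical pure tensors. -/
theorem isTF_aPure {k : Pure G.DL.toDatum} (h : k.IsTF)
    (hn : ∀ v, Split C v (G.up v) → ∀ j : Fin 3, G.DL.n (G.wj v j) = 0 → G.U.n v = 0) :
    (aPure k).IsTF := by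
  intro v
  change ∃ Q : Polynomial ℂ, af k v = tF G.U v Q
  by_cases hv : Split C v (G.up v)
  · rw [af_split k hv]
    have hU : G.U0.H v = G.U.H v := (G.U_eq v fun h' => h'.not_split hv).symm
    by_cases hn0 : G.U.n v = 0
    · obtain ⟨Q0, h0⟩ := fs_tF h hv hn0 0
      obtain ⟨Q1, h1⟩ := fs_tF h hv hn0 1
      obtain ⟨Q2, h2⟩ := fs_tF h hv hn0 2
      refine ⟨Q0 * Q1 * Q2, ?_⟩
      rw [tH_f, h0, h1, h2, hU, convF_tF G.U v Q0 Q1, convF_tF G.U v (Q0 * Q1) Q2]
    · refine ⟨1, ?_⟩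
      have e : ∀ j : Fin 3, fs k v j = unitF (G.U0.H v) := by
        intro j
        refine fs_eq_unitF k hv j ?_
        change k.f (G.wj v j) = unitF (G.DL.H (G.wj v j))
        obtain ⟨Q, hQ⟩ := h (G.wj v j)
        rw [hQ, tF_bad (U := G.DL.toLevel) fun h' => hn0 (hn v hv j h')]
      rw [tH_f, e 0, e 1, e 2, convF_unitF_left (biInv_unitF _),
        convF_unitF_left (biInv_unitF _), tF_one, hU]
  · rw [af_not_split k hv]
    exact ⟨1, by rw [tF_one]⟩

/-- the hypothesis of `isTF_aPure` from the levels -/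
theorem n_of_split (hs : ∀ v, Split C v (G.up v) → G.U.n v = G.DL.n (G.up v))
    (hpl : ∀ w, G.DL.n (pl C w) = 0 ↔ G.DL.n w = 0) (v : Pl K) (hv : Split C v (G.up v))
    (j : Fin 3) (h : G.DL.n (G.wj v j) = 0) : G.U.n v = 0 := by
  rw [hs v hv]
  have key : ∀ j : ℕ, G.DL.n (G.wj v j) = 0 → G.DL.n (G.up v) = 0 := by
    intro j
    induction j with
    | zero => exact fun h => h
    | succ j ih =>
      intro h
      apply ih
      rw [← G.pl_wj_succ v j]
      exact (hpl _).mpr h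
  exact key j h

theorem mem_Sph_aPure {P : LT.PS G.DL.toDatum} (hr : P.Rad) (h : ∀ j, (P.k j).IsTF)
    (hn : ∀ v, Split C v (G.up v) → ∀ j : Fin 3, G.DL.n (G.wj v j) = 0 → G.U.n v = 0) :
    (P.map aPure).ker ∈ Sph G.DK {v | G.DK.n v = 0} :=
  PS.mem_Sph_of_isTF (Q := P.map aPure) (fun j => rad_aPure (hr j)) fun j => isTF_aPure (h j) hn

end GeoDatum

end Fermat.LT
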