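import Fermat.Agent.LT.Geo.Ops
import Fermat.Agent.LT.Geo.Cpt
import Fermat.Agent.LT.Geo.EThreeB
import Fermat.Agent.LT.Top.IfaceL
import Fermat.Agent.LT.B.TwInst

/-!
# LT/G: the twist `φ ↦ φ ∘ σX` and the operators

For `D : TwDatum C` (a datum for `L` on which `σ` acts):
* `opX_σX`, `TX_σX`, `RX_σX` : the operators on `φ ∘ σX`;
* `IsCusp.comp_σX`, `IsEig.comp_σX`, `SType.comp_σX`;
* `measurePreserving_σX`.
(helper23)
-/

set_option autoImplicit false
set_option linter.unusedSectionVars false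

open NumberField IsDedekindDomain Matrix MeasureTheory Set
open Fermat.Agent.LT.D Fermat.Agent.LT.B Fermat.Agent.LT.CArch Fermat.Agent.LT.Top

namespace Fermat.LT

namespace TwDatum

variable {K L : Type} [Field K] [NumberField K] [Field L] [NumberField L] [Algebra K L]
variable {C : Cub K L} (D : TwDatum C)

theorem σl_bijective {w w' : Pl L} (h : pl C w = w') : Function.Bijective (D.σl h) := by
  refine ⟨D.σl_injective h, fun y => ?_⟩
  obtain ⟨g, rfl⟩ := QuotientGroup.mk_surjective y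
  refine ⟨((C.S (C.S g) : G2 L) : Yl D.toLevel w), ?_⟩
  rw [σl_mk, C.S_cube]

theorem σI_update (x : XI D.toArch) (i : D.I) (R : H3) :
    D.σI (Function.update x i R) = Function.update (D.σI x) (D.perm.symm i) R := by
  funext j
  rw [σI_apply]
  by_cases h : j = D.perm.symm i
  · subst h
    rw [Equiv.apply_symm_apply, Function.update_self, Function.update_self]
  · rw [Function.update_of_ne h, Function.update_of_ne]
    · rfl
    · intro h'
      exact h (by rw [← h', Equiv.symm_apply_apply])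

/-- the local operators -/
theorem opX_σX {w : Pl L} {t t' : G2 L → ℂ} (ht : BiInv (D.H w) t)
    (ht' : BiInv (D.H (pl C w)) t') (h : ∀ g, t' (C.S g) = t g) (φ : X D.toDatum → ℂ)
    (x : X D.toDatum) :
    opX w t (fun x => φ (D.σX x)) x = opX (pl C w) t' φ (D.σX x) := by
  unfold opX
  rw [← finsum_comp_equiv (Equiv.ofBijective _ (D.σl_bijective (w := w) rfl))]
  refine finsum_congr fun z => ?_
  rw [Equiv.ofBijective_apply]
  congr 1
  · change _ = kw (D.H (pl C w)) t' ((D.σY x.2) (pl C w)) _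
    rw [D.σY_apply' x.2 rfl]
    obtain ⟨a, ha⟩ := QuotientGroup.mk_surjective (x.2 w)
    obtain ⟨b, rfl⟩ := QuotientGroup.mk_surjective z
    rw [← ha]
    change kw (D.H w) t (a : G2 L ⧸ D.H w) (b : G2 L ⧸ D.H w) =
      kw (D.H (pl C w)) t' ((C.S a : G2 L) : G2 L ⧸ D.H (pl C w))
        ((C.S b : G2 L) : G2 L ⧸ D.H (pl C w))
    rw [kw_mk ht, kw_mk ht', ← h, map_mul, map_inv]
  · have e : D.σX (x.1, upd x.2 w z) = ((D.σX x).1, upd (D.σX x).2 (pl C w) (D.σl rfl z)) := by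
      refine Prod.ext rfl ?_
      exact D.σY_upd x.2 w z
    exact congrArg φ e

theorem T1_S (w : Pl L) (g : G2 L) : T1 (pl C w) (C.S g) = T1 w g := by
  unfold T1
  have h1 : (C.S g)⁻¹ = C.S g⁻¹ := (map_inv _ _).symm
  rw [h1, qv_pl]
  have h2 : ∀ g : G2 L, nm (pl C w) (C.S g).1 = nm w g.1 := fun g => nm_pl C w g.1
  rw [h2, h2]

theorem TX_σX (w : Pl L) (φ : X D.toDatum → ℂ) (x : X D.toDatum) :
    TX w (fun x => φ (D.σX x)) x = TX (pl C w) φ (D.σX x) := by
  rw [← opX_T1, ← opX_T1]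
  exact D.opX_σX (biInv_T1_of_le (D.le_std w)) (biInv_T1_of_le (D.le_std _)) (T1_S w) φ x

theorem RX_σX (i : D.I) (g : ℝ → ℂ) (φ : X D.toDatum → ℂ) (x : X D.toDatum) :
    RX i g (fun x => φ (D.σX x)) x = RX (D.perm.symm i) g φ (D.σX x) := by
  unfold RX
  have h1 : (D.σX x).1 (D.perm.symm i) = x.1 i := by
    change D.σI x.1 (D.perm.symm i) = _
    rw [σI_apply, Equiv.apply_symm_apply]
  rw [h1]
  congr 1
  funext R
  have e : D.σX (updI x i R) = updI (D.σX x) (D.perm.symm i) R := by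
    refine Prod.ext ?_ rfl
    exact D.σI_update x.1 i R
  exact congrArg φ e

/-! ### Cusp forms -/

/-- the action of `σ` on translation vectors -/
noncomputable def permL : (D.I → ℂ) ≃ₗ[ℝ] (D.I → ℂ) := LinearEquiv.funCongrLeft ℝ ℂ D.perm

theorem permL_apply (u : D.I → ℂ) (i : D.I) : D.permL u i = u (D.perm i) := rfl

theorem permL_mem_bLat {u : D.I → ℂ} {y : Y D.toLevel} (h : u ∈ bLat D.toArch y) :
    D.permL u ∈ bLat D.toArch (D.σY y) := by
  obtain ⟨β, hβ, rfl⟩ := h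
  refine ⟨C.σ β, ?_, ?_⟩
  · change un (C.σ β) • D.σY y = D.σY y
    rw [← S_un, ← D.σY_smul]
    congr 1
  · funext i
    change D.emb i (C.σ β) = D.emb (D.perm i) β
    rw [D.emb_perm]

theorem meanZero_comp_σX {φ : X D.toDatum → ℂ} (h : MeanZero φ) :
    MeanZero fun x => φ (D.σX x) := by
  intro x n b hb
  have h1 := h (D.σX x) n (b.map D.permL) (fun l => by
    rw [Module.Basis.map_apply]
    exact D.permL_mem_bLat (hb l))
  rw [← h1]
  unfold boxMean
  congr 1
  funext s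
  change φ (D.σX (trX (0 + ∑ i, s i • b i) x)) =
    φ (trX (0 + ∑ i, s i • (b.map D.permL) i) (D.σX x))
  rw [σX_trX]
  change φ (trX (D.permL (0 + ∑ i, s i • b i)) (D.σX x)) = _
  rw [map_add, map_zero, map_sum]
  simp only [Module.Basis.map_apply, map_smul]

theorem isCusp_comp_σX {φ : X D.toDatum → ℂ} (h : IsCusp φ) :
    IsCusp fun x => φ (D.σX x) where
  cont := h.cont.comp D.continuous_σX
  inv γ x := by rw [D.σX_smul_pg, h.inv]
  decay M := by
    obtain ⟨B, hB⟩ := h.decay M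
    refine ⟨B, fun x v hv => ?_⟩
    rw [← D.ht_σX v x]
    exact hB _ _ (sv_ne C hv)
  mean := D.meanZero_comp_σX h.mean

theorem isEig_comp_σX {φ : X D.toDatum → ℂ} {P P' : Set (Pl L)} {lam lam' : Pl L → ℂ}
    {s s' : D.I → ℂ} (h : IsEig P lam s φ) (hP : ∀ w ∈ P', pl C w ∈ P)
    (hl : ∀ w ∈ P', lam' w = lam (pl C w)) (hs : ∀ i, s' i = s (D.perm.symm i)) :
    IsEig P' lam' s' fun x => φ (D.σX x) where
  hecke w hw x := by
    rw [D.TX_σX, h.hecke _ (hP w hw), hl w hw]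
    have e : Agent.LT.CTree.sq (pl C w) = Agent.LT.CTree.sq w := by
      unfold Agent.LT.CTree.sq
      rw [qv_pl]
    rw [e]
  arch i g hg x := by
    rw [D.RX_σX, h.arch _ g hg, hs i]

/-! ### The shell projectors -/

theorem HT_ne_stdH {F : Type} [Field F] [NumberField F] (w : Pl F) (M : ℕ) :
    HT w M ≠ stdH w := by
  intro h
  have h1 : un (1 : F) ∈ intGL w := un_mem_intGL w (by rw [map_one])
  have h2 : un (1 : F) ∈ HT w M := by rw [h]; exact intGL_le_stdH w h1
  have h3 := (mem_HT' w M).mp h2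
  have h4 : av w ((un (1 : F)).1 0 1) = 1 := by
    have : (un (1 : F)).1 0 1 = 1 := by simp [un, Matrix.GeneralLinearGroup.mkOfDetNeZero]
    rw [this, map_one]
  have h5 : nm w (un (1 : F)).1 ≤ 1 := h1.1
  exact absurd (h3.2.2.trans_le h5) (by rw [h4]; exact lt_irrefl _)

variable {M : ℕ}

theorem n_pl_ne {w : Pl L} (hlev : ∀ w, D.n w ≠ 0 → D.H w = HT w M) (hw : D.n w = 0) :
    D.n (pl C w) = 0 := by
  by_contra h
  have h1 := hlev _ h
  apply HT_ne_stdH (pl C w) M
  rw [← h1]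
  refine le_antisymm (D.le_std _) fun g hg => ?_
  have h2 : C.S (C.S (C.S g)) = g := C.S_cube g
  rw [← h2]
  rw [D.H_pl, D.toLevel.H_eq hw]
  rw [← h2] at hg
  exact (stdH_pl C w _).mp hg

theorem n_pl_iff (hlev : ∀ w, D.n w ≠ 0 → D.H w = HT w M) (w : Pl L) :
    D.n (pl C w) = 0 ↔ D.n w = 0 := by
  refine ⟨fun h => ?_, D.n_pl_ne hlev⟩
  have h1 := D.n_pl_ne hlev (D.n_pl_ne hlev h)
  rwa [pl_cube] at h1

theorem sType_comp_σX (hlev : ∀ w, D.n w ≠ 0 → D.H w = HT w M) {φ : X D.toDatum → ℂ}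
    (h : SType D.toDatum M φ) : SType D.toDatum M fun x => φ (D.σX x) := by
  intro w hw
  funext x
  have hw' : D.n (pl C w) ≠ 0 := fun h' => hw ((D.n_pl_iff hlev w).mp h')
  rw [D.opX_σX (t' := ew (pl C w) M) (by rw [hlev w hw]; exact biInv_ew w M)
    (by rw [hlev _ hw']; exact biInv_ew _ M) (ew_pl C M w)]
  rw [h _ hw']

/-- `φ ∘ σX` for `EForm`s. -/
theorem eForm_comp_σX (hlev : ∀ w, D.n w ≠ 0 → D.H w = HT w M) {lam : Pl L → ℝ}
    {φ : X D.toDatum → ℂ} (h : EForm D.toDatum lam φ) :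
    EForm D.toDatum (fun w => lam (pl C w)) fun x => φ (D.σX x) where
  cusp := D.isCusp_comp_σX h.cusp
  eig := D.isEig_comp_σX h.eig (fun w hw => (D.n_pl_iff hlev w).mpr hw) (fun _ _ => rfl)
    fun _ => rfl
  ne := by
    intro h0
    apply h.ne
    funext x
    have h1 := congrFun h0 (D.σX (D.σX x))
    change φ (D.σX (D.σX (D.σX x))) = 0 at h1
    rwa [D.σX_cube] at h1

end TwDatum

end Fermat.LT
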