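import Fermat.Agent.LT.G.FamilyEv
import Fermat.Agent.LT.G.TwEig

/-!
# LT/G: the local projectors for the level `HT w M`

* `LevHT G M` : the level condition on `L`;
* `projHT h : LocProj G`; `mem_lL_projHT`, `tL_projHT`.
* `opX_opX_comm`, `opX_TX`, `opX_RX` : commutation at different places;
* `opT_idem`, `sType_opT` : the image of the projector.
-/

set_option autoImplicit false
set_option linter.unusedSectionVars false

open NumberField IsDedekindDomain Matrix MeasureTheory
open Fermat.Agent.LT.D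
open Fermat.Agent.LT.B (upd upd_same upd_ne TX RX updI)
open Fermat.Agent.LT.CArch (IsTest hat)

namespace Fermat.LT

/-! ### Commutation of operators at different places -/

section comm

variable {F : Type} [Field F] [NumberField F] {D : Datum F}

theorem upd_comm_ne {U : Level F} (y : Y U) {w w' : Pl F} (h : w ≠ w') (z : Yl U w)
    (z' : Yl U w') : upd (upd y w z) w' z' = upd (upd y w' z') w z := by
  refine Y.ext' fun v => ?_
  by_cases h1 : v = w
  · subst h1
    rw [upd_ne _ h, upd_same, upd_same]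
  · by_cases h2 : v = w'
    · subst h2
      rw [upd_same, upd_ne _ h1, upd_same]
    · rw [upd_ne _ h2, upd_ne _ h1, upd_ne _ h1, upd_ne _ h2]

theorem opX_opX_comm {w w' : Pl F} (h : w ≠ w') {t t' : G2 F → ℂ} (ht : BiInv (D.H w) t)
    (hs : FinS (D.H w) t) (ht' : BiInv (D.H w') t') (hs' : FinS (D.H w') t') (φ : X D → ℂ) :
    opX w t (opX w' t' φ) = opX w' t' (opX w t φ) := by
  funext x
  rw [opX_eq_sum ht hs, opX_eq_sum ht' hs']
  have e1 : ∀ z, opX w' t' φ (x.1, upd x.2 w z) =
      ∑ z' ∈ (rowFin_kw ht' hs' (x.2 w')).toFinset, kw (D.H w') t' (x.2 w') z' *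
        φ (x.1, upd (upd x.2 w z) w' z') := by
    intro z
    rw [opX_eq_sum ht' hs']
    have h1 : (upd x.2 w z) w' = x.2 w' := upd_ne _ h.symm _
    change ∑ z' ∈ (rowFin_kw ht' hs' ((upd x.2 w z) w')).toFinset,
      kw (D.H w') t' ((upd x.2 w z) w') z' * _ = _
    simp only [h1]
  have e2 : ∀ z', opX w t φ (x.1, upd x.2 w' z') =
      ∑ z ∈ (rowFin_kw ht hs (x.2 w)).toFinset, kw (D.H w) t (x.2 w) z *
        φ (x.1, upd (upd x.2 w' z') w z) := by
    intro z'
    rw [opX_eq_sum ht hs]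
    have h1 : (upd x.2 w' z') w = x.2 w := upd_ne _ h _
    change ∑ z ∈ (rowFin_kw ht hs ((upd x.2 w' z') w)).toFinset,
      kw (D.H w) t ((upd x.2 w' z') w) z * _ = _
    simp only [h1]
  simp only [e1, e2, Finset.mul_sum]
  rw [Finset.sum_comm]
  refine Finset.sum_congr rfl fun z' _ => Finset.sum_congr rfl fun z _ => ?_
  rw [upd_comm_ne _ h, mul_left_comm]

theorem opX_TX_comm {w w' : Pl F} (h : w ≠ w') {t : G2 F → ℂ} (ht : BiInv (D.H w) t)
    (hs : FinS (D.H w) t) (φ : X D → ℂ) : opX w t (TX w' φ) = TX w' (opX w t φ) := by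
  rw [← opX_T1, ← opX_T1]
  exact opX_opX_comm h ht hs (biInv_T1_of_le (D.le_std w')) (finS_T1_lvl _ w') φ

theorem opX_RX_comm {w : Pl F} {t : G2 F → ℂ} (ht : BiInv (D.H w) t)
    (hs : FinS (D.H w) t) (i : D.I) {g : ℝ → ℂ} (hg : IsTest g) {φ : X D → ℂ}
    (hφ : Continuous φ) : opX w t (RX i g φ) = RX i g (opX w t φ) := by
  funext x
  rw [opX_eq_sum ht hs]
  change ∑ z ∈ (rowFin_kw ht hs (x.2 w)).toFinset, kw (D.H w) t (x.2 w) z *
    ∫ R : H3, radK g (x.1 i) R * φ (updI (x.1, upd x.2 w z) i R) =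
      ∫ R : H3, radK g (x.1 i) R * opX w t φ (updI x i R)
  have e : ∀ R : H3, radK g (x.1 i) R * opX w t φ (updI x i R) =
      ∑ z ∈ (rowFin_kw ht hs (x.2 w)).toFinset, kw (D.H w) t (x.2 w) z *
        (radK g (x.1 i) R * φ (updI (x.1, upd x.2 w z) i R)) := by
    intro R
    rw [opX_eq_sum ht hs, Finset.mul_sum]
    exact Finset.sum_congr rfl fun z _ => mul_left_comm _ _ _
  simp only [e]
  rw [integral_finsetSum]
  · exact Finset.sum_congr rfl fun z _ => (integral_const_mul _ _).symm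
  · intro z _
    refine Integrable.const_mul ?_ _
    have hb := radK_ppi hg
    obtain ⟨R₀, hR₀⟩ := hb.supp
    refine Continuous.integrable_of_hasCompactSupport
      ((hb.cont_right (x.1 i)).mul (hφ.comp (continuous_updI _ i)))
      (HasCompactSupport.intro (H3.isCompact_ball (x.1 i) R₀) fun R hR => ?_)
    have h3 : radK g (x.1 i) R = 0 := by
      by_contra h0
      exact hR (hR₀ _ _ h0)
    rw [h3, zero_mul]

variable {t : Pl F → G2 F → ℂ} (ht : ∀ w, BiInv (D.H w) (t w)) (hs : ∀ w, FinS (D.H w) (t w))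

include ht hs in
theorem opT_opX_comm {l : List (Pl F)} {w' : Pl F} (h : w' ∉ l) {t' : G2 F → ℂ}
    (ht' : BiInv (D.H w') t') (hs' : FinS (D.H w') t') (φ : X D → ℂ) :
    opT t l (opX w' t' φ) = opX w' t' (opT t l φ) := by
  induction l with
  | nil => rfl
  | cons w l ih =>
    rw [opT_cons, opT_cons, ih fun h' => h (List.mem_cons_of_mem _ h'),
      opX_opX_comm (fun e => h (by rw [← e]; exact List.mem_cons_self)) (ht w) (hs w) ht' hs']

include ht hs in
theorem opT_TX {l : List (Pl F)} {w' : Pl F} (h : w' ∉ l) (φ : X D → ℂ) :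
    opT t l (TX w' φ) = TX w' (opT t l φ) := by
  rw [← opX_T1, ← opX_T1]
  exact opT_opX_comm ht hs h (biInv_T1_of_le (D.le_std w')) (finS_T1_lvl _ w') φ

include ht hs in
theorem continuous_opT (l : List (Pl F)) {φ : X D → ℂ} (hφ : Continuous φ) :
    Continuous (opT t l φ) := by
  induction l with
  | nil => exact hφ
  | cons w l ih => exact continuous_opX (ht w) (hs w) ih

include ht hs in
theorem opT_RX (l : List (Pl F)) (i : D.I) {g : ℝ → ℂ} (hg : IsTest g) {φ : X D → ℂ}
    (hφ : Continuous φ) : opT t l (RX i g φ) = RX i g (opT t l φ) := by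
  induction l with
  | nil => rfl
  | cons w l ih =>
    rw [opT_cons, opT_cons, ih, opX_RX_comm (ht w) (hs w) i hg (continuous_opT ht hs l hφ)]

include ht in
theorem opT_inv (l : List (Pl F)) {φ : X D → ℂ} (hφ : ∀ (γ : PG F) x, φ (γ • x) = φ x)
    (γ : PG F) (x : X D) : opT t l φ (γ • x) = opT t l φ x := by
  induction l generalizing γ x with
  | nil => exact hφ γ x
  | cons w l ih => exact opX_inv (ht w) (fun γ x => ih γ x) γ x

include ht hs in
/-- idempotence at one place of the list -/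
theorem opX_opT_mem {l : List (Pl F)} (hl : l.Nodup) {w : Pl F} (hw : w ∈ l)
    (hid : convF (D.H w) (t w) (t w) = t w) (φ : X D → ℂ) :
    opX w (t w) (opT t l φ) = opT t l φ := by
  induction l with
  | nil => simp at hw
  | cons v l ih =>
    rw [List.nodup_cons] at hl
    rw [opT_cons]
    rcases List.mem_cons.mp hw with rfl | h'
    · rw [← opX_convF (ht w) (hs w) (ht w) (hs w), hid]
    · have hne : w ≠ v := fun e => hl.1 (e ▸ h')
      rw [opX_opX_comm hne (ht w) (hs w) (ht v) (hs v), ih hl.2 h']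

end comm

namespace GeoDatum

variable {K L : Type} [Field K] [NumberField K] [Field L] [NumberField L] [Algebra K L]
variable {C : Cub K L}

/-- The level on `L` : full, or `HT w M` at places which are not fixed by `σ`. -/
def LevHT (G : GeoDatum C) (M : ℕ) : Prop :=
  ∀ w, G.DL.n w = 0 ∨ (G.DL.H w = HT w M ∧ pl C w ≠ w)

variable {G : GeoDatum C} {M : ℕ}

theorem LevHT.H_eq (h : LevHT G M) : ∀ w, G.DL.n w ≠ 0 → G.DL.H w = HT w M := fun w hw =>
  ((h w).resolve_left hw).1

theorem LevHT.split (h : LevHT G M) {v : Pl K} (hv : G.DL.n (G.up v) ≠ 0) :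
    Split C v (G.up v) := by
  have hne := ((h _).resolve_left hv).2
  rcases G.typ v with h1 | h1 | h1
  · exact h1
  · exact absurd h1.fix hne
  · exact absurd h1.fix hne

theorem LevHT.n_symm_iff (h : LevHT G M) (w : Pl L) :
    G.DL.n ((pl C).symm w) = 0 ↔ G.DL.n w = 0 := by
  have := G.DL.n_pl_iff h.H_eq ((pl C).symm w)
  rw [Equiv.apply_symm_apply] at this
  exact this.symm

theorem LevHT.n_wj_iff (h : LevHT G M) (v : Pl K) (j : ℕ) :
    G.DL.n (((pl C).symm)^[j] (G.up v)) = 0 ↔ G.DL.n (G.up v) = 0 := by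
  induction j with
  | zero => rfl
  | succ j ih => rw [Function.iterate_succ_apply', h.n_symm_iff, ih]

theorem LevHT.n_down_iff (h : LevHT G M) (w : Pl L) :
    G.DL.n (G.up (G.down w)) = 0 ↔ G.DL.n w = 0 := by
  rcases G.up_down w with h1 | h1 | h1
  · rw [← h1]
  · conv_rhs => rw [h1]
    rw [G.DL.n_pl_iff h.H_eq]
  · conv_rhs => rw [h1]
    rw [G.DL.n_pl_iff h.H_eq, G.DL.n_pl_iff h.H_eq]

theorem LevHT.n_eq_zero_of_H (h : LevHT G M) {w : Pl L} (hw : G.DL.H w = stdH w) :
    G.DL.n w = 0 := by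
  by_contra hc
  exact TwDatum.HT_ne_stdH w M ((h.H_eq w hc).symm.trans hw)

theorem LevHT.HK_eq (h : LevHT G M) {v : Pl K} (hv : G.DL.n (G.up v) ≠ 0) :
    G.DK.H v = HT v M := by
  have hs := h.split hv
  have e : G.DK.H v = G.U0.H v := G.U_eq v fun h' => h'.not_split hs
  rw [e]
  ext g
  rw [G.H_split v hs, h.H_eq _ hv]
  exact HT_Inc M hs g

theorem ew_wj_Inc (v : Pl K) (M j : ℕ) (g : G2 K) :
    ew (((pl C).symm)^[j] (G.up v)) M (Cub.Inc g : G2 L) = ew (G.up v) M (Cub.Inc g) := by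
  induction j with
  | zero => rfl
  | succ j ih =>
    rw [← ih, Function.iterate_succ_apply',
      ← ew_pl C M ((pl C).symm (((pl C).symm)^[j] (G.up v))), C.S_Inc, Equiv.apply_symm_apply]

theorem finite_bad (G : GeoDatum C) : {v | G.DL.n (G.up v) ≠ 0}.Finite :=
  G.DL.n_fin.preimage up_injective.injOn

open Classical in
/-- **The local projectors for the level `HT w M`.** -/
noncomputable def projHT (h : LevHT G M) : LocProj G where
  lK := G.finite_bad.toFinset.toList
  nodup := Finset.nodup_toList _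
  split v hv := by
    rw [Finset.mem_toList, Set.Finite.mem_toFinset] at hv
    exact h.split hv
  ne v hv := by
    rw [Finset.mem_toList, Set.Finite.mem_toFinset] at hv
    rw [h.H_eq _ hv]
    exact TwDatum.HT_ne_stdH _ M
  tL w := if G.DL.n w = 0 then unitF (G.DL.H w) else ew w M
  tK v := if G.DL.n (G.up v) = 0 then unitF (G.DK.H v) else ew v M
  biL w := by
    by_cases hw : G.DL.n w = 0
    · rw [if_pos hw]; exact biInv_unitF _
    · rw [if_neg hw, h.H_eq w hw]; exact biInv_ew w M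
  finL w := by
    by_cases hw : G.DL.n w = 0
    · rw [if_pos hw]; exact finS_unitF
    · rw [if_neg hw, h.H_eq w hw]; exact finS_ew w M
  biK v := by
    by_cases hv : G.DL.n (G.up v) = 0
    · rw [if_pos hv]; exact biInv_unitF _
    · rw [if_neg hv, h.HK_eq hv]; exact biInv_ew v M
  finK v := by
    by_cases hv : G.DL.n (G.up v) = 0
    · rw [if_pos hv]; exact finS_unitF
    · rw [if_neg hv, h.HK_eq hv]; exact finS_ew v M
  inc v hv j g := by
    rw [Finset.mem_toList, Set.Finite.mem_toFinset] at hv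
    have h1 : ¬ G.DL.n (((pl C).symm)^[(j : ℕ)] (G.up v)) = 0 := fun h' =>
      hv ((h.n_wj_iff v j).mp h')
    rw [if_neg h1, if_neg (show ¬ G.DL.n (G.up v) = 0 from hv), ew_wj_Inc,
      ew_Inc M (h.split hv)]
  idem v hv := by
    rw [Finset.mem_toList, Set.Finite.mem_toFinset] at hv
    rw [if_neg (show ¬ G.DL.n (G.up v) = 0 from hv), h.HK_eq hv]
    exact convF_ew v M

theorem mem_lK_projHT (h : LevHT G M) {v : Pl K} :
    v ∈ (projHT h).lK ↔ G.DL.n (G.up v) ≠ 0 := by
  change v ∈ G.finite_bad.toFinset.toList ↔ _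
  rw [Finset.mem_toList, Set.Finite.mem_toFinset]
  rfl

theorem mem_lL_projHT (h : LevHT G M) {w : Pl L} : w ∈ (projHT h).lL ↔ G.DL.n w ≠ 0 := by
  rw [LocProj.mem_lL, mem_lK_projHT, Ne, h.n_down_iff]

theorem tL_projHT (h : LevHT G M) {w : Pl L} (hw : G.DL.n w ≠ 0) :
    (projHT h).tL w = ew w M := if_neg hw

theorem idem_tL (h : LevHT G M) (w : Pl L) :
    convF (G.DL.H w) ((projHT h).tL w) ((projHT h).tL w) = (projHT h).tL w := by
  by_cases hw : G.DL.n w = 0
  · have e : (projHT h).tL w = unitF (G.DL.H w) := if_pos hw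
    rw [e, convF_unitF_left (biInv_unitF _)]
  · rw [tL_projHT h hw, h.H_eq w hw]
    exact convF_ew w M

/-- **The image of the projector.** -/
theorem sType_opT (h : LevHT G M) (φ : X G.DL.toDatum → ℂ) :
    Fermat.Agent.LT.Top.SType G.DL.toDatum M (opT (projHT h).tL (projHT h).lL φ) := by
  intro w hw
  have h1 := opX_opT_mem (projHT h).biL (projHT h).finL (projHT h).nodup_lL
    ((mem_lL_projHT h).mpr hw) (idem_tL h w) φ
  rwa [tL_projHT h hw] at h1

/-- **The projector on its image.** -/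
theorem opT_of_sType (h : LevHT G M) {φ : X G.DL.toDatum → ℂ}
    (hφ : Fermat.Agent.LT.Top.SType G.DL.toDatum M φ) :
    opT (projHT h).tL (projHT h).lL φ = φ := by
  refine opT_fix fun w hw => ?_
  have hw' := (mem_lL_projHT h).mp hw
  rw [tL_projHT h hw']
  exact hφ w hw'

end GeoDatum

end Fermat.LT
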