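import Fermat.Agent.LT.G.MainOf
import Fermat.Agent.LT.G.LocProjHT
import Fermat.Agent.LT.CTree.KillTop

/-!
# LT/G: `DescGeo`
(helper23)
-/

set_option autoImplicit false

open NumberField IsDedekindDomain Matrix MeasureTheory Set
open Fermat.LT Fermat.LT.GeoDatum Fermat.Agent.LT.B Fermat.Agent.LT.D Fermat.Agent.LT.Top

namespace Fermat.Agent.LT.G

variable {K L : Type} [Field K] [NumberField K] [Field L] [NumberField L] [Algebra K L]
variable {C : Cub K L} {G : GeoDatum C} {M : ℕ} {lam : Pl L → ℝ} {φ : X G.DL.toDatum → ℂ}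

theorem badL (h : DescHyp G M lam φ) :
    BadL h (projHT (G := G) (M := M) h.lev).tL (projHT (G := G) (M := M) h.lev).lL where
  nodup := (projHT h.lev).nodup_lL
  mem _ := mem_lL_projHT h.lev
  eq _ hw := tL_projHT h.lev ((mem_lL_projHT h.lev).mp hw)

/-- **Output of piece G.** -/
theorem descGeo : DescGeo := by
  intro K L _ _ _ _ _ C G M lam φ h
  obtain ⟨Q, h1, h2, h3, h4, h5, -, h6, h7, h8⟩ := CTree.exists_killer h
  exact descGeo_of h ⟨h1, h2, h3, h4, h5, h6, h7, h8⟩ (badL h)

end Fermat.Agent.LT.G
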