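import Fermat.Agent.LT.G.PSum
import Fermat.Agent.LT.Geo.NoHyp
import Fermat.Agent.LT.Geo.Deep
import Fermat.Agent.LT.Geo.MatchAll

/-!
# LT/G: the family of test functions and the geometric identity

* `Idx G` : the test operators (Hecke operators at the split places of full level, archimedean
  operators with kernel a test function);
* `ins1L`, `ins1K`, `insLL`, `insKL` : insertion of (a list of) test operators;
* `Good.insLL`, `oddTest_insLL` : the family is good, and odd at `u`;
* `GeoMain` : the geometric theorem for one pure tensor;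
* `exists_geo_const` : the identity for the whole family, with a uniform constant.
-/

set_option autoImplicit false
set_option linter.unusedSectionVars false

open NumberField IsDedekindDomain Matrix MeasureTheory
open Fermat.Agent.LT.D
open Fermat.Agent.LT.B (IsTestKer autK)
open Fermat.Agent.LT.CArch (IsTest)
open scoped ENNReal

namespace Fermat.LT

section general

variable {F : Type} [Field F] [NumberField F] {D : Datum F}

theorem biInv_T1' (D : Datum F) {w : Pl F} (h : D.H w = stdH w) : BiInv (D.H w) (T1 w) := by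
  rw [h]
  exact biInv_T1 w

/-- parity of the powers of the Hecke operator -/
def ParAtN (w : Pl F) (n : ℕ) (g : G2 F) : Prop := if Even n then EvenAt w g else OddAt w g

theorem ParAtN.zero {w : Pl F} {g : G2 F} (h : EvenAt w g) : ParAtN w 0 g := by
  unfold ParAtN
  rwa [if_pos (by decide)]

theorem ParAtN.succ {w : Pl F} {n : ℕ} {g h : G2 F} (h1 : OddAt w g) (h2 : ParAtN w n h) :
    ParAtN w (n + 1) (g * h) := by
  unfold ParAtN at *
  by_cases hn : Even n
  · rw [if_pos hn] at h2
    rw [if_neg (by rw [Nat.even_add_one]; exact not_not.mpr hn)]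
    exact h1.mul_even h2
  · rw [if_neg hn] at h2
    rw [if_pos (by rw [Nat.even_add_one]; exact hn)]
    exact h1.mul h2

theorem oddAt_of_T1 {w : Pl F} {g : G2 F} (h : T1 w g ≠ 0) : OddAt w g :=
  oddAt_of_dl (n := 1) (by decide) (by rw [pow_one]; exact dl_of_T1 w h)

end general

namespace GeoDatum

variable {K L : Type} [Field K] [NumberField K] [Field L] [NumberField L] [Algebra K L]
variable {C : Cub K L}

/-- The split places of full level. -/
abbrev SpPl (G : GeoDatum C) : Type :=
  {v : Pl K // Split C v (G.up v) ∧ G.DL.H (G.up v) = stdH (G.up v) ∧ G.U.H v = stdH v}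

/-- The test operators: Hecke operators at the split places of full level, and archimedean
operators attached to real even smooth functions with compact support. -/
abbrev Idx (G : GeoDatum C) : Type := G.SpPl ⊕ {g : ℝ → ℂ // IsTest g ∧ ∀ t, (g t).im = 0}

variable {G : GeoDatum C}

theorem biT (G : GeoDatum C) (v : G.SpPl) : BiInv (G.DL.H (G.up v.1)) (T1 (G.up v.1)) :=
  biInv_T1' G.DL.toDatum v.2.2.1

theorem fiT (G : GeoDatum C) (v : G.SpPl) : FinS (G.DL.H (G.up v.1)) (T1 (G.up v.1)) :=
  finS_T1 G.DL.toLevel _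

theorem biTK (G : GeoDatum C) (v : G.SpPl) : BiInv (G.DK.H v.1) (T1 v.1) :=
  biInv_T1' G.DK v.2.2.2

theorem fiTK (G : GeoDatum C) (v : G.SpPl) : FinS (G.DK.H v.1) (T1 v.1) :=
  finS_T1 G.DK.toLevel _

/-- insertion of a test operator on the `L`-side -/
noncomputable def ins1L (s : G.Idx) (k : Pure G.DL.toDatum) : Pure G.DL.toDatum :=
  match s with
  | .inl v => k.insL (G.up v.1) (biT G v) (fiT G v)
  | .inr g => k.insAL G.ι (radK_ppi g.2.1)

/-- insertion of a test operator on the `K`-side -/
noncomputable def ins1K (s : G.Idx) (k : Pure G.DK) : Pure G.DK :=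
  match s with
  | .inl v => k.insL v.1 (biTK G v) (fiTK G v)
  | .inr g => k.insAL G.uK.default (radK_ppi g.2.1)

/-- insertion of a list of test operators on the `L`-side -/
noncomputable def insLL (l : List G.Idx) (k : Pure G.DL.toDatum) : Pure G.DL.toDatum :=
  l.foldr ins1L k

/-- insertion of a list of test operators on the `K`-side -/
noncomputable def insKL (l : List G.Idx) (k : Pure G.DK) : Pure G.DK := l.foldr ins1K k

@[simp] theorem insLL_nil (k : Pure G.DL.toDatum) : insLL [] k = k := rfl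

@[simp] theorem insLL_cons (s : G.Idx) (l : List G.Idx) (k : Pure G.DL.toDatum) :
    insLL (s :: l) k = ins1L s (insLL l k) := rfl

@[simp] theorem insKL_nil (k : Pure G.DK) : insKL [] k = k := rfl

@[simp] theorem insKL_cons (s : G.Idx) (l : List G.Idx) (k : Pure G.DK) :
    insKL (s :: l) k = ins1K s (insKL l k) := rfl

theorem insLL_append (l l' : List G.Idx) (k : Pure G.DL.toDatum) :
    insLL (l ++ l') k = insLL l (insLL l' k) := by
  unfold insLL
  rw [List.foldr_append]

theorem insKL_append (l l' : List G.Idx) (k : Pure G.DK) :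
    insKL (l ++ l') k = insKL l (insKL l' k) := by
  unfold insKL
  rw [List.foldr_append]

/-! ### Insertions and products -/

theorem ins1L_mul (s : G.Idx) (k k' : Pure G.DL.toDatum) :
    (ins1L s k).mul k' = ins1L s (k.mul k') := by
  rcases s with v | g
  · exact k.insL_mul k' (G.up v.1) (biT G v) (fiT G v)
  · exact k.insAL_mul k' G.ι (radK_ppi g.2.1)

theorem ins1K_mul (s : G.Idx) (k k' : Pure G.DK) :
    (ins1K s k).mul k' = ins1K s (k.mul k') := by
  rcases s with v | g
  · exact k.insL_mul k' v.1 (biTK G v) (fiTK G v)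
  · exact k.insAL_mul k' G.uK.default (radK_ppi g.2.1)

theorem insLL_mul (l : List G.Idx) (k k' : Pure G.DL.toDatum) :
    (insLL l k).mul k' = insLL l (k.mul k') := by
  induction l with
  | nil => rfl
  | cons s l ih => rw [insLL_cons, insLL_cons, ins1L_mul, ih]

theorem insKL_mul (l : List G.Idx) (k k' : Pure G.DK) :
    (insKL l k).mul k' = insKL l (k.mul k') := by
  induction l with
  | nil => rfl
  | cons s l ih => rw [insKL_cons, insKL_cons, ins1K_mul, ih]

/-! ### Radial components -/

theorem rad_ins1L (s : G.Idx) {k : Pure G.DL.toDatum} (h : k.Rad) : (ins1L s k).Rad := by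
  rcases s with v | g
  · exact k.insL_rad (G.up v.1) (biT G v) (fiT G v) h
  · exact k.insAL_rad G.ι (radK_ppi g.2.1) h ⟨g.1, g.2.1, rfl⟩

theorem rad_ins1K (s : G.Idx) {k : Pure G.DK} (h : k.Rad) : (ins1K s k).Rad := by
  rcases s with v | g
  · exact k.insL_rad v.1 (biTK G v) (fiTK G v) h
  · exact k.insAL_rad G.uK.default (radK_ppi g.2.1) h ⟨g.1, g.2.1, rfl⟩

theorem rad_insLL (l : List G.Idx) {k : Pure G.DL.toDatum} (h : k.Rad) : (insLL l k).Rad := by
  induction l with
  | nil => exact h
  | cons s l ih => exact rad_ins1L s ih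

theorem rad_insKL (l : List G.Idx) {k : Pure G.DK} (h : k.Rad) : (insKL l k).Rad := by
  induction l with
  | nil => exact h
  | cons s l ih => exact rad_ins1K s ih

theorem rad_bPure {k : Pure G.DL.toDatum} (h : k.Rad) : (bPure k).Rad := fun _ =>
  ((h _).acomp (h _)).acomp (h _)

/-! ### Goodness -/

theorem ins1L_f_ne {s : G.Idx} {k : Pure G.DL.toDatum} {w : Pl L}
    (h : ∀ v : G.SpPl, s = .inl v → w ≠ G.up v.1) : (ins1L s k).f w = k.f w := by
  rcases s with v | g
  · exact k.insL_f_ne (G.up v.1) (biT G v) (fiT G v) (h v rfl)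
  · rfl

theorem insLL_f_ne {l : List G.Idx} {k : Pure G.DL.toDatum} {w : Pl L}
    (h : ∀ v : G.SpPl, .inl v ∈ l → w ≠ G.up v.1) : (insLL l k).f w = k.f w := by
  induction l with
  | nil => rfl
  | cons s l ih =>
    rw [insLL_cons, ins1L_f_ne, ih]
    · exact fun v hv => h v (List.mem_cons_of_mem _ hv)
    · rintro v rfl
      exact h v List.mem_cons_self

theorem insLL_f_up {l : List G.Idx} {k : Pure G.DL.toDatum} {v : Pl K}
    (h : ¬ Split C v (G.up v)) : (insLL l k).f (G.up v) = k.f (G.up v) := by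
  apply insLL_f_ne
  intro v' _ hv'
  exact h (up_injective hv' ▸ v'.2.1)

theorem Good.insLL {l : List G.Idx} {k : Pure G.DL.toDatum} (h : Good k) :
    Good (insLL l k) where
  inert v hv := by
    rw [insLL_f_up (fun h' => h'.ne hv.fix)]
    exact h.inert v hv
  ram v hv := by
    rw [insLL_f_up (fun h' => h'.ne hv.fix)]
    exact h.ram v hv

/-- unit at the inert and the ramified places -/
structure UnitIR (k : Pure G.DL.toDatum) : Prop where
  inert : ∀ v, Inert C v (G.up v) → k.f (G.up v) = unitF (G.DL.H (G.up v))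
  ram : ∀ v, Ram C v (G.up v) → k.f (G.up v) = unitF (G.DL.H (G.up v))

theorem Good.mul_left {A k : Pure G.DL.toDatum} (hA : UnitIR A) (h : Good k) :
    Good (A.mul k) where
  inert v hv := by
    rw [Pure.mul_f, hA.inert v hv, convF_unitF_left (k.f_bi _), h.inert v hv]
  ram v hv := by
    rw [Pure.mul_f, hA.ram v hv, convF_unitF_left (k.f_bi _), h.ram v hv]

/-! ### Parity -/

/-- powers of the Hecke operator at `u` -/
abbrev pw (u : G.SpPl) (n : ℕ) : List G.Idx := List.replicate n (.inl u)

theorem pw_parity {u : G.SpPl} {k : Pure G.DL.toDatum}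
    (h : k.f (G.up u.1) = unitF (G.DL.H (G.up u.1))) (n : ℕ) (g : G2 L)
    (hg : (insLL (pw u n) k).f (G.up u.1) g ≠ 0) : ParAtN (G.up u.1) n g := by
  induction n generalizing g with
  | zero =>
    rw [show pw u 0 = [] from rfl, insLL_nil, h] at hg
    exact ParAtN.zero (evenAt_of_unitF (G.DL.le_std _) hg)
  | succ n ih =>
    have e : pw u (n + 1) = .inl u :: pw u n := rfl
    rw [e, insLL_cons] at hg
    have e2 : (ins1L (.inl u) (insLL (pw u n) k)).f (G.up u.1) =
        convF (G.DL.H (G.up u.1)) (T1 (G.up u.1)) ((insLL (pw u n) k).f (G.up u.1)) :=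
      (insLL (pw u n) k).insL_f (G.up u.1) (biT G u) (fiT G u)
    rw [e2] at hg
    obtain ⟨x, hx⟩ : ∃ x : G2 L ⧸ G.DL.H (G.up u.1), T1 (G.up u.1) x.out *
        (insLL (pw u n) k).f (G.up u.1) (x.out⁻¹ * g) ≠ 0 := by
      by_contra hc
      push Not at hc
      apply hg
      unfold convF
      exact finsum_eq_zero_of_forall_eq_zero hc
    have h1 := oddAt_of_T1 (left_ne_zero_of_mul hx)
    have h2 := ih _ (right_ne_zero_of_mul hx)
    have h3 := h1.mul_even (w := G.up u.1) (h := 1) (evenAt_of_mem (one_mem _))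
    rw [mul_one] at h3
    have h4 := ParAtN.succ h3 h2
    rwa [mul_inv_cancel_left] at h4

/-- `k` is a unit at all places above `u` -/
def UnitAt (k : Pure G.DL.toDatum) (u : Pl K) : Prop :=
  ∀ w, G.down w = u → k.f w = unitF (G.DL.H w)

theorem oddTest_pw {u : G.SpPl} {k : Pure G.DL.toDatum} (h : UnitAt k u.1) {n : ℕ} (hn : Odd n) :
    OddTest (insLL (pw u n) k) u.1 where
  odd g hg := by
    have := pw_parity (h _ (G.down_up _)) n g hg
    unfold ParAtN at this
    rwa [if_neg (Nat.not_even_iff_odd.mpr hn)] at this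
  even w hw hne g hg := by
    rw [insLL_f_ne] at hg
    · rw [h w hw] at hg
      exact evenAt_of_unitF (G.DL.le_std _) hg
    · intro v hv
      have : (Sum.inl v : G.Idx) = .inl u := List.eq_of_mem_replicate hv
      rw [Sum.inl.inj this]
      exact hne

theorem finite_not_unitAt (k : Pure G.DL.toDatum) : {u : Pl K | ¬ UnitAt k u}.Finite := by
  refine (k.f_one.image G.down).subset ?_
  intro u hu
  change ¬ UnitAt k u at hu
  unfold UnitAt at hu
  push Not at hu
  obtain ⟨w, hw, hne⟩ := hu
  exact ⟨w, hne, hw⟩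

/-! ### The geometric theorem for the family -/

/-- **The geometric theorem (B)** for one pure tensor all of whose contributing classes are
elliptic. -/
def GeoMain (G : GeoDatum C) (wL : X G.DL.toDatum → ℝ≥0∞) (wK : X G.DK → ℝ≥0∞) : Prop :=
  ∀ k : Pure G.DL.toDatum, Good k → k.Rad →
    (∀ δ : G2 L, (∃ x : X G.DL.toDatum, k.ker x (δ • G.DL.σX x) ≠ 0) → Ell (C.N δ).1) →
    (∀ γ : G2 K, (∃ z : X G.DK, (bPure k).ker z (γ • z) ≠ 0) → Ell γ.1) →
    GeoEq G.DL G.DK wL wK k.ker (bPure k).ker

theorem insLL_pw_a (u : G.SpPl) (n : ℕ) (k : Pure G.DL.toDatum) (i : G.DL.I) :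
    (insLL (pw u n) k).a i = k.a i := by
  induction n with
  | zero => rfl
  | succ n ih =>
    have e : pw u (n + 1) = .inl u :: pw u n := rfl
    rw [e, insLL_cons, ← ih]
    rfl

theorem insLL_pw_f (u : G.SpPl) (n : ℕ) (k : Pure G.DL.toDatum) {w : Pl L}
    (h : G.down w ≠ u.1) : (insLL (pw u n) k).f w = k.f w := by
  apply insLL_f_ne
  intro v hv hw
  have : (Sum.inl v : G.Idx) = .inl u := List.eq_of_mem_replicate hv
  rw [Sum.inl.inj this] at hw
  exact h (by rw [hw, G.down_up])

/-- the constant for one pure tensor -/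
theorem exists_const_one {wL : X G.DL.toDatum → ℝ≥0∞} {wK : X G.DK → ℝ≥0∞}
    (hM : GeoMain G wL wK) {k : Pure G.DL.toDatum} (hk : Good k) (hr : k.Rad) :
    ∃ B : ℝ, ∀ u : G.SpPl, B < qv u.1 → ∀ n, Odd n →
      GeoEq G.DL G.DK wL wK (insLL (pw u n) k).ker (bPure (insLL (pw u n) k)).ker := by
  obtain ⟨B, hB⟩ := exists_noHyp_const k (bPure k) (fun _ => rfl) (fun _ => rfl)
  obtain ⟨B', hB'⟩ : ∃ B' : ℝ, ∀ u : Pl K, ¬ UnitAt k u → qv u ≤ B' := by
    obtain ⟨B', hB'⟩ := ((finite_not_unitAt k).image (fun u : Pl K => qv u)).bddAbove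
    exact ⟨B', fun u hu => hB' ⟨u, hu, rfl⟩⟩
  refine ⟨max B B', fun u hu n hn => ?_⟩
  have hunit : UnitAt k u.1 := by
    by_contra hc
    exact absurd hu (not_lt.mpr ((hB' _ hc).trans (le_max_right _ _)))
  obtain ⟨h1, h2⟩ := hB u.1 u.2.1 ((le_max_left _ _).trans_lt hu) (insLL (pw u n) k)
    (insLL_pw_a u n k) (fun w hw => insLL_pw_f u n k hw) (oddTest_pw hunit hn)
  exact hM _ hk.insLL (rad_insLL _ hr) h1 (h2 _ (fun _ => rfl) (fun _ => rfl))

/-- **The geometric identity for the family**, with a constant uniform in `u` and `n`. -/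
theorem exists_geo_const {wL : X G.DL.toDatum → ℝ≥0∞} {wK : X G.DK → ℝ≥0∞}
    (hM : GeoMain G wL wK) {P : PS G.DL.toDatum} (hk : ∀ j, Good (P.k j)) (hr : P.Rad) :
    ∃ B : ℝ, ∀ u : G.SpPl, B < qv u.1 → ∀ n, Odd n →
      GeoEq G.DL G.DK wL wK (P.map (insLL (pw u n))).ker
        ((P.map (insLL (pw u n))).map bPure).ker := by
  let _ := P.fJ
  choose B hB using fun j => exists_const_one hM (hk j) (hr j)
  refine ⟨∑ j, |B j|, fun u hu n hn => ?_⟩
  refine GeoEq.map (P := P.map (insLL (pw u n))) (fun j => ?_) (fun j => ?_) (fun j => ?_)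
  · exact Pure.isTestKer _ (rad_insLL (pw u n) (hr j))
  · exact Pure.isTestKer _ (rad_bPure (rad_insLL (pw u n) (hr j)))
  · refine hB j u (lt_of_le_of_lt ?_ hu) n hn
    exact (le_abs_self _).trans (Finset.single_le_sum (f := fun j : P.J => |B j|)
      (fun _ _ => abs_nonneg _) (Finset.mem_univ (α := P.J) j))

end GeoDatum

end Fermat.LT
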