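import Fermat.Agent.LT.G.FamilyRam
import Fermat.Agent.LT.Geo.BMulFam

/-!
# LT/G: the geometric identity for the whole family

* `tR G v`, `tBad E v` : the functions on the `K`-side at the bad places;
* `insBad E` : their insertion; `bPure_insE : bPure (E.insE k) = insBad E (aPure k)`;
* `exists_family_const` : **the geometric theorem for the family**.
-/

set_option autoImplicit false
set_option linter.unusedSectionVars false

open NumberField IsDedekindDomain Matrix MeasureTheory
open Fermat.Agent.LT.D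
open Fermat.Agent.LT.B (IsTestKer autK appK)
open scoped ENNReal

namespace Fermat.LT.GeoDatum

variable {K L : Type} [Field K] [NumberField K] [Field L] [NumberField L] [Algebra K L]
variable {C : Cub K L}

/-- some pure tensor -/
noncomputable def kZero (G : GeoDatum C) : Pure G.DL.toDatum :=
  Pure.mk' (fun _ _ _ => 0) (fun _ => PPI.zero) (fun w => unitF (G.DL.H w))
    (fun _ => biInv_unitF _) (fun _ => finS_unitF) (by simp)

open Classical in
/-- the function at the ramified places on the `K`-side -/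
noncomputable def tR (G : GeoDatum C) (v : Pl K) : G2 K → ℂ :=
  if Ram C v (G.up v) then fun g =>
    ((G.U.H v).relIndex (G.U0.H v) : ℂ)⁻¹ * (T1 v g * phiR C v (G.nr v) (td g))
  else unitF (G.U.H v)

variable {G : GeoDatum C}

theorem tR_ram {v : Pl K} (h : Ram C v (G.up v)) (k : Pure G.DL.toDatum) : G.tR v = bf k v := by
  funext g
  unfold tR bf
  rw [if_pos h, if_neg h.not_split, if_pos h]

theorem tR_ne {v : Pl K} (h : ¬ Ram C v (G.up v)) : G.tR v = unitF (G.U.H v) := by
  unfold tR
  rw [if_neg h]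

theorem biInv_tR (v : Pl K) : BiInv (G.DK.H v) (G.tR v) := by
  by_cases h : Ram C v (G.up v)
  · rw [tR_ram h G.kZero]
    exact biInv_bf _ v
  · rw [tR_ne h]
    exact biInv_unitF _

theorem finS_tR (v : Pl K) : FinS (G.DK.H v) (G.tR v) := by
  by_cases h : Ram C v (G.up v)
  · rw [tR_ram h G.kZero]
    exact finS_bf _ v
  · rw [tR_ne h]
    exact finS_unitF

namespace LocProj

variable (E : LocProj G)

open Classical in
/-- the functions on the `K`-side at all bad places -/
noncomputable def tBad (v : Pl K) : G2 K → ℂ := if v ∈ E.lK then E.tK v else G.tR v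

/-- the list of all bad places of `K` -/
noncomputable def lBad : List (Pl K) := E.lK ++ G.ramLK

theorem tBad_mem {v : Pl K} (h : v ∈ E.lK) : E.tBad v = E.tK v := if_pos h

theorem tBad_notMem {v : Pl K} (h : v ∉ E.lK) : E.tBad v = G.tR v := if_neg h

theorem biInv_tBad (v : Pl K) : BiInv (G.DK.H v) (E.tBad v) := by
  by_cases h : v ∈ E.lK
  · rw [E.tBad_mem h]
    exact E.biK v
  · rw [E.tBad_notMem h]
    exact biInv_tR v

theorem finS_tBad (v : Pl K) : FinS (G.DK.H v) (E.tBad v) := by
  by_cases h : v ∈ E.lK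
  · rw [E.tBad_mem h]
    exact E.finK v
  · rw [E.tBad_notMem h]
    exact finS_tR v

theorem mem_lBad {v : Pl K} : v ∈ E.lBad ↔ v ∈ E.lK ∨ Ram C v (G.up v) := by
  unfold lBad
  rw [List.mem_append, mem_ramLK]

theorem nodup_lBad : E.lBad.Nodup := by
  unfold lBad
  rw [List.nodup_append]
  refine ⟨E.nodup, nodup_ramLK, fun a ha b hb hab => ?_⟩
  subst hab
  exact (mem_ramLK.mp hb).not_split (E.split a ha)

/-- insertion at all bad places of `K` -/
noncomputable def insBad (k : Pure G.DK) : Pure G.DK :=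
  Pure.insT E.biInv_tBad E.finS_tBad E.lBad k

theorem insBad_f_mem (k : Pure G.DK) {v : Pl K} (h : v ∈ E.lBad) :
    (E.insBad k).f v = convF (G.DK.H v) (E.tBad v) (k.f v) :=
  Pure.insT_f_mem _ _ E.nodup_lBad k h

theorem insBad_f_ne (k : Pure G.DK) {v : Pl K} (h : v ∉ E.lBad) : (E.insBad k).f v = k.f v :=
  Pure.insT_f_notMem _ _ k h

theorem insBad_a (k : Pure G.DK) : (E.insBad k).a = k.a := Pure.insT_a _ _ _ k

theorem rad_insBad {k : Pure G.DK} (h : k.Rad) : (E.insBad k).Rad := by
  intro i
  rw [insBad_a]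
  exact h i

theorem insBad_mul (k k' : Pure G.DK) : (E.insBad k).mul k' = E.insBad (k.mul k') :=
  Pure.insT_mul _ _ _ k k'

variable {E}

theorem fs_insE {k : Pure G.DL.toDatum} (h : E.Unit k) {v : Pl K} (hv : v ∈ E.lK) (j : Fin 3) :
    fs (E.insE k) v j = E.tK v := by
  funext g
  unfold fs
  have hd : G.down (((pl C).symm)^[(j : ℕ)] (G.up v)) ∈ E.lK := by
    rw [down_iterate]
    exact hv
  rw [E.insE_f_mem k hd, h _ hd, convF_unitF_right (E.biL _)]
  exact E.inc v hv j g

theorem bf_insE {k : Pure G.DL.toDatum} (h : E.Unit k) {v : Pl K} (hv : v ∈ E.lK) :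
    bf (E.insE k) v = E.tK v := by
  have hs := E.split v hv
  have hU : G.U0.H v = G.DK.H v := (G.U_eq v fun h' => h'.not_split hs).symm
  rw [bf_split _ hs, tH_f, fs_insE h hv, fs_insE h hv, fs_insE h hv, hU, E.idem v hv,
    E.idem v hv]

theorem af_unit {k : Pure G.DL.toDatum} (h : E.Unit k) {v : Pl K} (hv : v ∈ E.lK) :
    af k v = unitF (G.DK.H v) := by
  have hs := E.split v hv
  have hU : G.U0.H v = G.DK.H v := (G.U_eq v fun h' => h'.not_split hs).symm
  have e : ∀ j : Fin 3, fs k v j = unitF (G.U0.H v) := fun j =>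
    fs_eq_unitF k hs j (h _ (by rw [down_iterate]; exact hv))
  rw [af_split _ hs, tH_f, e, e, e, convF_unitF_left (biInv_unitF _),
    convF_unitF_left (biInv_unitF _), hU]

/-- **The matching of the inserted pure tensor.** -/
theorem bPure_insE {k : Pure G.DL.toDatum} (h : E.Unit k) :
    bPure (E.insE k) = E.insBad (aPure k) := by
  refine Pure.ext' ?_ ?_
  · rw [insBad_a]
    funext i
    change ba (E.insE k) = ba k
    unfold ba
    rw [E.insE_a]
  · funext v
    rw [bPure_f]
    by_cases hv : v ∈ E.lK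
    · rw [bf_insE h hv, E.insBad_f_mem _ (E.mem_lBad.mpr (Or.inl hv)), E.tBad_mem hv, aPure_f,
        af_unit h hv, convF_unitF_right (E.biK v)]
    · by_cases hr : Ram C v (G.up v)
      · rw [E.insBad_f_mem _ (E.mem_lBad.mpr (Or.inr hr)), E.tBad_notMem hv, aPure_f,
          af_not_split _ hr.not_split, convF_unitF_right (biInv_tR v), tR_ram hr]
      · rw [E.insBad_f_ne _ (fun h' => (E.mem_lBad.mp h').elim hv hr), aPure_f, af_eq_bf k hr]
        refine bf_congr_wj fun j => E.insE_f_ne k ?_
        rw [G.down_wj]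
        exact hv

end LocProj

theorem aPure_insRam (k : Pure G.DL.toDatum) : aPure (insRam k) = aPure k := by
  refine Pure.ext' ?_ ?_
  · funext i
    change ba (insRam k) = ba k
    unfold ba
    rw [insRam_a]
  · funext v
    rw [aPure_f, aPure_f]
    by_cases hs : Split C v (G.up v)
    · refine af_congr fun j => insRam_f_ne k fun v' hv' e => ?_
      have e1 : v' = v := by rw [← G.down_up v', e, G.down_wj]
      subst e1
      exact hv'.not_split hs
    · rw [af_not_split _ hs, af_not_split _ hs]

theorem SCom.insRam {A B : Pure G.DL.toDatum} (h : SCom A B) : SCom A (insRam B) := by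
  intro v hv i j
  have e : fsH (GeoDatum.insRam B) hv j = fsH B hv j := by
    refine fsH_congr hv j (insRam_f_ne B fun v' hv' e => ?_)
    have e1 : v' = v := by rw [← G.down_up v', e, G.down_wj]
    subst e1
    exact hv'.not_split hv
  rw [e]
  exact h v hv i j

/-- one term of the family -/
theorem bPure_term (E : LocProj G) {A B : Pure G.DL.toDatum} (hA : E.Unit A) (hB : E.Unit B)
    (h : SCom A B) (l : List G.Idx) :
    bPure (E.insE ((insLL l A).mul (insRam B))) =
      E.insBad ((insKL l (aPure A)).mul (aPure B)) := by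
  rw [LocProj.bPure_insE ((hA.insLL l).mul hB.insRam), aPure_mul ((h.insLL l).insRam),
    aPure_insLL, aPure_insRam]

/-- The family on the `L`-side. -/
noncomputable def famL (E : LocProj G) (P : LT.PS G.DL.toDatum) (l : List G.Idx) :
    LT.PS G.DL.toDatum :=
  ((P.map (insLL l)).mul (P.map insRam)).map E.insE

/-- The family on the `K`-side. -/
noncomputable def famK (E : LocProj G) (P : LT.PS G.DL.toDatum) (l : List G.Idx) :
    LT.PS G.DK :=
  (((P.map aPure).map (insKL l)).mul (P.map aPure)).map E.insBad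

/-- the assumptions on the pure tensors of the family -/
structure FamHyp (E : LocProj G) (P : LT.PS G.DL.toDatum) : Prop where
  ir : ∀ j, UnitIR (P.k j)
  unit : ∀ j, E.Unit (P.k j)
  com : ∀ i j, SCom (P.k i) (P.k j)
  rad : P.Rad

/-- **The matching of the family.** -/
theorem famL_map_bPure {E : LocProj G} {P : LT.PS G.DL.toDatum} (h : FamHyp E P)
    (l : List G.Idx) : (famL E P l).map bPure = famK E P l := by
  have e : (fun j : P.J × P.J => bPure (E.insE ((insLL l (P.k j.1)).mul (insRam (P.k j.2))))) =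
      fun j => E.insBad ((insKL l (aPure (P.k j.1))).mul (aPure (P.k j.2))) :=
    funext fun j => bPure_term E (h.unit _) (h.unit _) (h.com _ _) l
  change PS.mk _ _ _ (fun j : P.J × P.J =>
    bPure (E.insE ((insLL l (P.k j.1)).mul (insRam (P.k j.2))))) = _
  rw [e]
  rfl

theorem famL_map_insLL {E : LocProj G} {P : LT.PS G.DL.toDatum} (l l' : List G.Idx) :
    (famL E P l).map (insLL l') = famL E P (l' ++ l) := by
  have e : (fun j : P.J × P.J => insLL l' (E.insE ((insLL l (P.k j.1)).mul (insRam (P.k j.2))))) =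
      fun j => E.insE ((insLL (l' ++ l) (P.k j.1)).mul (insRam (P.k j.2))) :=
    funext fun j => by rw [← E.insE_insLL, ← insLL_mul, ← insLL_append]
  change PS.mk _ _ _ (fun j : P.J × P.J =>
    insLL l' (E.insE ((insLL l (P.k j.1)).mul (insRam (P.k j.2))))) = _
  rw [e]
  rfl

theorem good_famL {E : LocProj G} {P : LT.PS G.DL.toDatum} (h : FamHyp E P) (l : List G.Idx)
    (j : (famL E P l).J) : Good ((famL E P l).k j) :=
  E.good_insE (Good.mul_left (h.ir _).insLL (h.ir _).insRam)

theorem rad_famL {E : LocProj G} {P : LT.PS G.DL.toDatum} (h : FamHyp E P) (l : List G.Idx) :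
    (famL E P l).Rad := fun _ =>
  E.rad_insE ((rad_insLL l (h.rad _)).mul (rad_insRam (h.rad _)))

theorem rad_famK {E : LocProj G} {P : LT.PS G.DL.toDatum} (h : FamHyp E P) (l : List G.Idx) :
    (famK E P l).Rad := fun _ =>
  E.rad_insBad (Pure.Rad.mul (rad_insKL l (rad_aPure (h.rad _))) (rad_aPure (h.rad _)))

/-- **THE GEOMETRIC THEOREM FOR THE FAMILY.** -/
theorem exists_family_const {wL : X G.DL.toDatum → ℝ≥0∞} {wK : X G.DK → ℝ≥0∞}
    (hM : GeoMain G wL wK) {E : LocProj G} {P : LT.PS G.DL.toDatum} (h : FamHyp E P)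
    (l : List G.Idx) :
    ∃ B : ℝ, ∀ u : G.SpPl, B < qv u.1 → ∀ n, Odd n →
      GeoEq G.DL G.DK wL wK (famL E P (pw u n ++ l)).ker (famK E P (pw u n ++ l)).ker := by
  obtain ⟨B, hB⟩ := exists_geo_const hM (good_famL h l) (rad_famL h l)
  refine ⟨B, fun u hu n hn => ?_⟩
  have h1 := hB u hu n hn
  rwa [famL_map_insLL, famL_map_bPure h] at h1

end Fermat.LT.GeoDatum
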