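import Fermat.Agent.LT.Geo.PureMul
import Fermat.Agent.LT.B.KilledKer

/-!
# LT/G: formal finite sums of pure tensors

* `PS D` : formal finite linear combinations `∑ j, c j • k j` of pure tensors; `PS.ker`;
* `PS.mul`, `PS.map`, `PS.ker_mul` : composition of kernels;
* `Rad k` : all archimedean components are smooth radial kernels; `PS.isTestKer`;
* `PS.autK_ker` : linearity of the automorphic kernel;
* `GeoEq` : the identity of the two (twisted) integrals over the quotients, `GeoEq.sum`.
-/

set_option autoImplicit false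
set_option linter.unusedSectionVars false

open NumberField IsDedekindDomain Matrix MeasureTheory
open Fermat.Agent.LT.B
open Fermat.Agent.LT.D (Cub)
open scoped ENNReal

namespace Fermat.LT

section PS

variable {F : Type} [Field F] [NumberField F] {D : Datum F}

/-- all archimedean components are smooth radial kernels -/
def Pure.Rad (k : Pure D) : Prop := ∀ i, RadK (k.a i)

theorem Pure.Rad.mul {k k' : Pure D} (h : k.Rad) (h' : k'.Rad) : (k.mul k').Rad := fun i =>
  (h i).acomp (h' i)

/-- formal finite linear combinations of pure tensors -/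
structure PS (D : Datum F) where
  /-- index type -/
  J : Type
  fJ : Fintype J
  /-- coefficients -/
  c : J → ℂ
  /-- pure tensors -/
  k : J → Pure D

namespace PS

/-- the kernel -/
noncomputable def ker (P : PS D) (x y : X D) : ℂ :=
  letI := P.fJ
  ∑ j, P.c j * (P.k j).ker x y

theorem ker_def (P : PS D) (x y : X D) :
    P.ker x y = (letI := P.fJ; ∑ j, P.c j * (P.k j).ker x y) := rfl

/-- one pure tensor -/
def single (k : Pure D) : PS D := ⟨Unit, inferInstance, fun _ => 1, fun _ => k⟩

theorem single_ker (k : Pure D) : (single k).ker = k.ker := by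
  funext x y
  change ∑ _ : Unit, 1 * k.ker x y = _
  simp

/-- product -/
noncomputable def mul (P Q : PS D) : PS D :=
  letI := P.fJ
  letI := Q.fJ
  ⟨P.J × Q.J, inferInstance, fun j => P.c j.1 * Q.c j.2, fun j => (P.k j.1).mul (Q.k j.2)⟩

/-- apply a map to the pure tensors -/
def map {F' : Type} [Field F'] [NumberField F'] {D' : Datum F'} (f : Pure D → Pure D')
    (P : PS D) : PS D' := ⟨P.J, P.fJ, P.c, fun j => f (P.k j)⟩

/-- all pure tensors are radial -/
def Rad (P : PS D) : Prop := ∀ j, (P.k j).Rad

theorem Rad.mul {P Q : PS D} (h : P.Rad) (h' : Q.Rad) : (P.mul Q).Rad := fun j =>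
  Pure.Rad.mul (h j.1) (h' j.2)

/-- **Composition of kernels.** -/
theorem ker_mul (P Q : PS D) (x y : X D) :
    Integrable (fun z => P.ker x z * Q.ker z y) ∧
      ∫ z, P.ker x z * Q.ker z y = (P.mul Q).ker x y := by
  letI := P.fJ
  letI := Q.fJ
  have e : ∀ z, P.ker x z * Q.ker z y =
      ∑ j : P.J × Q.J, P.c j.1 * Q.c j.2 * ((P.k j.1).ker x z * (Q.k j.2).ker z y) := by
    intro z
    rw [ker_def, ker_def, Finset.sum_mul_sum, Fintype.sum_prod_type]
    refine Finset.sum_congr rfl fun i _ => Finset.sum_congr rfl fun j _ => ?_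
    ring
  have hi : ∀ j ∈ (Finset.univ : Finset (P.J × Q.J)), Integrable (fun z => P.c j.1 * Q.c j.2 *
      ((P.k j.1).ker x z * (Q.k j.2).ker z y)) := fun j _ =>
    ((P.k j.1).ker_mul (Q.k j.2) x y).1.const_mul _
  refine ⟨?_, ?_⟩
  · simp only [e]
    exact integrable_finsetSum _ hi
  · simp only [e]
    rw [integral_finsetSum _ hi]
    change _ = ∑ j : P.J × Q.J, P.c j.1 * Q.c j.2 * ((P.k j.1).mul (Q.k j.2)).ker x y
    refine Finset.sum_congr rfl fun j _ => ?_
    rw [integral_const_mul, ((P.k j.1).ker_mul (Q.k j.2) x y).2]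

/-- invariance -/
theorem ker_smul (P : PS D) (g : PG F) (x y : X D) : P.ker (g • x) (g • y) = P.ker x y := by
  obtain ⟨g, rfl⟩ := Matrix.ProjGenLinGroup.mk_surjective g
  change P.ker (g • x) (g • y) = _
  rw [ker_def, ker_def]
  exact Finset.sum_congr rfl fun j _ => by rw [(P.k j).ker_smul]

end PS

theorem isTestKer_pzero : IsTestKer (fun _ _ : X D => (0 : ℂ)) :=
  ⟨Empty, inferInstance, fun e => e.elim, fun e => e.elim, fun e => e.elim, fun e => e.elim,
    fun x y => by simp⟩

theorem isTestKer_psum {J : Type} (s : Finset J) (c : J → ℂ) {k : J → X D → X D → ℂ}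
    (h : ∀ j ∈ s, IsTestKer (k j)) : IsTestKer (fun x y => ∑ j ∈ s, c j * k j x y) := by
  classical
  induction s using Finset.induction_on with
  | empty => simpa using isTestKer_pzero
  | insert a s ha ih =>
    simp only [Finset.sum_insert ha]
    exact ((h a (Finset.mem_insert_self a s)).const_mul (c a)).add
      (ih fun j hj => h j (Finset.mem_insert_of_mem hj))

theorem PS.isTestKer {P : PS D} (h : ∀ j, IsTestKer (P.k j).ker) : IsTestKer P.ker := by
  letI := P.fJ
  exact isTestKer_psum Finset.univ P.c fun j _ => h j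

section aut

/-- linearity of `autK` -/
theorem autK_psum {J : Type} (s : Finset J) (c : J → ℂ) {k : J → X D → X D → ℂ} {x y : X D}
    (h : ∀ j ∈ s, Summable fun γ : PG F => k j x (γ • y)) :
    autK (fun x y => ∑ j ∈ s, c j * k j x y) x y = ∑ j ∈ s, c j * autK (k j) x y := by
  unfold autK
  rw [Summable.tsum_finsetSum fun j hj => (h j hj).mul_left (c j)]
  exact Finset.sum_congr rfl fun j _ => tsum_mul_left

theorem summable_aut_psum {k : X D → X D → ℂ} (hk : IsTestKer k) (x y : X D) :
    Summable fun γ : PG F => k x (γ • y) :=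
  summable_of_hasFiniteSupport ((hk.cKer.finite_support x y).subset fun γ hγ => hγ)

theorem PS.autK_ker {P : PS D} (h : ∀ j, IsTestKer (P.k j).ker) (x y : X D) :
    autK P.ker x y = (letI := P.fJ; ∑ j, P.c j * autK (P.k j).ker x y) := by
  letI := P.fJ
  exact autK_psum Finset.univ P.c fun j _ => summable_aut_psum (h j) x y

end aut

end PS

section geo

variable {K L : Type} [Field K] [NumberField K] [Field L] [NumberField L] [Algebra K L]
variable {C : Cub K L}

/-- The identity of the twisted integral over `PGL₂(L) \ X_L` and the integral over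
`PGL₂(K) \ X_K` (the quotients are represented by weights). -/
structure GeoEq (DL : TwDatum C) (DK : Datum K) (wL : X DL.toDatum → ℝ≥0∞) (wK : X DK → ℝ≥0∞)
    (κ : X DL.toDatum → X DL.toDatum → ℂ) (κ' : X DK → X DK → ℂ) : Prop where
  intL : Integrable fun x => (wL x).toReal • autK κ x (DL.σX x)
  intK : Integrable fun x => (wK x).toReal • autK κ' x x
  eq : ∫ x, (wL x).toReal • autK κ x (DL.σX x) = ∫ x, (wK x).toReal • autK κ' x x

/-- The geometric identity for linear combinations. -/
theorem GeoEq.map {DL : TwDatum C} {DK : Datum K} {wL : X DL.toDatum → ℝ≥0∞}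
    {wK : X DK → ℝ≥0∞} {P : PS DL.toDatum} {b : Pure DL.toDatum → Pure DK}
    (hL : ∀ j, IsTestKer (P.k j).ker) (hK : ∀ j, IsTestKer (b (P.k j)).ker)
    (h : ∀ j, GeoEq DL DK wL wK (P.k j).ker (b (P.k j)).ker) :
    GeoEq DL DK wL wK P.ker (P.map b).ker := by
  letI := P.fJ
  have eL : ∀ x, (wL x).toReal • autK P.ker x (DL.σX x) =
      ∑ j, P.c j * ((wL x).toReal • autK (P.k j).ker x (DL.σX x)) := by
    intro x
    rw [PS.autK_ker hL, Finset.smul_sum]
    exact Finset.sum_congr rfl fun j _ => (mul_smul_comm _ _ _).symm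
  have eK : ∀ x, (wK x).toReal • autK (P.map b).ker x x =
      ∑ j, P.c j * ((wK x).toReal • autK (b (P.k j)).ker x x) := by
    intro x
    rw [PS.autK_ker (P := P.map b) hK, Finset.smul_sum]
    exact Finset.sum_congr rfl fun j _ => (mul_smul_comm _ _ _).symm
  have iL : ∀ j ∈ (Finset.univ : Finset P.J), Integrable fun x =>
      P.c j * ((wL x).toReal • autK (P.k j).ker x (DL.σX x)) :=
    fun j _ => (h j).intL.const_mul _
  have iK : ∀ j ∈ (Finset.univ : Finset P.J), Integrable fun x =>
      P.c j * ((wK x).toReal • autK (b (P.k j)).ker x x) :=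
    fun j _ => (h j).intK.const_mul _
  refine ⟨?_, ?_, ?_⟩
  · simp only [eL]
    exact integrable_finsetSum _ iL
  · simp only [eK]
    exact integrable_finsetSum _ iK
  · simp only [eL, eK]
    rw [integral_finsetSum _ iL, integral_finsetSum _ iK]
    refine Finset.sum_congr rfl fun j _ => ?_
    rw [integral_const_mul, integral_const_mul, (h j).eq]

end geo

end Fermat.LT
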