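import Fermat.Agent.LT.G.FamilyMain
import Fermat.Agent.LT.B.SpecTrace

/-!
# LT/G: kernels and eigenvalues of the family

* `PS.ker_map_insL`, `PS.ker_map_insAL`, `PS.ker_map_insT` : the kernels of insertions;
* `isKS_insLL`, `isKS_insRam`, `isKS_insKL` : killed spherical kernels;
* `ev_insLL`, `ev_insRam`, `ev_insKL` : their eigenvalues;
* `exists_family_geo` : the geometric theorem for the family in the format `κ ∘ a ∘ b`.
-/

set_option autoImplicit false
set_option linter.unusedSectionVars false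

open NumberField IsDedekindDomain Matrix MeasureTheory
open Fermat.Agent.LT.D
open Fermat.Agent.LT.B (IsTestKer autK appK Sph IsKS Xi ev lam sp TX RX)
open Fermat.Agent.LT.CArch (IsTest hat)
open scoped ENNReal

namespace Fermat.LT

section general

variable {F : Type} [Field F] [NumberField F] {D : Datum F}

theorem opX_finsum {w : Pl F} {t : G2 F → ℂ} (ht : BiInv (D.H w) t) (hs : FinS (D.H w) t)
    {J : Type} (S : Finset J) (c : J → ℂ) (φ : J → X D → ℂ) (x : X D) :
    opX w t (fun y => ∑ j ∈ S, c j * φ j y) x = ∑ j ∈ S, c j * opX w t (φ j) x := by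
  have e : ∀ j, opX w t (φ j) x = ∑ z ∈ (rowFin_kw ht hs (x.2 w)).toFinset,
      kw (D.H w) t (x.2 w) z * φ j (x.1, Fermat.Agent.LT.B.upd x.2 w z) := fun j =>
    opX_eq_sum ht hs _ x
  simp only [e]
  rw [opX_eq_sum ht hs]
  simp only [Finset.mul_sum]
  rw [Finset.sum_comm]
  exact Finset.sum_congr rfl fun j _ => Finset.sum_congr rfl fun z _ => mul_left_comm _ _ _

theorem opI_finsum {i : D.I} {b : H3 → H3 → ℂ} (hb : PPI b) {J : Type} (S : Finset J)
    (c : J → ℂ) {φ : J → X D → ℂ} (hφ : ∀ j, Continuous (φ j)) (x : X D) :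
    opI i b (fun y => ∑ j ∈ S, c j * φ j y) x = ∑ j ∈ S, c j * opI i b (φ j) x := by
  unfold opI
  have e : ∀ R : H3, b (x.1 i) R * ∑ j ∈ S, c j * φ j (Fermat.Agent.LT.B.updI x i R) =
      ∑ j ∈ S, c j * (b (x.1 i) R * φ j (Fermat.Agent.LT.B.updI x i R)) := by
    intro R
    rw [Finset.mul_sum]
    exact Finset.sum_congr rfl fun j _ => mul_left_comm _ _ _
  simp only [e]
  rw [integral_finsetSum]
  · exact Finset.sum_congr rfl fun j _ => integral_const_mul _ _
  · intro j _
    refine Integrable.const_mul ?_ _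
    obtain ⟨R₀, hR₀⟩ := hb.supp
    refine Continuous.integrable_of_hasCompactSupport
      ((hb.cont_right (x.1 i)).mul ((hφ j).comp (continuous_updI x i)))
      (HasCompactSupport.intro (H3.isCompact_ball (x.1 i) R₀) fun R hR => ?_)
    have h3 : b (x.1 i) R = 0 := by
      by_contra h0
      exact hR (hR₀ _ _ h0)
    rw [h3, zero_mul]

theorem continuous_ker_first (k : Pure D) (z : X D) : Continuous fun y : X D => k.ker y z :=
  k.continuous_ker_pure.comp (continuous_id.prodMk continuous_const)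

namespace PS

theorem ker_map_insL (Q : PS D) {w : Pl F} {t : G2 F → ℂ} (ht : BiInv (D.H w) t)
    (hs : FinS (D.H w) t) (x z : X D) :
    (Q.map (fun k => k.insL w ht hs)).ker x z = opX w t (fun y => Q.ker y z) x := by
  let _ := Q.fJ
  change ∑ j, Q.c j * ((Q.k j).insL w ht hs).ker x z =
    opX w t (fun y => ∑ j, Q.c j * (Q.k j).ker y z) x
  rw [opX_finsum ht hs]
  exact Finset.sum_congr rfl fun j _ => by rw [Pure.ker_insL]

theorem ker_map_insAL (Q : PS D) {i : D.I} {b : H3 → H3 → ℂ} (hb : PPI b) (x z : X D) :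
    (Q.map (fun k => k.insAL i hb)).ker x z = opI i b (fun y => Q.ker y z) x := by
  let _ := Q.fJ
  change ∑ j, Q.c j * ((Q.k j).insAL i hb).ker x z =
    opI i b (fun y => ∑ j, Q.c j * (Q.k j).ker y z) x
  rw [opI_finsum hb _ _ fun j => continuous_ker_first (Q.k j) z]
  exact Finset.sum_congr rfl fun j _ => by rw [Pure.ker_insAL]

theorem ker_map_insT (Q : PS D) {t : Pl F → G2 F → ℂ} (ht : ∀ w, BiInv (D.H w) (t w))
    (hs : ∀ w, FinS (D.H w) (t w)) (l : List (Pl F)) (x z : X D) :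
    (Q.map (Pure.insT ht hs l)).ker x z = opT t l (fun y => Q.ker y z) x := by
  induction l generalizing x with
  | nil => rfl
  | cons w l ih =>
    have h1 : Q.map (Pure.insT ht hs (w :: l)) =
      (Q.map (Pure.insT ht hs l)).map (fun k => k.insL w (ht w) (hs w)) := rfl
    rw [h1, ker_map_insL, opT_cons]
    congr 1
    funext y
    exact ih y

end PS

/-! ### Killed spherical kernels and eigenvalues -/

variable {P : Set (Pl F)} (hP : ∀ w ∈ P, D.n w = 0)

section T1

variable {Q : PS D} {w : Pl F} (hw : w ∈ P) (ht : BiInv (D.H w) (T1 w))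
  (hs : FinS (D.H w) (T1 w))

theorem ker_map_T1 : (Q.map (fun k => k.insL w ht hs)).ker =
    fun x z => TX w (fun y => Q.ker y z) x := by
  funext x z
  rw [PS.ker_map_insL, opX_T1]

include hP hw in
theorem isKS_T1 (hQ : IsKS P Q.ker) : IsKS P (Q.map (fun k => k.insL w ht hs)).ker := by
  rw [ker_map_T1]
  exact hQ.TX hP hw

include hw in
theorem ev_T1 (ξ : Xi D P) (hQ : Q.ker ∈ Sph D P) :
    ev hP ξ (Q.map (fun k => k.insL w ht hs)).ker =
      (Fermat.Agent.LT.CTree.sq w : ℂ) * lam hP ξ w * ev hP ξ Q.ker := by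
  rw [ker_map_T1]
  exact Fermat.Agent.LT.B.ev_TX hP ξ hw hQ

end T1

section A1

variable {Q : PS D} {i : D.I} {g : ℝ → ℂ} (hg : IsTest g) (hb : PPI (radK g))

theorem ker_map_radK : (Q.map (fun k => k.insAL i hb)).ker =
    fun x z => RX i g (fun y => Q.ker y z) x := by
  funext x z
  rw [PS.ker_map_insAL, opI_radK]

include hP hg in
theorem isKS_radK (hQ : IsKS P Q.ker) : IsKS P (Q.map (fun k => k.insAL i hb)).ker := by
  rw [ker_map_radK]
  exact hQ.RX hP hg i

include hg in
theorem ev_radK (ξ : Xi D P) (hQ : Q.ker ∈ Sph D P) :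
    ev hP ξ (Q.map (fun k => k.insAL i hb)).ker = hat g (sp hP ξ i) * ev hP ξ Q.ker := by
  rw [ker_map_radK]
  exact Fermat.Agent.LT.B.ev_RX hP ξ hg i hQ

end A1

end general

namespace GeoDatum

variable {K L : Type} [Field K] [NumberField K] [Field L] [NumberField L] [Algebra K L]
variable {C : Cub K L} {G : GeoDatum C}

/-! ### The `L`-side -/

/-- the eigenvalues of the test operators on the `L`-side -/
noncomputable def evL (la : Pl L → ℂ) (s : G.DL.I → ℂ) : G.Idx → ℂ
  | .inl v => (Fermat.Agent.LT.CTree.sq (G.up v.1) : ℂ) * la (G.up v.1)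
  | .inr g => hat g.1 (s G.ι)

/-- the eigenvalues of the test operators on the `K`-side -/
noncomputable def evK (la : Pl K → ℂ) (s : G.DK.I → ℂ) : G.Idx → ℂ
  | .inl v => (Fermat.Agent.LT.CTree.sq v.1 : ℂ) * la v.1
  | .inr g => hat g.1 (s G.uK.default)

section Lside

variable {P : Set (Pl L)} (hP : ∀ w ∈ P, G.DL.n w = 0) (hS : ∀ v : G.SpPl, G.up v.1 ∈ P)
  {Q : LT.PS G.DL.toDatum}

include hP hS in
theorem isKS_ins1L (hQ : IsKS P Q.ker) (s : G.Idx) : IsKS P (Q.map (ins1L s)).ker := by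
  rcases s with v | g
  · exact isKS_T1 hP (hS v) (biT G v) (fiT G v) hQ
  · exact isKS_radK hP g.2.1 (radK_ppi g.2.1) hQ

include hP hS in
theorem isKS_insLL (hQ : IsKS P Q.ker) (l : List G.Idx) : IsKS P (Q.map (insLL l)).ker := by
  induction l with
  | nil => exact hQ
  | cons s l ih => exact isKS_ins1L hP hS (Q := Q.map (insLL l)) ih s

include hS in
theorem ev_ins1L (ξ : Xi G.DL.toDatum P) (hQ : IsKS P Q.ker) (s : G.Idx) :
    ev hP ξ (Q.map (ins1L s)).ker = evL (lam hP ξ) (sp hP ξ) s * ev hP ξ Q.ker := by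
  rcases s with v | g
  · exact ev_T1 hP (hS v) (biT G v) (fiT G v) ξ hQ.sph
  · exact ev_radK hP g.2.1 (radK_ppi g.2.1) ξ hQ.sph

include hS in
theorem ev_insLL (ξ : Xi G.DL.toDatum P) (hQ : IsKS P Q.ker) (l : List G.Idx) :
    ev hP ξ (Q.map (insLL l)).ker =
      (l.map (evL (lam hP ξ) (sp hP ξ))).prod * ev hP ξ Q.ker := by
  induction l with
  | nil =>
    rw [List.map_nil, List.prod_nil, one_mul]
    rfl
  | cons s l ih =>
    have h1 : Q.map (insLL (s :: l)) = (Q.map (insLL l)).map (ins1L s) := rfl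
    rw [h1, ev_ins1L hP hS ξ (isKS_insLL hP hS hQ l), ih, List.map_cons, List.prod_cons,
      mul_assoc]

variable (hR : ∀ v, Ram C v (G.up v) → G.up v ∈ P)

include hP in
theorem isKS_insT1 {l : List (Pl L)} (hl : ∀ w ∈ l, w ∈ P) (hQ : IsKS P Q.ker) :
    IsKS P (Q.map (Pure.insT (t := T1) (fun w => biInv_T1_of_le (G.DL.le_std w))
      (fun w => finS_T1_lvl _ w) l)).ker := by
  induction l with
  | nil => exact hQ
  | cons w l ih =>
    exact isKS_T1 hP (Q := Q.map (Pure.insT (t := T1) (fun w => biInv_T1_of_le (G.DL.le_std w))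
      (fun w => finS_T1_lvl _ w) l)) (hl w List.mem_cons_self)
      (biInv_T1_of_le (G.DL.le_std w)) (finS_T1_lvl _ w)
      (ih fun v hv => hl v (List.mem_cons_of_mem _ hv))

theorem ev_insT1 (ξ : Xi G.DL.toDatum P) {l : List (Pl L)} (hl : ∀ w ∈ l, w ∈ P)
    (hQ : IsKS P Q.ker) :
    ev hP ξ (Q.map (Pure.insT (t := T1) (fun w => biInv_T1_of_le (G.DL.le_std w))
      (fun w => finS_T1_lvl _ w) l)).ker =
      (l.map fun w => (Fermat.Agent.LT.CTree.sq w : ℂ) * lam hP ξ w).prod * ev hP ξ Q.ker := by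
  induction l with
  | nil =>
    rw [List.map_nil, List.prod_nil, one_mul]
    rfl
  | cons w l ih =>
    have hl' : ∀ v ∈ l, v ∈ P := fun v hv => hl v (List.mem_cons_of_mem _ hv)
    have h1 := ev_T1 hP (Q := Q.map (Pure.insT (t := T1)
      (fun w => biInv_T1_of_le (G.DL.le_std w)) (fun w => finS_T1_lvl _ w) l))
      (hl w List.mem_cons_self) (biInv_T1_of_le (G.DL.le_std w)) (finS_T1_lvl _ w) ξ
      (isKS_insT1 hP hl' hQ).sph
    rw [ih hl', ← mul_assoc] at h1
    rw [List.map_cons, List.prod_cons]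
    exact h1

include hP hR in
theorem isKS_insRam (hQ : IsKS P Q.ker) : IsKS P (Q.map insRam).ker :=
  isKS_insT1 hP (fun w hw => by obtain ⟨v, hv, rfl⟩ := mem_ramL.mp hw; exact hR v hv) hQ

include hR in
theorem ev_insRam (ξ : Xi G.DL.toDatum P) (hQ : IsKS P Q.ker) :
    ev hP ξ (Q.map insRam).ker =
      (G.ramL.map fun w => (Fermat.Agent.LT.CTree.sq w : ℂ) * lam hP ξ w).prod *
        ev hP ξ Q.ker :=
  ev_insT1 hP ξ (fun w hw => by obtain ⟨v, hv, rfl⟩ := mem_ramL.mp hw; exact hR v hv) hQ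

end Lside

/-! ### The `K`-side -/

section Kside

variable {P : Set (Pl K)} (hP : ∀ v ∈ P, G.DK.n v = 0) (hS : ∀ v : G.SpPl, v.1 ∈ P)
  {Q : LT.PS G.DK}

include hP hS in
theorem isKS_ins1K (hQ : IsKS P Q.ker) (s : G.Idx) : IsKS P (Q.map (ins1K s)).ker := by
  rcases s with v | g
  · exact isKS_T1 hP (hS v) (biTK G v) (fiTK G v) hQ
  · exact isKS_radK hP g.2.1 (radK_ppi g.2.1) hQ

include hP hS in
theorem isKS_insKL (hQ : IsKS P Q.ker) (l : List G.Idx) : IsKS P (Q.map (insKL l)).ker := by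
  induction l with
  | nil => exact hQ
  | cons s l ih => exact isKS_ins1K hP hS (Q := Q.map (insKL l)) ih s

include hS in
theorem ev_ins1K (ξ : Xi G.DK P) (hQ : IsKS P Q.ker) (s : G.Idx) :
    ev hP ξ (Q.map (ins1K s)).ker = evK (lam hP ξ) (sp hP ξ) s * ev hP ξ Q.ker := by
  rcases s with v | g
  · exact ev_T1 hP (hS v) (biTK G v) (fiTK G v) ξ hQ.sph
  · exact ev_radK hP g.2.1 (radK_ppi g.2.1) ξ hQ.sph

include hS in
theorem ev_insKL (ξ : Xi G.DK P) (hQ : IsKS P Q.ker) (l : List G.Idx) :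
    ev hP ξ (Q.map (insKL l)).ker =
      (l.map (evK (lam hP ξ) (sp hP ξ))).prod * ev hP ξ Q.ker := by
  induction l with
  | nil =>
    rw [List.map_nil, List.prod_nil, one_mul]
    rfl
  | cons s l ih =>
    have h1 : Q.map (insKL (s :: l)) = (Q.map (insKL l)).map (ins1K s) := rfl
    rw [h1, ev_ins1K hP hS ξ (isKS_insKL hP hS hQ l), ih, List.map_cons, List.prod_cons,
      mul_assoc]

end Kside

/-! ### The geometric theorem -/

theorem famL_ker (E : LocProj G) (Q : LT.PS G.DL.toDatum) (l : List G.Idx) :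
    (famL E Q l).ker = fun x z => opT E.tL E.lL
      (fun y => ∫ s, (Q.map (insLL l)).ker y s * (Q.map insRam).ker s z) x := by
  funext x z
  have h1 : famL E Q l = ((Q.map (insLL l)).mul (Q.map insRam)).map
      (Pure.insT E.biL E.finL E.lL) := rfl
  rw [h1, PS.ker_map_insT]
  congr 1
  funext y
  exact (PS.ker_mul _ _ y z).2.symm

theorem famK_ker (E : LocProj G) (Q : LT.PS G.DL.toDatum) (l : List G.Idx) :
    (famK E Q l).ker = fun x z => opT E.tBad E.lBad
      (fun y => ∫ s, ((Q.map aPure).map (insKL l)).ker y s * (Q.map aPure).ker s z) x := by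
  funext x z
  have h1 : famK E Q l = (((Q.map aPure).map (insKL l)).mul (Q.map aPure)).map
      (Pure.insT E.biInv_tBad E.finS_tBad E.lBad) := rfl
  rw [h1, PS.ker_map_insT]
  congr 1
  funext y
  exact (PS.ker_mul _ _ y z).2.symm

/-- **THE GEOMETRIC THEOREM FOR THE FAMILY**, in the format `κ ∘ a ∘ b`. -/
theorem exists_family_geo {wL : X G.DL.toDatum → ℝ≥0∞} {wK : X G.DK → ℝ≥0∞}
    (hM : GeoMain G wL wK) {E : LocProj G} {Q : LT.PS G.DL.toDatum} (h : FamHyp E Q)
    (l : List G.Idx) :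
    ∃ B : ℝ, ∀ u : G.SpPl, B < qv u.1 → ∀ n, Odd n →
      GeoEq G.DL G.DK wL wK
        (fun x z => opT E.tL E.lL (fun y =>
          ∫ s, (Q.map (insLL (pw u n ++ l))).ker y s * (Q.map insRam).ker s z) x)
        (fun x z => opT E.tBad E.lBad (fun y =>
          ∫ s, ((Q.map aPure).map (insKL (pw u n ++ l))).ker y s * (Q.map aPure).ker s z) x) := by
  obtain ⟨B, hB⟩ := exists_family_const hM h l
  refine ⟨B, fun u hu n hn => ?_⟩
  have h1 := hB u hu n hn
  rwa [famL_ker, famK_ker] at h1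

end GeoDatum

end Fermat.LT
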