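import Fermat.Agent.LT.G.Isolate

/-!
# LT/G: isolation with one extra large prime (helper54's trick)

The identity between the two sides is only known after inserting an odd power of the Hecke operator
at a prime `u` which is large with respect to the rest of the test function.
-/

set_option autoImplicit false

open Filter Topology Polynomial

namespace Fermat.Agent.LT.G

/-- An odd polynomial which is bounded by `5/4` on `[-R, R]` and at least `3/4` at `2`. -/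
theorem exists_odd_poly {R : ℝ} (hR : 2 ≤ R) : ∃ p : ℝ[X],
    (∀ t, p.eval (-t) = -p.eval t) ∧ (∀ t, |t| ≤ R → |p.eval t| ≤ 5 / 4) ∧ 3 / 4 ≤ p.eval 2 := by
  let f : ℝ → ℝ := fun t => (|t / 2 + 1| - |t / 2 - 1|) / 2
  have hf : Continuous f := by fun_prop
  have hodd : ∀ t, f (-t) = -f t := by
    intro t
    simp only [f]
    have e1 : |-t / 2 + 1| = |t / 2 - 1| := by rw [← abs_neg]; congr 1; ring
    have e2 : |-t / 2 - 1| = |t / 2 + 1| := by rw [← abs_neg]; congr 1; ring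
    rw [e1, e2]; ring
  have hbd : ∀ t, |f t| ≤ 1 := by
    intro t
    simp only [f]
    rw [abs_div, abs_two, div_le_iff₀ (by norm_num)]
    refine (abs_abs_sub_abs_le_abs_sub _ _).trans ?_
    rw [show t / 2 + 1 - (t / 2 - 1) = 2 by ring]
    norm_num
  have h2 : f 2 = 1 := by simp only [f]; norm_num
  obtain ⟨p, hp⟩ := exists_polynomial_near_of_continuousOn (-R) R f hf.continuousOn (1 / 4)
    (by norm_num)
  have hp' : ∀ t, |t| ≤ R → |p.eval t - f t| < 1 / 4 := fun t ht => hp t (abs_le.mp ht)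
  let po : ℝ[X] := C (1 / 2) * (p - p.comp (-X))
  have hpo : ∀ t, po.eval t = (p.eval t - p.eval (-t)) / 2 := by
    intro t
    simp only [po, eval_mul, eval_C, eval_sub, eval_comp, eval_neg, eval_X]
    ring
  have hnear : ∀ t, |t| ≤ R → |po.eval t - f t| < 1 / 4 := by
    intro t ht
    have h1 := abs_lt.mp (hp' t ht)
    have h3 := abs_lt.mp (hp' (-t) (by rwa [abs_neg]))
    rw [hodd] at h3
    rw [hpo, abs_lt]
    constructor <;> linarith [h1.1, h1.2, h3.1, h3.2]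
  refine ⟨po, fun t => ?_, fun t ht => ?_, ?_⟩
  · rw [hpo, hpo, neg_neg]; ring
  · have h1 := abs_lt.mp (hnear t ht)
    have h3 := abs_le.mp (hbd t)
    rw [abs_le]
    constructor <;> linarith [h1.1, h1.2, h3.1, h3.2]
  · have h1 := abs_lt.mp (hnear 2 (by rw [abs_two]; exact hR))
    rw [h2] at h1
    linarith [h1.1]

/-- Odd polynomials only involve odd powers. -/
theorem eval_odd_eq {p : ℝ[X]} (hp : ∀ t, p.eval (-t) = -p.eval t) (t : ℝ) :
    p.eval t = ∑ n ∈ p.support with Odd n, p.coeff n * t ^ n := by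
  have hcomp : p.comp (-X) = -p := Polynomial.funext fun t => by
    rw [eval_comp, eval_neg, eval_X, hp, eval_neg]
  have hc : ∀ n, ¬ Odd n → p.coeff n = 0 := by
    intro n hn
    have h1 : (p.comp (-X)).coeff n = (-1) ^ n * p.coeff n := by
      rw [show (-X : ℝ[X]) = C (-1) * X by simp, comp_C_mul_X_coeff]
      ring
    rw [hcomp, coeff_neg, Even.neg_one_pow (Nat.not_odd_iff_even.mp hn), one_mul] at h1
    linarith
  rw [eval_eq_sum, Polynomial.sum, Finset.sum_filter]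
  refine Finset.sum_congr rfl fun n _ => ?_
  split_ifs with h
  · rfl
  · rw [hc n h, zero_mul]

section main

variable {S J : Type*}

/-- Evaluation of monomials. -/
noncomputable def mono (m : S →₀ ℕ) (y : S → ℝ) : ℝ := m.prod fun s i => y s ^ i

theorem eval_eq_sum_mono (P : MvPolynomial S ℝ) (y : S → ℝ) :
    MvPolynomial.eval y P = ∑ m ∈ P.support, P.coeff m * mono m y := by
  rw [MvPolynomial.eval_eq]
  rfl

theorem exists_abs_mono_le {R : S → ℝ} (m : S →₀ ℕ) :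
    ∃ B : ℝ, ∀ y : S → ℝ, (∀ s, |y s| ≤ R s) → |mono m y| ≤ B := by
  refine ⟨m.prod fun s i => R s ^ i, fun y hy => ?_⟩
  unfold mono Finsupp.prod
  rw [Finset.abs_prod]
  refine Finset.prod_le_prod (fun _ _ => abs_nonneg _) fun s _ => ?_
  rw [abs_pow]
  exact pow_le_pow_left₀ (abs_nonneg _) (hy s) _

theorem summable_mono_mul {R : S → ℝ} {d : J → ℂ} (hd : Summable d) {z : J → S → ℝ}
    (hz : ∀ ξ s, |z ξ s| ≤ R s) (m : S →₀ ℕ) (u : S) (n : ℕ) :
    Summable fun ξ => d ξ * ((mono m (z ξ) * z ξ u ^ n : ℝ) : ℂ) := by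
  obtain ⟨B, hB⟩ := exists_abs_mono_le (R := R) m
  refine Summable.of_norm (Summable.of_nonneg_of_le (fun _ => norm_nonneg _) (fun j => ?_)
    (hd.norm.mul_right (B * R u ^ n)))
  rw [norm_mul, Complex.norm_real, Real.norm_eq_abs, abs_mul, abs_pow]
  refine mul_le_mul_of_nonneg_left ?_ (norm_nonneg _)
  exact mul_le_mul (hB _ (hz j)) (pow_le_pow_left₀ (abs_nonneg _) (hz j u) n)
    (pow_nonneg (abs_nonneg _) _) ((abs_nonneg _).trans (hB _ (hz j)))

open Classical in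
/-- **Isolation with a large prime.** -/
theorem isolate_large {R : S → ℝ} {c : J → ℂ} (hc : Summable fun j => ‖c j‖) {y : J → S → ℝ}
    (hy : ∀ j s, |y j s| ≤ R s) {U : Set S} {q : S → ℝ}
    (H : ∀ m : S →₀ ℕ, ∃ C : ℝ, ∀ u ∈ U, C < q u → ∀ n, Odd n →
      ∑' j, c j * ((mono m (y j) * y j u ^ n : ℝ) : ℂ) = 0)
    {j₀ : J} (hU : ∀ C : ℝ, ∃ u ∈ U, C < q u ∧ y j₀ u = 2)
    (huniq : ∀ j, y j = y j₀ → c j ≠ 0 → j = j₀) : c j₀ = 0 := by
  by_contra h0
  have hA : 0 < ‖c j₀‖ := norm_pos_iff.mpr h0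
  set A := ‖c j₀‖ with hAdef
  obtain ⟨J₀, hJ₀⟩ := (Metric.tendsto_atTop.mp hc.hasSum) (A / 10) (by positivity)
  have hR0 : ∀ s, 0 ≤ R s := fun s => (abs_nonneg _).trans (hy j₀ s)
  set J₁ := insert j₀ J₀ with hJ₁
  -- tail
  have htail : ∀ (g : J → ℝ) (B : ℝ), 0 ≤ B → (∀ j, |g j| ≤ B) →
      ‖∑' j, c j * ((g j : ℝ) : ℂ) - ∑ j ∈ J₁, c j * ((g j : ℝ) : ℂ)‖ ≤ B * (A / 10) := by
    intro g B hB hg
    have hb : ∀ j, ‖c j * ((g j : ℝ) : ℂ)‖ ≤ B * ‖c j‖ := fun j => by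
      rw [norm_mul, Complex.norm_real, Real.norm_eq_abs, mul_comm]
      exact mul_le_mul_of_nonneg_right (hg j) (norm_nonneg _)
    have hs : Summable fun j => ‖c j * ((g j : ℝ) : ℂ)‖ :=
      Summable.of_nonneg_of_le (fun _ => norm_nonneg _) hb (hc.mul_left B)
    rw [← hs.of_norm.sum_add_tsum_compl (s := J₁), add_sub_cancel_left]
    have hs' : Summable fun j : ((J₁ : Set J)ᶜ : Set J) => ‖c j.1 * ((g j.1 : ℝ) : ℂ)‖ :=
      hs.subtype _
    have hc' : Summable fun j : ((J₁ : Set J)ᶜ : Set J) => B * ‖c j.1‖ :=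
      (hc.mul_left B).subtype _
    have h1 := hJ₀ J₁ (Finset.subset_insert _ _)
    rw [dist_eq_norm, Real.norm_eq_abs, ← hc.sum_add_tsum_compl (s := J₁)] at h1
    have h2 := (abs_lt.mp h1).1
    have h4 : ∑' j : ((J₁ : Set J)ᶜ : Set J), ‖c j.1 * ((g j.1 : ℝ) : ℂ)‖ ≤
        ∑' j : ((J₁ : Set J)ᶜ : Set J), B * ‖c j.1‖ :=
      Summable.tsum_le_tsum (fun j => hb j.1) hs' hc'
    have h3 : ∑' j : ((J₁ : Set J)ᶜ : Set J), B * ‖c j.1‖ =
        B * ∑' j : ((J₁ : Set J)ᶜ : Set J), ‖c j.1‖ := tsum_mul_left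
    have h5 : ‖∑' j : ((J₁ : Set J)ᶜ : Set J), c j.1 * ((g j.1 : ℝ) : ℂ)‖ ≤
        ∑' j : ((J₁ : Set J)ᶜ : Set J), ‖c j.1 * ((g j.1 : ℝ) : ℂ)‖ := norm_tsum_le_tsum_norm hs'
    refine h5.trans (h4.trans (h3.le.trans ?_))
    refine mul_le_mul_of_nonneg_left ?_ hB
    linarith
  -- the bad indices
  set J₂ := J₁.filter (fun j => j ≠ j₀ ∧ c j ≠ 0) with hJ₂
  have hsep : ∀ j ∈ J₂, ∃ s, y j s ≠ y j₀ s := by
    intro j hj
    rw [hJ₂, Finset.mem_filter] at hj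
    by_contra hcon
    push Not at hcon
    exact hj.2.1 (huniq j (funext hcon) hj.2.2)
  have : Nonempty S := by
    obtain ⟨u, -⟩ := hU 0
    exact ⟨u⟩
  choose! sj hsj using hsep
  set T := J₂.image sj with hT
  -- the polynomial
  set Pb : MvPolynomial S ℝ := 1 - MvPolynomial.C (1 / ((T.card : ℝ) + 1)) *
    ∑ s ∈ T, (MvPolynomial.C (1 / (2 * R s + 1)) *
      (MvPolynomial.X s - MvPolynomial.C (y j₀ s))) ^ 2 with hPb
  have hev : ∀ z : S → ℝ, MvPolynomial.eval z Pb =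
      1 - 1 / ((T.card : ℝ) + 1) * ∑ s ∈ T, (1 / (2 * R s + 1) * (z s - y j₀ s)) ^ 2 := by
    intro z
    rw [hPb]
    simp only [map_sub, map_mul, map_one, MvPolynomial.eval_C, map_sum, map_pow,
      MvPolynomial.eval_X]
  have hterm : ∀ j s, (1 / (2 * R s + 1) * (y j s - y j₀ s)) ^ 2 ≤ 1 := by
    intro j s
    have h1 := abs_le.mp (hy j s)
    have h2 := abs_le.mp (hy j₀ s)
    have h3 : 0 < 2 * R s + 1 := by linarith [hR0 s]
    rw [sq_le_one_iff_abs_le_one, abs_mul, abs_of_pos (by positivity), one_div,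
      inv_mul_le_iff₀ h3, mul_one, abs_le]
    constructor <;> linarith [h1.1, h1.2, h2.1, h2.2]
  have hT1 : (0 : ℝ) < (T.card : ℝ) + 1 := by positivity
  have hsum1 : ∀ j, ∑ s ∈ T, (1 / (2 * R s + 1) * (y j s - y j₀ s)) ^ 2 ≤ (T.card : ℝ) := by
    intro j
    calc ∑ s ∈ T, (1 / (2 * R s + 1) * (y j s - y j₀ s)) ^ 2 ≤ ∑ s ∈ T, (1 : ℝ) :=
          Finset.sum_le_sum fun s _ => hterm j s
      _ = T.card := by simp
  have hb0 : ∀ j, 0 ≤ MvPolynomial.eval (y j) Pb := by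
    intro j
    rw [hev, one_div, sub_nonneg, inv_mul_le_iff₀ hT1]
    linarith [hsum1 j]
  have hb1 : ∀ j, MvPolynomial.eval (y j) Pb ≤ 1 := by
    intro j
    rw [hev]
    have : 0 ≤ 1 / ((T.card : ℝ) + 1) * ∑ s ∈ T, (1 / (2 * R s + 1) * (y j s - y j₀ s)) ^ 2 := by
      positivity
    linarith
  have hbj0 : MvPolynomial.eval (y j₀) Pb = 1 := by
    rw [hev]; simp
  have hblt : ∀ j ∈ J₂, MvPolynomial.eval (y j) Pb < 1 := by
    intro j hj
    rw [hev]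
    have h1 : 0 < ∑ s ∈ T, (1 / (2 * R s + 1) * (y j s - y j₀ s)) ^ 2 := by
      refine Finset.sum_pos' (fun s _ => sq_nonneg _) ⟨sj j, Finset.mem_image_of_mem _ hj, ?_⟩
      have h3 : 0 < 2 * R (sj j) + 1 := by linarith [hR0 (sj j)]
      have h4 : y j (sj j) - y j₀ (sj j) ≠ 0 := sub_ne_zero.mpr (hsj j hj)
      have h5 : 1 / (2 * R (sj j) + 1) * (y j (sj j) - y j₀ (sj j)) ≠ 0 :=
        mul_ne_zero (by positivity) h4
      positivity
    have h2 : 0 < 1 / ((T.card : ℝ) + 1) := by positivity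
    linarith [mul_pos h2 h1]
  -- choice of the exponent
  obtain ⟨N, hN⟩ : ∃ N : ℕ, ∑ j ∈ J₂, ‖c j‖ * (MvPolynomial.eval (y j) Pb) ^ N < A / 10 := by
    have h1 : Tendsto (fun N : ℕ => ∑ j ∈ J₂, ‖c j‖ * (MvPolynomial.eval (y j) Pb) ^ N) atTop
        (𝓝 (∑ j ∈ J₂, ‖c j‖ * 0)) := by
      refine tendsto_finsetSum _ fun j hj => ?_
      exact (tendsto_pow_atTop_nhds_zero_of_lt_one (hb0 j) (hblt j hj)).const_mul _
    simp only [mul_zero, Finset.sum_const_zero] at h1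
    exact ((h1.eventually (gt_mem_nhds (by positivity : (0 : ℝ) < A / 10)))).exists
  set P := Pb ^ N with hP
  have hPev : ∀ j, MvPolynomial.eval (y j) P = (MvPolynomial.eval (y j) Pb) ^ N := fun j => by
    rw [hP, map_pow]
  have hP1 : ∀ j, |MvPolynomial.eval (y j) P| ≤ 1 := by
    intro j
    rw [hPev, abs_of_nonneg (pow_nonneg (hb0 j) N)]
    exact pow_le_one₀ (hb0 j) (hb1 j)
  -- choice of the large prime
  choose Cm hCm using H
  obtain ⟨u, huU, hqu, hu2⟩ := hU (∑ m ∈ P.support, |Cm m|)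
  have hqm : ∀ m ∈ P.support, Cm m < q u := fun m hm =>
    (le_abs_self _).trans_lt ((Finset.single_le_sum (f := fun m => |Cm m|)
      (fun _ _ => abs_nonneg _) hm).trans_lt hqu)
  have hRu : 2 ≤ R u := by
    have := hy j₀ u
    rwa [hu2, abs_two] at this
  obtain ⟨p, hodd, hpb, hp2⟩ := exists_odd_poly hRu
  -- the sum vanishes
  let g : J → ℝ := fun j => MvPolynomial.eval (y j) P * p.eval (y j u)
  have hg : ∀ j, |g j| ≤ 5 / 4 := by
    intro j
    simp only [g]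
    rw [abs_mul]
    calc |MvPolynomial.eval (y j) P| * |p.eval (y j u)| ≤ 1 * (5 / 4) :=
          mul_le_mul (hP1 j) (hpb _ (hy j u)) (abs_nonneg _) zero_le_one
      _ = 5 / 4 := one_mul _
  have hg0 : ∑' j, c j * ((g j : ℝ) : ℂ) = 0 := by
    have e : ∀ j, c j * ((g j : ℝ) : ℂ) = ∑ m ∈ P.support, ∑ n ∈ p.support with Odd n,
        ((P.coeff m * p.coeff n : ℝ) : ℂ) * (c j * ((mono m (y j) * y j u ^ n : ℝ) : ℂ)) := by
      intro j
      simp only [g]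
      rw [eval_eq_sum_mono, eval_odd_eq hodd, Finset.sum_mul_sum]
      push_cast
      rw [Finset.mul_sum]
      refine Finset.sum_congr rfl fun m _ => ?_
      rw [Finset.mul_sum]
      refine Finset.sum_congr rfl fun n _ => ?_
      ring
    have hsm : ∀ (m : S →₀ ℕ) (n : ℕ), Summable fun j =>
        c j * ((mono m (y j) * y j u ^ n : ℝ) : ℂ) := fun m n =>
      summable_mono_mul hc.of_norm hy m u n
    simp_rw [e]
    rw [Summable.tsum_finsetSum fun m _ => summable_sum fun n _ => (hsm m n).mul_left _]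
    refine Finset.sum_eq_zero fun m hm => ?_
    rw [Summable.tsum_finsetSum fun n _ => (hsm m n).mul_left _]
    refine Finset.sum_eq_zero fun n hn => ?_
    rw [tsum_mul_left, hCm m u huU (hqm m hm) n (Finset.mem_filter.mp hn).2, mul_zero]
  -- conclusion
  have h1 := htail g (5 / 4) (by norm_num) hg
  rw [hg0, zero_sub, norm_neg] at h1
  have h2 : ∑ j ∈ J₁, c j * ((g j : ℝ) : ℂ) = c j₀ * ((g j₀ : ℝ) : ℂ) +
      ∑ j ∈ J₂, c j * ((g j : ℝ) : ℂ) := by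
    rw [← Finset.add_sum_erase _ _ (Finset.mem_insert_self j₀ J₀)]
    congr 1
    symm
    refine Finset.sum_subset_zero_on_sdiff ?_ ?_ fun _ _ => rfl
    · intro j hj
      rw [hJ₂, Finset.mem_filter] at hj
      exact Finset.mem_erase.mpr ⟨hj.2.1, hj.1⟩
    · intro j hj
      rw [Finset.mem_sdiff, Finset.mem_erase, hJ₂, Finset.mem_filter] at hj
      have : c j = 0 := by
        by_contra hne
        exact hj.2 ⟨hj.1.2, hj.1.1, hne⟩
      rw [this, zero_mul]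
  have h3 : 3 / 4 * A ≤ ‖c j₀ * ((g j₀ : ℝ) : ℂ)‖ := by
    rw [norm_mul, Complex.norm_real, Real.norm_eq_abs, mul_comm]
    refine mul_le_mul_of_nonneg_left ?_ (norm_nonneg _)
    simp only [g]
    rw [hPev, hbj0, one_pow, one_mul, hu2]
    exact hp2.trans (le_abs_self _)
  have h4 : ‖∑ j ∈ J₂, c j * ((g j : ℝ) : ℂ)‖ ≤ 5 / 4 * (A / 10) := by
    refine (norm_sum_le _ _).trans ?_
    have h5 : ∑ j ∈ J₂, ‖c j * ((g j : ℝ) : ℂ)‖ ≤
        ∑ j ∈ J₂, 5 / 4 * (‖c j‖ * (MvPolynomial.eval (y j) Pb) ^ N) := by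
      refine Finset.sum_le_sum fun j _ => ?_
      rw [norm_mul, Complex.norm_real, Real.norm_eq_abs]
      simp only [g]
      rw [abs_mul, hPev, abs_of_nonneg (pow_nonneg (hb0 j) N)]
      have h6 : 0 ≤ ‖c j‖ * (MvPolynomial.eval (y j) Pb) ^ N :=
        mul_nonneg (norm_nonneg _) (pow_nonneg (hb0 j) N)
      calc ‖c j‖ * (MvPolynomial.eval (y j) Pb ^ N * |p.eval (y j u)|)
          = (‖c j‖ * MvPolynomial.eval (y j) Pb ^ N) * |p.eval (y j u)| := by ring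
        _ ≤ (‖c j‖ * MvPolynomial.eval (y j) Pb ^ N) * (5 / 4) :=
            mul_le_mul_of_nonneg_left (hpb _ (hy j u)) h6
        _ = _ := by ring
    refine h5.trans ?_
    rw [← Finset.mul_sum]
    exact mul_le_mul_of_nonneg_left hN.le (by norm_num)
  rw [h2] at h1
  have h7 : ‖c j₀ * ((g j₀ : ℝ) : ℂ)‖ ≤ ‖c j₀ * ((g j₀ : ℝ) : ℂ) +
      ∑ j ∈ J₂, c j * ((g j : ℝ) : ℂ)‖ + ‖∑ j ∈ J₂, c j * ((g j : ℝ) : ℂ)‖ := by
    have := norm_sub_le (c j₀ * ((g j₀ : ℝ) : ℂ) + ∑ j ∈ J₂, c j * ((g j : ℝ) : ℂ))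
      (∑ j ∈ J₂, c j * ((g j : ℝ) : ℂ))
    rwa [add_sub_cancel_right] at this
  linarith

/-- **Isolation, two-sided version with a large prime.** -/
theorem exists_right_large {ΞL ΞK : Type*} {R : S → ℝ} {cL : ΞL → ℂ} {cK : ΞK → ℂ}
    {yL : ΞL → S → ℝ} {yK : ΞK → S → ℝ}
    (hyL : ∀ ξ s, |yL ξ s| ≤ R s) (hyK : ∀ ξ s, |yK ξ s| ≤ R s)
    (hcL : Summable cL) (hcK : Summable cK) {U : Set S} {q : S → ℝ}
    (H : ∀ m : S →₀ ℕ, ∃ C : ℝ, ∀ u ∈ U, C < q u → ∀ n, Odd n →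
      ∑' ξ, cL ξ * ((mono m (yL ξ) * yL ξ u ^ n : ℝ) : ℂ) =
        ∑' ξ, cK ξ * ((mono m (yK ξ) * yK ξ u ^ n : ℝ) : ℂ))
    {ξ₀ : ΞL} (hU : ∀ C : ℝ, ∃ u ∈ U, C < q u ∧ yL ξ₀ u = 2)
    (h0 : cL ξ₀ ≠ 0) (huniq : ∀ ξ, yL ξ = yL ξ₀ → cL ξ ≠ 0 → ξ = ξ₀) :
    ∃ ξ : ΞK, yK ξ = yL ξ₀ ∧ cK ξ ≠ 0 := by
  by_contra hcon
  push Not at hcon
  let c : ΞL ⊕ ΞK → ℂ := Sum.elim cL (fun ξ => -cK ξ)
  let y : ΞL ⊕ ΞK → S → ℝ := Sum.elim yL yK
  have hc : Summable fun j => ‖c j‖ := by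
    refine (HasSum.sum (f := fun j => ‖c j‖) hcL.norm.hasSum (hcK.norm.hasSum.congr_fun ?_)).summable
    intro ξ
    simp [c]
  have hy : ∀ j v, |y j v| ≤ R v := by
    rintro (ξ | ξ) v
    · exact hyL ξ v
    · exact hyK ξ v
  refine h0 (isolate_large (c := c) (y := y) (j₀ := Sum.inl ξ₀) hc hy (U := U) (q := q) ?_ hU ?_)
  · intro m
    obtain ⟨C, hC⟩ := H m
    refine ⟨C, fun u hu hqu n hn => ?_⟩
    have h1 := (summable_mono_mul hcL hyL m u n).hasSum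
    have h2 := (summable_mono_mul hcK hyK m u n).hasSum.neg
    have h3 : HasSum (fun j => c j * ((mono m (y j) * y j u ^ n : ℝ) : ℂ))
        (∑' ξ, cL ξ * ((mono m (yL ξ) * yL ξ u ^ n : ℝ) : ℂ) +
          -∑' ξ, cK ξ * ((mono m (yK ξ) * yK ξ u ^ n : ℝ) : ℂ)) := by
      refine HasSum.sum h1 (h2.congr_fun ?_)
      intro ξ
      exact neg_mul _ _
    rw [h3.tsum_eq, hC u hu hqu n hn, add_neg_cancel]
  · rintro (ξ | ξ) hξ hne
    · rw [huniq ξ hξ hne]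
    · exfalso
      apply hne
      change -cK ξ = 0
      rw [hcon ξ hξ, neg_zero]

end main

end Fermat.Agent.LT.G
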