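import Fermat.Agent.LT.G.LocProjHT
import Fermat.Agent.LT.G.SphConv2

/-!
# LT/G: the hypotheses on the family, for the level `HT w M` and the killed family of C-TREE
-/

set_option autoImplicit false
set_option linter.unusedSectionVars false

open NumberField IsDedekindDomain Matrix MeasureTheory
open Fermat.Agent.LT.D Fermat.Agent.LT.CTree

namespace Fermat.LT.GeoDatum

variable {K L : Type} [Field K] [NumberField K] [Field L] [NumberField L] [Algebra K L]
variable {C : Cub K L} {G : GeoDatum C} {M : ℕ}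

theorem LevHT.unit_of_isTF (_h : LevHT G M) {A : Pure G.DL.toDatum} (hA : A.IsTF) {w : Pl L}
    (hw : G.DL.n w ≠ 0) : A.f w = unitF (G.DL.H w) := by
  obtain ⟨Q, hQ⟩ := hA w
  rw [hQ, tF_bad (U := G.DL.toLevel) hw]

theorem LevHT.sCom (h : LevHT G M) {A B : Pure G.DL.toDatum} (hA : A.IsTF) : SCom A B := by
  refine SCom.of_cases fun v _ => ?_
  by_cases hn : G.DL.n (G.up v) = 0
  · exact Or.inl (G.DL.toLevel.H_eq hn)
  · refine Or.inr (Or.inl fun j => h.unit_of_isTF hA fun h' => hn ?_)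
    exact (h.n_wj_iff v j).mp h'

/-- **The hypotheses on the family.** -/
theorem famHyp_projHT (h : LevHT G M) {Q : LT.PS G.DL.toDatum} (hT : ∀ j, (Q.k j).IsTF)
    (hIR : ∀ j, UnitIR (Q.k j)) (hr : Q.Rad) : FamHyp (projHT h) Q where
  ir := hIR
  unit j w hw := by
    rw [mem_lK_projHT, Ne, h.n_down_iff] at hw
    exact h.unit_of_isTF (hT j) hw
  com i _ := h.sCom (hT i)
  rad := hr

theorem LevHT.up_mem (h : LevHT G M) (v : G.SpPl) :
    G.up v.1 ∈ {w : Pl L | G.DL.n w = 0} := h.n_eq_zero_of_H v.2.2.1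

theorem LevHT.mem_K (h : LevHT G M) (hs : ∀ v, Split C v (G.up v) → G.U.n v = G.DL.n (G.up v))
    (v : G.SpPl) : v.1 ∈ {v : Pl K | G.DK.n v = 0} := by
  change G.U.n v.1 = 0
  rw [hs _ v.2.1]
  exact h.up_mem v

theorem LevHT.ram_mem (h : LevHT G M) {v : Pl K} (hv : Ram C v (G.up v)) :
    G.up v ∈ {w : Pl L | G.DL.n w = 0} := by
  by_contra hc
  exact hv.not_split (h.split hc)

theorem LevHT.notMem_lL (h : LevHT G M) {w : Pl L} (hw : w ∈ (projHT h).lL) :
    w ∉ {w : Pl L | G.DL.n w = 0} := fun h' => (mem_lL_projHT h).mp hw h'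

theorem LevHT.notMem_lBad (h : LevHT G M)
    (hs : ∀ v, Split C v (G.up v) → G.U.n v = G.DL.n (G.up v))
    (hr : ∀ v, Ram C v (G.up v) → G.U.n v ≠ 0) {v : Pl K} (hv : v ∈ (projHT h).lBad) :
    v ∉ {v : Pl K | G.DK.n v = 0} := by
  intro h'
  rcases (projHT h).mem_lBad.mp hv with h1 | h1
  · have h2 := (mem_lK_projHT h).mp h1
    apply h2
    rw [← hs v (h.split h2)]
    exact h'
  · exact hr v h1 h'

/-- a good split place is in `SpPl` -/
def LevHT.mkSp (_h : LevHT G M) {v : Pl K} (hv : Split C v (G.up v))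
    (hn : G.DL.n (G.up v) = 0) : G.SpPl :=
  ⟨v, hv, G.DL.toLevel.H_eq hn, U_eq_stdH hv (G.DL.toLevel.H_eq hn)⟩

end Fermat.LT.GeoDatum
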