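import Fermat.Agent.LT.G.Family
import Fermat.Agent.LT.G.InsT
import Fermat.Agent.LT.Geo.EThreeB

/-!
# LT/G: insertions at the ramified places and of local projectors at split places

* `ramL G`, `insRam` : insertion of the Hecke operators at all ramified places;
* `UnitIR.insRam : Good (insRam k)`;
* `LocProj G` : local projectors at finitely many split places, compatible with `K`;
* `insE`, `insEK`.
-/

set_option autoImplicit false
set_option linter.unusedSectionVars false

open NumberField IsDedekindDomain Matrix MeasureTheory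
open Fermat.Agent.LT.D
open Fermat.Agent.LT.B (IsTestKer autK appK)
open scoped ENNReal

namespace Fermat.LT.GeoDatum

variable {K L : Type} [Field K] [NumberField K] [Field L] [NumberField L] [Algebra K L]
variable {C : Cub K L}

/-! ### The ramified places -/

/-- the ramified places of `K` -/
noncomputable def ramLK (G : GeoDatum C) : List (Pl K) := G.ram_fin.toFinset.toList

/-- the ramified places of `L` -/
noncomputable def ramL (G : GeoDatum C) : List (Pl L) := G.ramLK.map G.up

variable {G : GeoDatum C}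

theorem mem_ramLK {v : Pl K} : v ∈ G.ramLK ↔ Ram C v (G.up v) := by
  unfold ramLK
  rw [Finset.mem_toList, Set.Finite.mem_toFinset]
  rfl

theorem nodup_ramLK : G.ramLK.Nodup := Finset.nodup_toList _

theorem nodup_ramL : G.ramL.Nodup := nodup_ramLK.map up_injective

theorem up_mem_ramL {v : Pl K} : G.up v ∈ G.ramL ↔ Ram C v (G.up v) := by
  unfold ramL
  rw [List.mem_map, ← mem_ramLK]
  constructor
  · rintro ⟨a, ha, h⟩
    rwa [← up_injective h]
  · exact fun h => ⟨v, h, rfl⟩

theorem mem_ramL {w : Pl L} : w ∈ G.ramL ↔ ∃ v, Ram C v (G.up v) ∧ G.up v = w := by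
  unfold ramL
  rw [List.mem_map]
  simp only [mem_ramLK]

/-- insertion of the Hecke operators at the ramified places -/
noncomputable def insRam (k : Pure G.DL.toDatum) : Pure G.DL.toDatum :=
  Pure.insT (t := T1) (fun w => biInv_T1_of_le (G.DL.le_std w)) (fun w => finS_T1_lvl _ w)
    G.ramL k

theorem insRam_f_ram (k : Pure G.DL.toDatum) {v : Pl K} (hv : Ram C v (G.up v)) :
    (insRam k).f (G.up v) = convF (G.DL.H (G.up v)) (T1 (G.up v)) (k.f (G.up v)) :=
  Pure.insT_f_mem _ _ nodup_ramL k (up_mem_ramL.mpr hv)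

theorem insRam_f_ne (k : Pure G.DL.toDatum) {w : Pl L}
    (h : ∀ v, Ram C v (G.up v) → G.up v ≠ w) : (insRam k).f w = k.f w := by
  refine Pure.insT_f_notMem _ _ k fun hw => ?_
  obtain ⟨v, hv, e⟩ := mem_ramL.mp hw
  exact h v hv e

theorem insRam_a (k : Pure G.DL.toDatum) : (insRam k).a = k.a := Pure.insT_a _ _ _ k

theorem rad_insRam {k : Pure G.DL.toDatum} (h : k.Rad) : (insRam k).Rad := by
  intro i
  rw [insRam_a]
  exact h i

theorem UnitIR.insRam {k : Pure G.DL.toDatum} (h : UnitIR k) : Good (insRam k) where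
  inert v hv := by
    rw [insRam_f_ne, h.inert v hv, (G.H_inert v hv).1]
    intro v' hv' e
    have e1 := up_injective e
    subst e1
    exact hv.not_ram_deep hv'
  ram v hv := by
    rw [insRam_f_ram k hv, h.ram v hv,
      convF_unitF_right (biInv_T1_of_le (G.DL.le_std (G.up v)))]

/-- insertions of test operators commute with `insRam` -/
theorem insRam_insLL (l : List G.Idx) (k : Pure G.DL.toDatum) :
    insRam (insLL l k) = insLL l (insRam k) := by
  induction l with
  | nil => rfl
  | cons s l ih =>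
    rw [insLL_cons, insLL_cons, ← ih]
    rcases s with v | g
    · refine Pure.insT_insL _ _ _ (fun hv => ?_) (biT G v) (fiT G v)
      exact (up_mem_ramL.mp hv).not_split v.2.1
    · exact Pure.insT_insAL _ _ _ _ _ (radK_ppi g.2.1)

/-! ### Local projectors at split places -/

/-- Local projectors at finitely many split places. -/
structure LocProj (G : GeoDatum C) where
  /-- the places of `K` -/
  lK : List (Pl K)
  nodup : lK.Nodup
  split : ∀ v ∈ lK, Split C v (G.up v)
  ne : ∀ v ∈ lK, G.DL.H (G.up v) ≠ stdH (G.up v)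
  /-- the function on the `L`-side -/
  tL : Pl L → G2 L → ℂ
  /-- the function on the `K`-side -/
  tK : Pl K → G2 K → ℂ
  biL : ∀ w, BiInv (G.DL.H w) (tL w)
  finL : ∀ w, FinS (G.DL.H w) (tL w)
  biK : ∀ v, BiInv (G.DK.H v) (tK v)
  finK : ∀ v, FinS (G.DK.H v) (tK v)
  inc : ∀ v ∈ lK, ∀ (j : Fin 3) (g : G2 K),
    tL (((pl C).symm)^[(j : ℕ)] (G.up v)) (Cub.Inc g) = tK v g
  idem : ∀ v ∈ lK, convF (G.DK.H v) (tK v) (tK v) = tK v

/-- the three places above a split place -/
noncomputable def three (G : GeoDatum C) (v : Pl K) : List (Pl L) :=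
  [G.up v, (pl C).symm (G.up v), (pl C).symm ((pl C).symm (G.up v))]

theorem down_of_mem_three {v : Pl K} {w : Pl L} (h : w ∈ G.three v) : G.down w = v := by
  unfold three at h
  rw [List.mem_cons, List.mem_cons, List.mem_singleton] at h
  rcases h with rfl | rfl | rfl
  · exact G.down_up v
  · rw [down_symm, G.down_up]
  · rw [down_symm, down_symm, G.down_up]

theorem pl_cube_eq (w : Pl L) : pl C (pl C (pl C w)) = w := TwDatum.pl_cube w

theorem mem_three_iff {v : Pl K} {w : Pl L} : w ∈ G.three v ↔ G.down w = v := by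
  refine ⟨down_of_mem_three, ?_⟩
  rintro rfl
  unfold three
  rw [List.mem_cons, List.mem_cons, List.mem_singleton]
  rcases G.up_down w with h | h | h
  · exact Or.inl h
  · refine Or.inr (Or.inr ?_)
    rw [Equiv.eq_symm_apply, Equiv.eq_symm_apply]
    conv_lhs => rw [h]
    exact pl_cube_eq _
  · refine Or.inr (Or.inl ?_)
    rw [Equiv.eq_symm_apply]
    conv_lhs => rw [h]
    exact pl_cube_eq _

theorem nodup_three {v : Pl K} (hv : pl C (G.up v) ≠ G.up v) : (G.three v).Nodup := by
  unfold three
  have h1 : (pl C).symm (G.up v) ≠ G.up v := by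
    intro h
    exact hv (by rw [Equiv.symm_apply_eq] at h; exact h.symm)
  have h2 : (pl C).symm ((pl C).symm (G.up v)) ≠ (pl C).symm (G.up v) := fun h =>
    h1 ((pl C).symm.injective h)
  have h3 : (pl C).symm ((pl C).symm (G.up v)) ≠ G.up v := by
    intro h
    rw [Equiv.symm_apply_eq, Equiv.symm_apply_eq] at h
    have := pl_cube_eq (C := C) (G.up v)
    rw [← h] at this
    exact hv this
  rw [List.nodup_cons, List.nodup_cons]
  refine ⟨?_, ?_, List.nodup_singleton _⟩
  · rw [List.mem_cons, List.mem_singleton, not_or]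
    exact ⟨h1.symm, h3.symm⟩
  · rw [List.mem_singleton]
    exact h2.symm

namespace LocProj

variable (E : LocProj G)

/-- the places of `L` -/
noncomputable def lL : List (Pl L) := E.lK.flatMap G.three

theorem mem_lL {w : Pl L} : w ∈ E.lL ↔ G.down w ∈ E.lK := by
  unfold lL
  rw [List.mem_flatMap]
  constructor
  · rintro ⟨v, hv, hw⟩
    rwa [down_of_mem_three hw]
  · exact fun h => ⟨_, h, mem_three_iff.mpr rfl⟩

theorem nodup_lL : E.lL.Nodup := by
  unfold lL
  rw [List.nodup_flatMap]
  refine ⟨fun v hv => nodup_three (E.split v hv).ne, ?_⟩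
  refine E.nodup.imp fun {a b} hab => ?_
  intro w hwa hwb
  exact hab ((down_of_mem_three hwa).symm.trans (down_of_mem_three hwb))

/-- insertion of the local projectors on the `L`-side -/
noncomputable def insE (k : Pure G.DL.toDatum) : Pure G.DL.toDatum :=
  Pure.insT E.biL E.finL E.lL k

/-- insertion of the local projectors on the `K`-side -/
noncomputable def insEK (k : Pure G.DK) : Pure G.DK := Pure.insT E.biK E.finK E.lK k

theorem insE_f_mem (k : Pure G.DL.toDatum) {w : Pl L} (h : G.down w ∈ E.lK) :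
    (E.insE k).f w = convF (G.DL.H w) (E.tL w) (k.f w) :=
  Pure.insT_f_mem _ _ E.nodup_lL k (E.mem_lL.mpr h)

theorem insE_f_ne (k : Pure G.DL.toDatum) {w : Pl L} (h : G.down w ∉ E.lK) :
    (E.insE k).f w = k.f w := Pure.insT_f_notMem _ _ k fun h' => h (E.mem_lL.mp h')

theorem insE_a (k : Pure G.DL.toDatum) : (E.insE k).a = k.a := Pure.insT_a _ _ _ k

theorem insEK_f_mem (k : Pure G.DK) {v : Pl K} (h : v ∈ E.lK) :
    (E.insEK k).f v = convF (G.DK.H v) (E.tK v) (k.f v) :=
  Pure.insT_f_mem _ _ E.nodup k h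

theorem insEK_f_ne (k : Pure G.DK) {v : Pl K} (h : v ∉ E.lK) : (E.insEK k).f v = k.f v :=
  Pure.insT_f_notMem _ _ k h

theorem insEK_a (k : Pure G.DK) : (E.insEK k).a = k.a := Pure.insT_a _ _ _ k

theorem insE_mul (k k' : Pure G.DL.toDatum) : (E.insE k).mul k' = E.insE (k.mul k') :=
  Pure.insT_mul _ _ _ k k'

theorem insEK_mul (k k' : Pure G.DK) : (E.insEK k).mul k' = E.insEK (k.mul k') :=
  Pure.insT_mul _ _ _ k k'

theorem rad_insE {k : Pure G.DL.toDatum} (h : k.Rad) : (E.insE k).Rad := by
  intro i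
  rw [insE_a]
  exact h i

theorem rad_insEK {k : Pure G.DK} (h : k.Rad) : (E.insEK k).Rad := by
  intro i
  rw [insEK_a]
  exact h i

theorem unitIR_insE {k : Pure G.DL.toDatum} (h : UnitIR k) : UnitIR (E.insE k) where
  inert v hv := by
    rw [E.insE_f_ne, h.inert v hv]
    rw [G.down_up]
    exact fun h' => hv.not_split (E.split v h')
  ram v hv := by
    rw [E.insE_f_ne, h.ram v hv]
    rw [G.down_up]
    exact fun h' => hv.not_split (E.split v h')

theorem good_insE {k : Pure G.DL.toDatum} (h : Good k) : Good (E.insE k) where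
  inert v hv := by
    rw [E.insE_f_ne, h.inert v hv]
    rw [G.down_up]
    exact fun h' => hv.not_split (E.split v h')
  ram v hv := by
    rw [E.insE_f_ne, h.ram v hv]
    rw [G.down_up]
    exact fun h' => hv.not_split (E.split v h')

theorem up_notMem_lL (v : G.SpPl) : G.up v.1 ∉ E.lL := by
  intro h
  have h1 := E.mem_lL.mp h
  rw [G.down_up] at h1
  exact E.ne _ h1 v.2.2.1

theorem insE_ins1L (s : G.Idx) (k : Pure G.DL.toDatum) :
    E.insE (ins1L s k) = ins1L s (E.insE k) := by
  rcases s with v | g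
  · exact Pure.insT_insL _ _ _ (E.up_notMem_lL v) (biT G v) (fiT G v)
  · exact Pure.insT_insAL _ _ _ _ _ (radK_ppi g.2.1)

theorem insE_insLL (l : List G.Idx) (k : Pure G.DL.toDatum) :
    E.insE (insLL l k) = insLL l (E.insE k) := by
  induction l with
  | nil => rfl
  | cons s l ih => rw [insLL_cons, insLL_cons, insE_ins1L, ih]

/-- `k` is a unit at the places of `E` -/
def Unit (k : Pure G.DL.toDatum) : Prop :=
  ∀ w, G.down w ∈ E.lK → k.f w = unitF (G.DL.H w)

variable {E}

theorem Unit.insLL {k : Pure G.DL.toDatum} (h : E.Unit k) (l : List G.Idx) :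
    E.Unit (insLL l k) := by
  intro w hw
  rw [insLL_f_ne, h w hw]
  rintro v - rfl
  rw [G.down_up] at hw
  exact E.ne _ hw v.2.2.1

theorem Unit.insRam {k : Pure G.DL.toDatum} (h : E.Unit k) : E.Unit (insRam k) := by
  intro w hw
  rw [insRam_f_ne, h w hw]
  rintro v hv rfl
  rw [G.down_up] at hw
  exact hv.not_split (E.split _ hw)

theorem Unit.mul {k k' : Pure G.DL.toDatum} (h : E.Unit k) (h' : E.Unit k') :
    E.Unit (k.mul k') := by
  intro w hw
  rw [Pure.mul_f, h w hw, h' w hw, convF_unitF_left (biInv_unitF _)]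

end LocProj

theorem UnitIR.insLL {l : List G.Idx} {k : Pure G.DL.toDatum} (h : UnitIR k) :
    UnitIR (insLL l k) where
  inert v hv := by
    rw [insLL_f_up (fun h' => h'.ne hv.fix)]
    exact h.inert v hv
  ram v hv := by
    rw [insLL_f_up (fun h' => h'.ne hv.fix)]
    exact h.ram v hv

end Fermat.LT.GeoDatum
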