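import Fermat.Agent.LT.Geo.Norms
import Fermat.Agent.LT.G.Family
import Fermat.Agent.LT.Geo.Main

/-!
# LT/G: the geometric theorem in the form `GeoMain`
-/

set_option autoImplicit false
set_option linter.unusedSectionVars false

open NumberField IsDedekindDomain Matrix MeasureTheory Set
open Fermat.Agent.LT.D hiding pmk_mul pmk_inv pmk_one pmk_surj pmk_eq_iff comp pmk PG
open Fermat.Agent.LT.B Fermat.Agent.LT.F
open scoped ENNReal

namespace Fermat.LT

variable {K L : Type} [Field K] [NumberField K] [Field L] [NumberField L] [Algebra K L]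

theorem enorm_autK_le {F : Type} [Field F] [NumberField F] {D : Datum F}
    (κ : X D → X D → ℂ) (x y : X D) : ‖autK κ x y‖ₑ ≤ ∑' γ : PG F, ‖κ x (γ • y)‖ₑ := by
  unfold autK
  by_cases h : ∑' γ : PG F, ‖κ x (γ • y)‖ₑ = ∞
  · rw [h]; exact le_top
  · have h1 : Summable fun γ : PG F => ‖κ x (γ • y)‖₊ := by
      rw [← ENNReal.tsum_coe_ne_top_iff_summable]
      exact h
    have hs : Summable fun γ : PG F => ‖κ x (γ • y)‖ := NNReal.summable_coe.mpr h1
    have h2 := norm_tsum_le_tsum_norm hs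
    calc ‖∑' γ : PG F, κ x (γ • y)‖ₑ = ENNReal.ofReal ‖∑' γ : PG F, κ x (γ • y)‖ :=
          (ofReal_norm _).symm
      _ ≤ ENNReal.ofReal (∑' γ : PG F, ‖κ x (γ • y)‖) := ENNReal.ofReal_le_ofReal h2
      _ = ∑' γ : PG F, ENNReal.ofReal ‖κ x (γ • y)‖ :=
          ENNReal.ofReal_tsum_of_nonneg (fun _ => norm_nonneg _) hs
      _ = _ := tsum_congr fun γ => ofReal_norm _

namespace GeoDatum

variable {C : Cub K L} {G : GeoDatum C}

/-- **GEO THEOREM** in the form `GeoMain`. -/
theorem geoMain (hR : ∀ (γ : G2 K) (δ : G2 L), Corr C γ δ → LocRam G γ δ) (hN : Norms G)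
    {wL : X G.DL.toDatum → ℝ≥0∞} (hwL : IsWeight (PG L) wL)
    {wK : X G.DK → ℝ≥0∞} (hwK : IsWeight (PG K) wK) : GeoMain G wL wK := by
  intro k hk _ hL hK
  refine ⟨?_, ?_, geo_identity hR hN hk hL hK hwL hwK⟩
  · refine integrable_wt hwL ?_ ?_
    · exact (Measurable.tsum fun δ =>
        (G.DL.continuous_ker_tw k δ).measurable).aestronglyMeasurable
    · refine ne_top_of_le_ne_top (G.DL.lintegral_ne_top k hL hwL) ?_
      exact lintegral_mono fun x => mul_le_mul_right (enorm_autK_le _ _ _) (wL x)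
  · refine integrable_wt hwK ?_ ?_
    · exact (Measurable.tsum fun δ => ((bPure k).continuous_ker.comp
        (continuous_id.prodMk (continuous_id.const_smul δ))).measurable).aestronglyMeasurable
    · refine ne_top_of_le_ne_top ((bPure k).lintegral_ne_top hK hwK) ?_
      exact lintegral_mono fun x => mul_le_mul_right (enorm_autK_le _ _ _) (wK x)

/-- **(CL3)** -/
theorem norms (G : GeoDatum C) (hζ : ∃ ζ : K, IsPrimitiveRoot ζ 3) : Norms G :=
  fun γ hγ hin hra => exists_corr G hζ γ hγ hin hra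

end GeoDatum

end Fermat.LT
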