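import Fermat.Agent.LT.Geo.RamFin
import Fermat.Agent.LT.G.GeoMain

/-!
# LT, G: the geometric theorem, unconditional
-/

set_option autoImplicit false
set_option linter.unusedSectionVars false

open NumberField IsDedekindDomain Matrix MeasureTheory Set
open Fermat.Agent.LT.D hiding pmk_mul pmk_inv pmk_one pmk_surj pmk_eq_iff comp pmk PG
open Fermat.Agent.LT.B Fermat.Agent.LT.F
open scoped ENNReal

namespace Fermat.LT

namespace GeoDatum

variable {K L : Type} [Field K] [NumberField K] [Field L] [NumberField L] [Algebra K L]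
variable {C : Cub K L} {G : GeoDatum C}

/-- **GEO THEOREM**. -/
theorem geoMainU (hζ : ∃ ζ : K, IsPrimitiveRoot ζ 3)
    {wL : X G.DL.toDatum → ℝ≥0∞} (hwL : IsWeight (PG L) wL)
    {wK : X G.DK → ℝ≥0∞} (hwK : IsWeight (PG K) wK) : GeoMain G wL wK :=
  geoMain (fun _ _ hc => locRam G hc) (norms G hζ) hwL hwK

end GeoDatum

end Fermat.LT
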