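import Fermat.Agent.LT.G.Moments

/-!
# LT/G: isolation of one eigensystem in the comparison of two trace formulas

`ΞL`, `ΞK` index the eigensystems on the two sides, `yL ξ s`, `yK ξ s` (`s ∈ S`) the eigenvalues of
the operators which are varied, `cL`, `cK` the coefficients (traces on the eigenspaces of the part
which is not varied).
-/

set_option autoImplicit false

open Filter Topology

namespace Fermat.Agent.LT.G

variable {S ΞL ΞK : Type*}

open Classical in
/-- **Comparison.** If the two spectral sides agree for all monomials, they agree on each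
eigensystem. -/
theorem compare {R : S → ℝ} {cL : ΞL → ℂ} {cK : ΞK → ℂ} {yL : ΞL → S → ℝ} {yK : ΞK → S → ℝ}
    (hyL : ∀ ξ s, |yL ξ s| ≤ R s) (hyK : ∀ ξ s, |yK ξ s| ≤ R s) {I : (S →₀ ℕ) → ℂ}
    (hL : ∀ m : S →₀ ℕ, HasSum (fun ξ => cL ξ * ((m.prod fun s i => yL ξ s ^ i : ℝ) : ℂ)) (I m))
    (hK : ∀ m : S →₀ ℕ, HasSum (fun ξ => cK ξ * ((m.prod fun s i => yK ξ s ^ i : ℝ) : ℂ)) (I m))
    (y₀ : S → ℝ) :
    ∑' ξ, (if yL ξ = y₀ then cL ξ else 0) = ∑' ξ, (if yK ξ = y₀ then cK ξ else 0) := by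
  have hsL : Summable cL := by
    have := (hL 0).summable
    simpa using this
  have hsK : Summable cK := by
    have := (hK 0).summable
    simpa using this
  let c : ΞL ⊕ ΞK → ℂ := Sum.elim cL (fun ξ => -cK ξ)
  let y : ΞL ⊕ ΞK → S → ℝ := Sum.elim yL yK
  have hc : Summable fun j => ‖c j‖ := by
    refine (HasSum.sum (f := fun j => ‖c j‖) hsL.norm.hasSum (hsK.norm.hasSum.congr_fun ?_)).summable
    intro ξ
    simp [c]
  have hy : ∀ j v, |y j v| ≤ R v := by
    rintro (ξ | ξ) v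
    · exact hyL ξ v
    · exact hyK ξ v
  have H : ∀ k : S →₀ ℕ, ∃ (a b : ℂ) (e : ℕ → ℂ) (M : ℕ), Summable (fun n => ‖e n‖) ∧
      ∀ m : ℕ, M ≤ m → ∑' j, (c j * ((k.prod fun v i => y j v ^ i : ℝ) : ℂ)) *
        (((Polynomial.Chebyshev.C ℝ m).eval (0 : ℝ) : ℝ) : ℂ) = a + b * (-1) ^ m + e m := by
    intro k
    refine ⟨0, 0, 0, 0, by simp, fun m _ => ?_⟩
    have h0 : HasSum (fun j => c j * ((k.prod fun v i => y j v ^ i : ℝ) : ℂ)) 0 := by
      have h1 := hL k
      have h2 := (hK k).neg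
      have h3 : HasSum (fun j => c j * ((k.prod fun v i => y j v ^ i : ℝ) : ℂ)) (I k + -I k) := by
        refine HasSum.sum h1 (h2.congr_fun ?_)
        intro ξ
        exact neg_mul _ _
      rwa [add_neg_cancel] at h3
    have h4 := h0.mul_right (((Polynomial.Chebyshev.C ℝ m).eval (0 : ℝ) : ℝ) : ℂ)
    rw [h4.tsum_eq]
    simp
  have key := isolation_monomial (R := 2) le_rfl hc (w := fun _ => 0) (by simp) hy H
    (w₀ := 0) (by norm_num) (by norm_num) y₀
  have hsL' : Summable fun ξ => (if yL ξ = y₀ then cL ξ else 0) := by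
    refine Summable.of_norm (Summable.of_nonneg_of_le (fun _ => norm_nonneg _) (fun ξ => ?_)
      hsL.norm)
    split_ifs
    · exact le_rfl
    · simp
  have hsK' : Summable fun ξ => (if yK ξ = y₀ then cK ξ else 0) := by
    refine Summable.of_norm (Summable.of_nonneg_of_le (fun _ => norm_nonneg _) (fun ξ => ?_)
      hsK.norm)
    split_ifs
    · exact le_rfl
    · simp
  have hsum : HasSum (fun j : ΞL ⊕ ΞK => if y j = y₀ then c j else 0)
      (∑' ξ, (if yL ξ = y₀ then cL ξ else 0) + -∑' ξ, (if yK ξ = y₀ then cK ξ else 0)) := by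
    refine HasSum.sum hsL'.hasSum (hsK'.hasSum.neg.congr_fun ?_)
    intro ξ
    change (if yK ξ = y₀ then -cK ξ else 0) = -(if yK ξ = y₀ then cK ξ else 0)
    split_ifs
    · rfl
    · rw [neg_zero]
  have e : (fun j : ΞL ⊕ ΞK => if (0 : ℝ) = 0 ∧ y j = y₀ then c j else 0) =
      fun j => if y j = y₀ then c j else 0 := by
    funext j
    simp
  have key' : ∑' j : ΞL ⊕ ΞK, (if y j = y₀ then c j else 0) = 0 := by
    rw [← e]
    exact key
  rw [hsum.tsum_eq] at key'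
  exact add_neg_eq_zero.mp key'

/-- **Isolation.** A eigensystem `ξ₀` on the left which is alone in its family and has nonzero
coefficient gives an eigensystem on the right. -/
theorem exists_right {R : S → ℝ} {cL : ΞL → ℂ} {cK : ΞK → ℂ} {yL : ΞL → S → ℝ}
    {yK : ΞK → S → ℝ}
    (hyL : ∀ ξ s, |yL ξ s| ≤ R s) (hyK : ∀ ξ s, |yK ξ s| ≤ R s) {I : (S →₀ ℕ) → ℂ}
    (hL : ∀ m : S →₀ ℕ, HasSum (fun ξ => cL ξ * ((m.prod fun s i => yL ξ s ^ i : ℝ) : ℂ)) (I m))
    (hK : ∀ m : S →₀ ℕ, HasSum (fun ξ => cK ξ * ((m.prod fun s i => yK ξ s ^ i : ℝ) : ℂ)) (I m))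
    {ξ₀ : ΞL} (h0 : cL ξ₀ ≠ 0) (huniq : ∀ ξ, yL ξ = yL ξ₀ → cL ξ ≠ 0 → ξ = ξ₀) :
    ∃ ξ : ΞK, yK ξ = yL ξ₀ ∧ cK ξ ≠ 0 := by
  classical
  have key := compare hyL hyK hL hK (yL ξ₀)
  by_contra hcon
  push Not at hcon
  have h1 : ∑' ξ, (if yK ξ = yL ξ₀ then cK ξ else 0) = 0 := by
    refine (tsum_congr fun ξ => ?_).trans tsum_zero
    by_cases h : yK ξ = yL ξ₀
    · rw [if_pos h, hcon ξ h]
    · rw [if_neg h]
  have h2 : ∑' ξ, (if yL ξ = yL ξ₀ then cL ξ else 0) = cL ξ₀ := by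
    rw [tsum_eq_single ξ₀]
    · rw [if_pos rfl]
    · intro ξ hξ
      split_ifs with h
      · by_contra hne
        exact hξ (huniq ξ h hne)
      · rfl
  rw [h1, h2] at key
  exact h0 key

end Fermat.Agent.LT.G
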