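import Fermat.Agent.LT.G.Core
import Fermat.Agent.LT.G.GeoMainU
import Fermat.Agent.LT.G.SphConv2
import Fermat.Agent.LT.B.SpecTrace

/-!
# LT/G: the comparison of trace formulas

* `specI` : the spectral decomposition (piece B) as a `SpecI`;
* `Killer h Q` : the properties of the killed family `Q`;
* `descGeo_of` : the descent of the form, given a killed family and the local projectors.
(helper23)
-/

set_option autoImplicit false
set_option linter.unusedSectionVars false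

open NumberField IsDedekindDomain Matrix MeasureTheory Set
open Fermat.LT Fermat.LT.GeoDatum Fermat.Agent.LT.B Fermat.Agent.LT.CArch Fermat.Agent.LT.D
  Fermat.Agent.LT.Top
open scoped ComplexConjugate ENNReal

namespace Fermat.Agent.LT.G

section spec

variable {F : Type} [Field F] [NumberField F] {D : Datum F} {P : Set (Pl F)}

/-- The spectral decomposition. -/
noncomputable def specI (hP : ∀ w ∈ P, D.n w = 0) : SpecI D P where
  Ξ := Xi D P
  V := Vx hP
  lam := Fermat.Agent.LT.B.lam hP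
  sp := Fermat.Agent.LT.B.sp hP
  ev := Fermat.Agent.LT.B.ev hP
  finV := finiteDimensional_Vx hP
  ne := exists_mem_Vx hP
  cusp _ _ h := isCusp_of_mem hP h
  eig _ _ h := isEig_of_mem hP h
  mem _ _ h h' := mem_Vx_of_isCusp hP h h'
  ex φ hc la s he hk := by
    obtain ⟨k, hk, x, hx⟩ := hk
    have h0 : φ ≠ 0 := by
      rintro rfl
      apply hx
      simp [appK]
    obtain ⟨ξ, h1, -, -⟩ := exists_Xi hP ⟨hc.cont, hc.inv, hc.bounded⟩ h0 he hk ⟨x, hx⟩
    exact ⟨ξ, h1⟩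
  uniq ξ ξ' φ h0 h h' := by
    obtain ⟨h1, h2⟩ := isEig_unique (isEig_of_mem hP h) (isEig_of_mem hP h') h0
    exact Xi_ext hP h1 h2
  ev_spec _ _ hk _ hφ x := Fermat.Agent.LT.B.ev_spec hP hk hφ x
  stab t ht hs l hl ξ φ hφ := by
    have h1 := IsJ.opF hP (isFinTest_kT ht hs l) (commP_kT ht hs hP hl) ((mem_Vx hP).1 hφ)
    rw [opF_kT ht hs] at h1
    exact (mem_Vx hP).2 h1

end spec

variable {K L : Type} [Field K] [NumberField K] [Field L] [NumberField L] [Algebra K L]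
variable {C : Cub K L} {G : GeoDatum C} {M : ℕ} {lam : Pl L → ℝ} {φ : X G.DL.toDatum → ℂ}

/-- The properties of the killed family. -/
structure Killer (G : GeoDatum C) (φ : X G.DL.toDatum → ℂ) (Q : LT.PS G.DL.toDatum) : Prop where
  ir : ∀ j, UnitIR (Q.k j)
  unit : ∀ j w, G.DL.n w ≠ 0 → (Q.k j).f w = unitF (G.DL.H w)
  com : ∀ i j, SCom (Q.k i) (Q.k j)
  rad : Q.Rad
  tf : ∀ j, (Q.k j).IsTF
  killL : Killed Q.ker
  killK : Killed (Q.map aPure).ker
  ne : ∃ α : ℂ, α ≠ 0 ∧ ∀ x, appK volume Q.ker φ x = α * φ x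

/-- **The descent**, given a killed family and the local projectors. -/
theorem descGeo_of (h : DescHyp G M lam φ) {Q : LT.PS G.DL.toDatum} (hQ : Killer G φ Q)
    {E : LocProj G} (hb : BadL h E.tL E.lL) :
    ∃ (lamK : Pl K → ℝ) (Φ : X G.DK → ℂ), EForm G.DK lamK Φ ∧
      ∀ v, Split C v (G.up v) → G.DL.n (G.up v) = 0 → lamK v = lam (G.up v) := by
  have hPL : ∀ w ∈ goodPl G.DL.toDatum, G.DL.n w = 0 := fun _ hw => hw
  have hPK : ∀ v ∈ goodPl G.DK, G.DK.n v = 0 := fun _ hv => hv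
  have hSL : ∀ v : G.SpPl, G.up v.1 ∈ goodPl G.DL.toDatum := fun v => n_up_eq_zero h v
  have hSK : ∀ v : G.SpPl, v.1 ∈ goodPl G.DK := fun v => n_U_eq_zero h v
  have hRL : ∀ v, Ram C v (G.up v) → G.up v ∈ goodPl G.DL.toDatum := fun v hv => by
    by_contra hc
    exact ((h.lev _).resolve_left hc).2 hv.fix
  have hσ : ∀ w, pl C w ∈ goodPl G.DL.toDatum ↔ w ∈ goodPl G.DL.toDatum :=
    G.DL.n_pl_iff (lev' h)
  obtain ⟨wL, hwL⟩ := exists_isWeight_PG G.DL.toDatum
  obtain ⟨wK, hwK⟩ := exists_isWeight_PG G.DK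
  have hM : GeoMain G wL wK := geoMainU h.zeta hwL hwK
  have fam : FamHyp E Q := ⟨hQ.ir, fun j w hw => hQ.unit j w
    ((hb.mem w).mp (E.mem_lL.mpr hw)), hQ.com, hQ.rad⟩
  -- the kernels
  have ksL : IsKS (goodPl G.DL.toDatum) Q.ker := ⟨PS.mem_Sph_of_isTF hQ.rad hQ.tf, hQ.killL⟩
  have ksK : IsKS (goodPl G.DK) (Q.map aPure).ker :=
    ⟨mem_Sph_aPure hQ.rad hQ.tf (n_of_split h.n_split fun w => by rw [h.n_pl]), hQ.killK⟩
  have hlL : ∀ w ∈ E.lL, w ∉ goodPl G.DL.toDatum := fun w hw h' => (hb.mem w).mp hw h'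
  have hlK : ∀ v ∈ E.lBad, v ∉ goodPl G.DK := fun v hv h' => by
    have h1 : G.U.n v = 0 := h'
    rcases E.mem_lBad.mp hv with hv | hv
    · have h2 : G.DL.n (G.up v) ≠ 0 := (hb.mem _).mp (E.mem_lL.mpr (by rwa [G.down_up]))
      rw [h.n_split v (E.split v hv)] at h1
      exact h2 h1
    · exact h.n_ram v hv h1
  -- the point `ξ₀`
  obtain ⟨α, hα, hev⟩ := hQ.ne
  obtain ⟨x₀, hx₀⟩ := Function.ne_iff.mp h.form.ne
  have hx₀' : φ x₀ ≠ 0 := hx₀
  obtain ⟨ξ₀, hξ₀⟩ := (specI hPL).ex φ h.form.cusp _ _ h.form.eig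
    ⟨Q.ker, ksL, x₀, by rw [hev]; exact mul_ne_zero hα hx₀'⟩
  have hξ₀' : φ ∈ Vx hPL ξ₀ := hξ₀
  have hu := isEig_unique h.form.eig (isEig_of_mem hPL hξ₀') h.form.ne
  refine descGeo_core h hb E.biL E.finL (specI hPL) (specI hPK)
    (α := fun ξ => ev hPL ξ Q.ker * ev hPL ξ (Q.map insRam).ker)
    (cK := fun ξ => ev hPK ξ (Q.map aPure).ker * ev hPK ξ (Q.map aPure).ker *
      trSub (Vx hPK ξ) (opFl _ (isFinTest_kT E.biInv_tBad E.finS_tBad E.lBad).fin ∘ₗ
        (Twist.refl G.DK (goodPl G.DK)).U))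
    (IL := fun l' => ∫ x, (wL x).toReal • autK (fun x z => opT E.tL E.lL (fun y =>
      ∫ s, (Q.map (insLL l')).ker y s * (Q.map insRam).ker s z) x) x (G.DL.σX x))
    (IK := fun l' => ∫ x, (wK x).toReal • autK (fun x z => opT E.tBad E.lBad (fun y =>
      ∫ s, ((Q.map aPure).map (insKL l')).ker y s * (Q.map aPure).ker s z) x) x x)
    (fun l' => ?_) (fun l' => ?_) (fun l' => ?_) (ξ₀ := ξ₀) hξ₀ ?_
  · -- the spectral side on `L`
    have h1 := hasSum_spectral hPL (isKS_insLL hPL hSL ksL l') (isKS_insRam hPL hRL ksL)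
      (isFinTest_kT E.biL E.finL E.lL) (commP_kT E.biL E.finL hPL hlL)
      (G.DL.twist (goodPl G.DL.toDatum) hσ) hwL
    have e1 : ∀ ξ : Xi G.DL.toDatum (goodPl G.DL.toDatum),
        ev hPL ξ (Q.map (insLL l')).ker * ev hPL ξ (Q.map insRam).ker *
          trSub (Vx hPL ξ) (opFl _ (isFinTest_kT E.biL E.finL E.lL).fin ∘ₗ
            (G.DL.twist (goodPl G.DL.toDatum) hσ).U) =
        (l'.map (evL (Fermat.Agent.LT.B.lam hPL ξ) (sp hPL ξ))).prod *
          (ev hPL ξ Q.ker * ev hPL ξ (Q.map insRam).ker *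
            trSub (Vx hPL ξ) (Lop G E.biL E.finL E.lL)) := by
      intro ξ
      rw [ev_insLL hPL hSL ξ ksL l']
      have e2 : opFl _ (isFinTest_kT E.biL E.finL E.lL).fin ∘ₗ
          (G.DL.twist (goodPl G.DL.toDatum) hσ).U = Lop G E.biL E.finL E.lL := by
        refine LinearMap.ext fun ψ => ?_
        rw [LinearMap.comp_apply, opFl_apply, opF_kT E.biL E.finL, Lop_apply]
        congr 1
        funext x
        rw [Twist.U_apply, TwDatum.twist_hX_symm]
      rw [e2]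
      ring
    have e3 : compKer (kT E.tL E.lL) (Q.map (insLL l')).ker (Q.map insRam).ker =
        fun x z => opT E.tL E.lL (fun y =>
          ∫ s, (Q.map (insLL l')).ker y s * (Q.map insRam).ker s z) x := by
      funext x z
      unfold compKer
      rw [opF_kT E.biL E.finL]
    rw [e3] at h1
    exact h1.congr_fun fun ξ => (e1 ξ).symm
  · -- the spectral side on `K`
    have h1 := hasSum_spectral hPK (isKS_insKL hPK hSK ksK l') ksK
      (isFinTest_kT E.biInv_tBad E.finS_tBad E.lBad)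
      (commP_kT E.biInv_tBad E.finS_tBad hPK hlK) (Twist.refl G.DK (goodPl G.DK)) hwK
    have e1 : ∀ ξ : Xi G.DK (goodPl G.DK),
        ev hPK ξ ((Q.map aPure).map (insKL l')).ker * ev hPK ξ (Q.map aPure).ker *
          trSub (Vx hPK ξ) (opFl _ (isFinTest_kT E.biInv_tBad E.finS_tBad E.lBad).fin ∘ₗ
            (Twist.refl G.DK (goodPl G.DK)).U) =
        (l'.map (evK (Fermat.Agent.LT.B.lam hPK ξ) (sp hPK ξ))).prod *
          (ev hPK ξ (Q.map aPure).ker * ev hPK ξ (Q.map aPure).ker *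
            trSub (Vx hPK ξ) (opFl _ (isFinTest_kT E.biInv_tBad E.finS_tBad E.lBad).fin ∘ₗ
              (Twist.refl G.DK (goodPl G.DK)).U)) := by
      intro ξ
      rw [ev_insKL hPK hSK ξ ksK l']
      ring
    have e3 : compKer (kT E.tBad E.lBad) ((Q.map aPure).map (insKL l')).ker
        (Q.map aPure).ker =
        fun x z => opT E.tBad E.lBad (fun y =>
          ∫ s, ((Q.map aPure).map (insKL l')).ker y s * (Q.map aPure).ker s z) x := by
      funext x z
      unfold compKer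
      rw [opF_kT E.biInv_tBad E.finS_tBad]
    rw [e3] at h1
    exact h1.congr_fun fun ξ => (e1 ξ).symm
  · -- the geometric side
    obtain ⟨B, hB⟩ := exists_family_geo hM fam l'
    exact ⟨B, fun u hu n hn => (hB u hu n hn).eq⟩
  · -- the coefficient at `ξ₀`
    have h1 : ev hPL ξ₀ Q.ker = α := ev_eq hPL ksL.sph hξ₀' h.form.ne hev
    change ev hPL ξ₀ Q.ker * ev hPL ξ₀ (Q.map insRam).ker ≠ 0
    rw [ev_insRam hPL hRL ξ₀ ksL, h1]
    refine mul_ne_zero hα (mul_ne_zero ?_ hα)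
    rw [Ne, List.prod_eq_zero_iff, List.mem_map]
    rintro ⟨w, hw, hw0⟩
    obtain ⟨v, hv, rfl⟩ := mem_ramL.mp hw
    rw [← hu.1 _ (hRL v hv)] at hw0
    refine mul_ne_zero ?_ ?_ hw0
    · exact_mod_cast (Fermat.Agent.LT.CTree.sq_pos _).ne'
    · exact_mod_cast h.lam_ram v hv

end Fermat.Agent.LT.G
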