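import Mathlib

/-!
# LT/G: atoms of absolutely summable families are determined by moments

Pure analysis used in the isolation step:
* `fiber_sum_eq_zero`: if `∑ c_j f(x_j) = 0` for all `f` in a separating subalgebra of `C(X)`,
  `X` compact metric, then the sum of the `c_j` over each fibre of `x` is `0`;
* `moment_atoms`: if `∑ c_j C_m(w_j) = a + b (-1)^m + e_m` with `∑ |e_m| < ∞` then the sum of the
  `c_j` over `w_j = w₀` is `0` for `w₀ ≠ ±2` (`C_m(z + z⁻¹) = z^m + z^{-m}`);
* `isolation`: the two combined.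
-/

open MeasureTheory Filter Topology Polynomial

namespace Fermat.Agent.LT.G

section SumCLM

variable {V : Type*} [NormedAddCommGroup V] [NormedSpace ℝ V] {J : Type*}

lemma abs_apply_le {ℓ : V →L[ℝ] ℝ} (h : ‖ℓ‖ ≤ 1) (f : V) : |ℓ f| ≤ ‖f‖ := by
  have := ℓ.le_opNorm f
  calc |ℓ f| = ‖ℓ f‖ := rfl
    _ ≤ ‖ℓ‖ * ‖f‖ := this
    _ ≤ 1 * ‖f‖ := by gcongr
    _ = ‖f‖ := one_mul _

lemma summable_apply {c : J → ℂ} (hc : Summable fun j => ‖c j‖) {ℓ : J → V →L[ℝ] ℝ}
    (hℓ : ∀ j, ‖ℓ j‖ ≤ 1) (f : V) : Summable fun j => ‖c j * ((ℓ j f : ℝ) : ℂ)‖ := by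
  refine Summable.of_nonneg_of_le (fun j => norm_nonneg _) (fun j => ?_) (hc.mul_right ‖f‖)
  rw [norm_mul, Complex.norm_real]
  exact mul_le_mul_of_nonneg_left (abs_apply_le (hℓ j) f) (norm_nonneg _)

/-- the functional `f ↦ ∑ c_j ℓ_j(f)`. -/
noncomputable def sumCLM (c : J → ℂ) (hc : Summable fun j => ‖c j‖) (ℓ : J → V →L[ℝ] ℝ)
    (hℓ : ∀ j, ‖ℓ j‖ ≤ 1) : V →L[ℝ] ℂ :=
  LinearMap.mkContinuous
    { toFun := fun f => ∑' j, c j * ((ℓ j f : ℝ) : ℂ)
      map_add' := fun f g => by
        rw [← Summable.tsum_add (summable_apply hc hℓ f).of_norm (summable_apply hc hℓ g).of_norm]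
        congr 1; funext j; simp [mul_add]
      map_smul' := fun r f => by
        rw [RingHom.id_apply, ← tsum_const_smul'' r]
        congr 1; funext j
        simp only [map_smul, smul_eq_mul, Complex.real_smul]
        push_cast; ring }
    (∑' j, ‖c j‖) (fun f => by
      change ‖∑' j, c j * ((ℓ j f : ℝ) : ℂ)‖ ≤ _
      refine (norm_tsum_le_tsum_norm (summable_apply hc hℓ f)).trans ?_
      rw [← tsum_mul_right]
      refine Summable.tsum_le_tsum (fun j => ?_) (summable_apply hc hℓ f) (hc.mul_right _)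
      rw [norm_mul, Complex.norm_real]
      exact mul_le_mul_of_nonneg_left (abs_apply_le (hℓ j) f) (norm_nonneg _))

lemma sumCLM_apply (c : J → ℂ) (hc : Summable fun j => ‖c j‖) (ℓ : J → V →L[ℝ] ℝ)
    (hℓ : ∀ j, ‖ℓ j‖ ≤ 1) (f : V) : sumCLM c hc ℓ hℓ f = ∑' j, c j * ((ℓ j f : ℝ) : ℂ) := rfl

/-- dominated convergence for `sumCLM`. -/
lemma tendsto_sumCLM (c : J → ℂ) (hc : Summable fun j => ‖c j‖) (ℓ : J → V →L[ℝ] ℝ)
    (hℓ : ∀ j, ‖ℓ j‖ ≤ 1) (f : ℕ → V) (hf : ∀ n, ‖f n‖ ≤ 1) (m : J → ℝ)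
    (hm : ∀ j, Tendsto (fun n => ℓ j (f n)) atTop (𝓝 (m j))) :
    Tendsto (fun n => sumCLM c hc ℓ hℓ (f n)) atTop (𝓝 (∑' j, c j * (m j : ℂ))) := by
  simp only [sumCLM_apply]
  refine tendsto_tsum_of_dominated_convergence hc (fun j => ?_) (Eventually.of_forall fun n j => ?_)
  · exact ((Complex.continuous_ofReal.tendsto _).comp (hm j)).const_mul _
  · rw [norm_mul, Complex.norm_real]
    calc ‖c j‖ * ‖ℓ j (f n)‖ ≤ ‖c j‖ * 1 := by
          gcongr
          exact (abs_apply_le (hℓ j) (f n)).trans (hf n)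
      _ = ‖c j‖ := mul_one _

end SumCLM

section General

variable {X : Type*} [TopologicalSpace X] [CompactSpace X] {J : Type*}

/-- evaluation at a point. -/
noncomputable def evPt (x : X) : C(X, ℝ) →L[ℝ] ℝ := ContinuousMap.evalCLM ℝ x

omit [CompactSpace X] in
@[simp] lemma evPt_apply (x : X) (f : C(X, ℝ)) : evPt x f = f x := rfl

lemma norm_evPt_le (x : X) : ‖evPt x‖ ≤ 1 := by
  refine ContinuousLinearMap.opNorm_le_bound _ zero_le_one fun f => ?_
  rw [one_mul]
  exact f.norm_coe_le_norm x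

/-- the functional `f ↦ ∑ c_j f(x_j)`. -/
noncomputable def evalSum (c : J → ℂ) (hc : Summable fun j => ‖c j‖) (x : J → X) :
    C(X, ℝ) →L[ℝ] ℂ :=
  sumCLM c hc (fun j => evPt (x j)) (fun j => norm_evPt_le (x j))

lemma evalSum_apply (c : J → ℂ) (hc : Summable fun j => ‖c j‖) (x : J → X) (f : C(X, ℝ)) :
    evalSum c hc x f = ∑' j, c j * ((f (x j) : ℝ) : ℂ) := rfl

/-- two functionals agreeing on a separating subalgebra are equal. -/
theorem eq_of_eqOn_subalgebra {Φ Ψ : C(X, ℝ) →L[ℝ] ℂ} (A : Subalgebra ℝ C(X, ℝ))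
    (hA : A.SeparatesPoints) (h : ∀ f ∈ A, Φ f = Ψ f) : Φ = Ψ := by
  have hclosed : IsClosed {f : C(X, ℝ) | Φ f = Ψ f} := isClosed_eq Φ.continuous Ψ.continuous
  have hdense : A.topologicalClosure = ⊤ :=
    ContinuousMap.subalgebra_topologicalClosure_eq_top_of_separatesPoints A hA
  ext f
  have hf : f ∈ A.topologicalClosure := by rw [hdense]; trivial
  have hsub : closure (A : Set C(X, ℝ)) ⊆ {f : C(X, ℝ) | Φ f = Ψ f} :=
    hclosed.closure_subset_iff.mpr fun f hf => h f hf
  exact hsub hf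

end General

section Bump

variable {X : Type*} [MetricSpace X] [CompactSpace X] {J : Type*}

/-- bump functions shrinking to `x₀`. -/
noncomputable def bump (x₀ : X) (n : ℕ) : C(X, ℝ) :=
  ⟨fun x => max 0 (1 - n * dist x x₀), by fun_prop⟩

omit [CompactSpace X] in
lemma bump_apply (x₀ : X) (n : ℕ) (x : X) : bump x₀ n x = max 0 (1 - n * dist x x₀) := rfl

lemma norm_bump_le (x₀ : X) (n : ℕ) : ‖bump x₀ n‖ ≤ 1 := by
  rw [ContinuousMap.norm_le _ zero_le_one]
  intro x
  rw [bump_apply, Real.norm_eq_abs, abs_of_nonneg (le_max_left _ _)]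
  refine max_le zero_le_one ?_
  have : 0 ≤ (n : ℝ) * dist x x₀ := by positivity
  linarith

omit [CompactSpace X] in
lemma tendsto_bump (x₀ x : X) [Decidable (x = x₀)] :
    Tendsto (fun n => bump x₀ n x) atTop (𝓝 (if x = x₀ then 1 else 0)) := by
  split_ifs with h
  · subst h
    simp [bump_apply]
  · have hd : 0 < dist x x₀ := dist_pos.mpr h
    obtain ⟨N, hN⟩ := exists_nat_gt (1 / dist x x₀)
    refine tendsto_const_nhds.congr' ?_
    filter_upwards [eventually_ge_atTop N] with n hn
    rw [bump_apply]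
    symm
    apply max_eq_left
    have h1 : 1 < N * dist x x₀ := by rwa [div_lt_iff₀ hd] at hN
    have h2 : (N : ℝ) * dist x x₀ ≤ n * dist x x₀ := by gcongr
    linarith

open Classical in
theorem tendsto_evalSum_bump (c : J → ℂ) (hc : Summable fun j => ‖c j‖) (x : J → X) (x₀ : X) :
    Tendsto (fun n => evalSum c hc x (bump x₀ n)) atTop
      (𝓝 (∑' j, if x j = x₀ then c j else 0)) := by
  have := tendsto_sumCLM c hc (fun j => evPt (x j)) (fun j => norm_evPt_le (x j)) (bump x₀)
    (norm_bump_le x₀) (fun j => if x j = x₀ then 1 else 0) (fun j => tendsto_bump x₀ (x j))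
  refine (this.congr fun n => rfl).trans (le_of_eq ?_)
  congr 1
  refine tsum_congr fun j => ?_
  split_ifs <;> simp

open Classical in
/-- **Isolation, algebra version.** -/
theorem fiber_sum_eq_zero {c : J → ℂ} (hc : Summable fun j => ‖c j‖) (x : J → X)
    (A : Subalgebra ℝ C(X, ℝ)) (hA : A.SeparatesPoints)
    (h : ∀ f ∈ A, ∑' j, c j * ((f (x j) : ℝ) : ℂ) = 0) (x₀ : X) :
    ∑' j, (if x j = x₀ then c j else 0) = 0 := by
  have h0 : evalSum c hc x = 0 := eq_of_eqOn_subalgebra A hA (by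
    intro f hf
    rw [evalSum_apply, h f hf]; rfl)
  have h1 := tendsto_evalSum_bump c hc x x₀
  rw [h0] at h1
  exact tendsto_nhds_unique h1 tendsto_const_nhds

end Bump

section Chebyshev

open Polynomial.Chebyshev

/-! ### the measure `dx/√(1-x²)` -/

instance instFiniteMeasureT : IsFiniteMeasure measureT := by
  have h : Integrable (fun _ : ℝ => (1 : ℝ)) measureT := integrable_measureT continuousOn_const
  rwa [integrable_const_iff_isFiniteMeasure one_ne_zero] at h

lemma measureT_real_univ : measureT.real Set.univ = Real.pi := by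
  have h := integral_eval_T_real_measureT_zero
  simpa using h

lemma measureT_singleton (x : ℝ) : measureT {x} = 0 := by
  have h1 : measureT ≪ volume :=
    Measure.restrict_le_self.absolutelyContinuous.trans (withDensity_absolutelyContinuous _ _)
  exact h1 (by simp)

lemma ae_mem_Icc : ∀ᵐ x ∂measureT, x ∈ Set.Icc (-1 : ℝ) 1 := by
  have : ∀ᵐ x ∂measureT, x ∈ Set.Ioc (-1 : ℝ) 1 := ae_restrict_mem measurableSet_Ioc
  filter_upwards [this] with x hx using Set.Ioc_subset_Icc_self hx

lemma abs_eval_T_le {x : ℝ} (hx : x ∈ Set.Icc (-1 : ℝ) 1) (n : ℤ) : |(T ℝ n).eval x| ≤ 1 := by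
  rw [← Real.cos_arccos hx.1 hx.2, T_real_cos]
  exact Real.abs_cos_le_one _

variable {R : ℝ} (hR : 2 ≤ R)

include hR in
lemma neg_le_self : -R ≤ R := by linarith

/-- the continuous function `x ↦ f(2x)` (clamped). -/
noncomputable def dbl (f : C(Set.Icc (-R) R, ℝ)) (x : ℝ) : ℝ :=
  f (Set.projIcc (-R) R (neg_le_self hR) (2 * x))

lemma continuous_dbl (f : C(Set.Icc (-R) R, ℝ)) : Continuous (dbl hR f) := by
  unfold dbl
  exact f.continuous.comp (continuous_projIcc.comp (by fun_prop))

lemma abs_dbl_le (f : C(Set.Icc (-R) R, ℝ)) (x : ℝ) : |dbl hR f x| ≤ ‖f‖ := f.norm_coe_le_norm _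

lemma dbl_eq {x : ℝ} (hx : x ∈ Set.Icc (-1 : ℝ) 1) (f : C(Set.Icc (-R) R, ℝ)) :
    dbl hR f x = f ⟨2 * x, by constructor <;> linarith [hx.1, hx.2]⟩ := by
  unfold dbl
  congr 1
  exact Set.projIcc_of_mem _ _

/-- The Fourier-Chebyshev coefficient functional (normalised to have norm `≤ 1`). -/
noncomputable def coefCLM (n : ℕ) : C(Set.Icc (-R) R, ℝ) →L[ℝ] ℝ :=
  LinearMap.mkContinuous
    { toFun := fun f => Real.pi⁻¹ * ∫ x, dbl hR f x * (T ℝ n).eval x ∂measureT
      map_add' := fun f g => by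
        rw [← mul_add, ← integral_add]
        · congr 1
          apply integral_congr_ae
          filter_upwards with x
          simp [dbl, add_mul]
        · exact integrable_measureT
            ((continuous_dbl hR f).mul (T ℝ n).continuous).continuousOn
        · exact integrable_measureT
            ((continuous_dbl hR g).mul (T ℝ n).continuous).continuousOn
      map_smul' := fun r f => by
        have h1 : ∫ x, dbl hR (r • f) x * (T ℝ n).eval x ∂measureT =
            r * ∫ x, dbl hR f x * (T ℝ n).eval x ∂measureT := by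
          rw [← integral_const_mul]
          apply integral_congr_ae
          filter_upwards with x
          simp [dbl, mul_assoc]
        rw [RingHom.id_apply, smul_eq_mul, h1]
        ring }
    1 (fun f => by
      change ‖Real.pi⁻¹ * ∫ x, dbl hR f x * (T ℝ n).eval x ∂measureT‖ ≤ _
      rw [one_mul, norm_mul, Real.norm_eq_abs, abs_of_pos (inv_pos.mpr Real.pi_pos)]
      have : ‖∫ x, dbl hR f x * (T ℝ n).eval x ∂measureT‖ ≤ ‖f‖ * measureT.real Set.univ := by
        apply norm_integral_le_of_norm_le_const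
        filter_upwards [ae_mem_Icc] with x hx
        rw [norm_mul]
        calc ‖dbl hR f x‖ * ‖(T ℝ n).eval x‖ ≤ ‖f‖ * 1 := by
              gcongr
              · exact abs_dbl_le hR f x
              · exact abs_eval_T_le hx n
          _ = ‖f‖ := mul_one _
      rw [measureT_real_univ] at this
      rw [inv_mul_le_iff₀ Real.pi_pos]
      linarith [mul_comm ‖f‖ Real.pi])

lemma coefCLM_apply (n : ℕ) (f : C(Set.Icc (-R) R, ℝ)) :
    coefCLM hR n f = Real.pi⁻¹ * ∫ x, dbl hR f x * (T ℝ n).eval x ∂measureT := rfl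

lemma norm_coefCLM_le (n : ℕ) : ‖coefCLM hR n‖ ≤ 1 :=
  LinearMap.mkContinuous_norm_le _ zero_le_one _

/-- the polynomial `p` as a continuous function on `[-R, R]`. -/
noncomputable def polyOn (p : ℝ[X]) : C(Set.Icc (-R) R, ℝ) := p.toContinuousMapOn _

lemma polyOn_apply (p : ℝ[X]) (x : Set.Icc (-R) R) : polyOn p x = p.eval (x : ℝ) := rfl

lemma coefCLM_C (n m : ℕ) :
    coefCLM hR n (polyOn (Polynomial.Chebyshev.C ℝ m)) =
      if n = m then (if n = 0 then 2 else 1) else 0 := by
  rw [coefCLM_apply]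
  have h1 : ∫ x, dbl hR (polyOn (Polynomial.Chebyshev.C ℝ m)) x * (T ℝ n).eval x ∂measureT =
      2 * ∫ x, (T ℝ m).eval x * (T ℝ n).eval x ∂measureT := by
    rw [← integral_const_mul]
    apply integral_congr_ae
    filter_upwards [ae_mem_Icc] with x hx
    rw [dbl_eq hR hx, polyOn_apply]
    have := congrArg (Polynomial.eval x) (C_comp_two_mul_X ℝ (m : ℤ))
    simp only [eval_comp, eval_mul, eval_ofNat, eval_X] at this
    rw [this]
    ring
  rw [h1]
  split_ifs with h h0
  · subst h; subst h0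
    have := integral_eval_T_real_mul_self_measureT_zero
    simp only [Nat.cast_zero] at *
    rw [this]
    field_simp
  · subst h
    rw [integral_T_real_mul_self_measureT_of_ne_zero h0]
    field_simp
  · rw [integral_eval_T_real_mul_eval_T_real_measureT_of_ne (Ne.symm h)]
    simp

/-- the Chebyshev coefficients of shrinking bumps tend to `0`. -/
lemma tendsto_coefCLM_bump (n : ℕ) (x₀ : Set.Icc (-R) R) :
    Tendsto (fun k => coefCLM hR n (bump x₀ k)) atTop (𝓝 0) := by
  simp only [coefCLM_apply]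
  rw [← mul_zero (Real.pi⁻¹)]
  refine Tendsto.const_mul _ ?_
  have h0 : ∫ x, (0 : ℝ) ∂measureT = 0 := by simp
  rw [← h0]
  refine tendsto_integral_of_dominated_convergence (fun _ => 1) (fun k => ?_)
    (integrable_const _) (fun k => ?_) ?_
  · exact ((continuous_dbl hR _).mul (T ℝ n).continuous).aestronglyMeasurable
  · filter_upwards [ae_mem_Icc] with x hx
    rw [norm_mul]
    calc ‖dbl hR (bump x₀ k) x‖ * ‖(T ℝ n).eval x‖ ≤ 1 * 1 := by
          gcongr
          · exact (abs_dbl_le hR _ x).trans (norm_bump_le _ _)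
          · exact abs_eval_T_le hx n
      _ = 1 := mul_one _
  · have hne : ∀ᵐ x ∂measureT, x ≠ (x₀ : ℝ) / 2 := by
      rw [ae_iff]
      simpa using measureT_singleton ((x₀ : ℝ) / 2)
    filter_upwards [ae_mem_Icc, hne] with x hx hx2
    rw [← zero_mul ((T ℝ n).eval x)]
    refine Tendsto.mul_const _ ?_
    classical
    have := tendsto_bump x₀ (⟨2 * x, by constructor <;> linarith [hx.1, hx.2]⟩ : Set.Icc (-R) R)
    rw [if_neg] at this
    · exact this.congr fun k => (dbl_eq hR hx _).symm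
    · intro h
      apply hx2
      rw [← h]
      simp

/-- The polynomials, as a subalgebra of `C([-R,R])`. -/
lemma chebyshev_induction {P : ℝ[X] → Prop} (h0 : ∀ m : ℕ, P (Polynomial.Chebyshev.C ℝ m))
    (hadd : ∀ p q, P p → P q → P (p + q)) (hsmul : ∀ (r : ℝ) p, P p → P (r • p)) (p : ℝ[X]) :
    P p := by
  have hspan : ∀ p : ℝ[X], p ∈ Submodule.span ℝ
      (Set.range fun m : ℕ => Polynomial.Chebyshev.C ℝ (m : ℤ)) := by
    set M := Submodule.span ℝ (Set.range fun m : ℕ => Polynomial.Chebyshev.C ℝ (m : ℤ)) with hM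
    have hX : ∀ p ∈ M, (X : ℝ[X]) * p ∈ M := by
      intro p hp
      induction hp using Submodule.span_induction with
      | mem x hx =>
        obtain ⟨m, rfl⟩ := hx
        rcases Nat.eq_zero_or_pos m with rfl | hm
        · have : (X : ℝ[X]) * Polynomial.Chebyshev.C ℝ ((0 : ℕ) : ℤ) =
              (2 : ℝ) • Polynomial.Chebyshev.C ℝ ((1 : ℕ) : ℤ) := by
            rw [Nat.cast_zero, Nat.cast_one, C_zero, C_one, Polynomial.smul_eq_C_mul, mul_comm]
            congr 1
          beta_reduce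
          rw [this]
          exact M.smul_mem _ (Submodule.subset_span ⟨1, rfl⟩)
        · have : (X : ℝ[X]) * Polynomial.Chebyshev.C ℝ (m : ℤ) =
              Polynomial.Chebyshev.C ℝ ((m + 1 : ℕ) : ℤ) +
                Polynomial.Chebyshev.C ℝ ((m - 1 : ℕ) : ℤ) := by
            push_cast [Nat.cast_sub hm]
            rw [C_add_one]
            ring
          beta_reduce
          rw [this]
          exact M.add_mem (Submodule.subset_span ⟨_, rfl⟩) (Submodule.subset_span ⟨_, rfl⟩)
      | zero => simp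
      | add x y _ _ hx hy => rw [mul_add]; exact M.add_mem hx hy
      | smul r x _ hx => rw [mul_smul_comm]; exact M.smul_mem _ hx
    have h1 : (1 : ℝ[X]) ∈ M := by
      have : (1 : ℝ[X]) = (1 / 2 : ℝ) • Polynomial.Chebyshev.C ℝ ((0 : ℕ) : ℤ) := by
        rw [Nat.cast_zero, C_zero, Polynomial.smul_eq_C_mul,
          show (2 : ℝ[X]) = Polynomial.C 2 from rfl, ← Polynomial.C_mul]
        norm_num
      rw [this]
      exact M.smul_mem _ (Submodule.subset_span ⟨0, rfl⟩)
    intro p
    induction p using Polynomial.induction_on' with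
    | add p q hp hq => exact M.add_mem hp hq
    | monomial n a =>
      have hn : ∀ n, (X : ℝ[X]) ^ n ∈ M := by
        intro n
        induction n with
        | zero => simpa using h1
        | succ n ih => rw [pow_succ']; exact hX _ ih
      rw [← Polynomial.C_mul_X_pow_eq_monomial, ← Polynomial.smul_eq_C_mul]
      exact M.smul_mem _ (hn n)
  have hp := hspan p
  induction hp using Submodule.span_induction with
  | mem x hx => obtain ⟨m, rfl⟩ := hx; exact h0 m
  | zero => simpa using hsmul 0 _ (h0 0)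
  | add x y _ _ hx hy => exact hadd _ _ hx hy
  | smul r x _ hx => exact hsmul _ _ hx

include hR in
open Classical in
/-- **Atoms are determined by moments.** If `∑ c_j C_m(w_j) = a + b (-1)^m + e_m` for all `m`,
`∑ |c_j| < ∞`, `∑ |e_m| < ∞`, `w_j ∈ [-R, R]`, then the sum of the `c_j` with `w_j = w₀` is `0`
for `w₀ ≠ ±2`. -/
theorem moment_atoms {J : Type*} {c : J → ℂ} (hc : Summable fun j => ‖c j‖) {w : J → ℝ}
    (hw : ∀ j, |w j| ≤ R) {a b : ℂ} {e : ℕ → ℂ} (he : Summable fun n => ‖e n‖)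
    (h : ∀ m : ℕ, ∑' j, c j * (((Polynomial.Chebyshev.C ℝ m).eval (w j) : ℝ) : ℂ) =
      a + b * (-1) ^ m + e m) {w₀ : ℝ} (h2 : w₀ ≠ 2) (h2' : w₀ ≠ -2) :
    ∑' j, (if w j = w₀ then c j else 0) = 0 := by
  by_cases hw0 : |w₀| ≤ R
  swap
  · have : ∀ j, (if w j = w₀ then c j else 0) = 0 := by
      intro j
      rw [if_neg]
      rintro rfl
      exact hw0 (hw j)
    simp [this]
  set x : J → Set.Icc (-R) R := fun j => ⟨w j, abs_le.mp (hw j)⟩ with hx
  set x₀ : Set.Icc (-R) R := ⟨w₀, abs_le.mp hw0⟩ with hx0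
  set p2 : Set.Icc (-R) R := ⟨2, by constructor <;> linarith⟩ with hp2
  set m2 : Set.Icc (-R) R := ⟨-2, by constructor <;> linarith⟩ with hm2
  set e' : ℕ → ℂ := fun n => (if n = 0 then 1 / 2 else 1) * e n with he'
  have hes : Summable fun n => ‖e' n‖ := by
    refine Summable.of_nonneg_of_le (fun n => norm_nonneg _) (fun n => ?_) he
    simp only [he', norm_mul]
    split_ifs with h
    · rw [norm_div, norm_one, Complex.norm_ofNat]
      linarith [norm_nonneg (e n)]
    · simp
  set Φ : C(Set.Icc (-R) R, ℝ) →L[ℝ] ℂ :=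
    (a / 2) • (Complex.ofRealCLM.comp (evPt p2)) + (b / 2) • (Complex.ofRealCLM.comp (evPt m2)) +
      sumCLM e' hes (fun n => coefCLM hR n) (fun n => norm_coefCLM_le hR n) with hΦ
  have hΦa : ∀ f, Φ f = (a / 2) * ((f p2 : ℝ) : ℂ) + (b / 2) * ((f m2 : ℝ) : ℂ) +
      ∑' n, e' n * ((coefCLM hR n f : ℝ) : ℂ) := fun f => rfl
  have hC : ∀ m : ℕ, evalSum c hc x (polyOn (Polynomial.Chebyshev.C ℝ m)) =
      Φ (polyOn (Polynomial.Chebyshev.C ℝ m)) := by
    intro m
    rw [evalSum_apply, hΦa, polyOn_apply, polyOn_apply]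
    simp only [coefCLM_C]
    have h1 : ∑' n, e' n * (((if n = m then (if n = 0 then 2 else 1) else 0 : ℝ) : ℝ) : ℂ) =
        e m := by
      rw [tsum_eq_single m]
      · simp only [he']
        split_ifs
        · push_cast; ring
        · simp
      · intro n hn
        rw [if_neg hn]
        simp
    rw [h1]
    have h3 : ∑' j, c j * ((polyOn (Polynomial.Chebyshev.C ℝ m) (x j) : ℝ) : ℂ) =
      a + b * (-1) ^ m + e m := h m
    rw [h3]
    have e2 : (Polynomial.Chebyshev.C ℝ (m : ℤ)).eval ((p2 : Set.Icc (-R) R) : ℝ) = 2 :=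
      C_eval_two _ _
    have e3 : (Polynomial.Chebyshev.C ℝ (m : ℤ)).eval ((m2 : Set.Icc (-R) R) : ℝ) =
        2 * (-1) ^ m := by
      have := C_eval_neg_two ℝ (m : ℤ)
      rw [show ((m2 : Set.Icc (-R) R) : ℝ) = -2 from rfl, this]
      simp
    rw [e2, e3]
    push_cast
    ring
  have hall : evalSum c hc x = Φ := by
    refine eq_of_eqOn_subalgebra (polynomialFunctions (Set.Icc (-R) R))
      (polynomialFunctions_separatesPoints _) ?_
    rintro f ⟨p, -, rfl⟩
    change evalSum c hc x (polyOn p) = Φ (polyOn p)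
    induction p using chebyshev_induction with
    | h0 m => exact hC m
    | hadd p q hp hq =>
      have : (polyOn (p + q) : C(Set.Icc (-R) R, ℝ)) = polyOn p + polyOn q := by
        ext t; simp [polyOn_apply]
      rw [this, map_add, map_add, hp, hq]
    | hsmul r p hp =>
      have : (polyOn (r • p) : C(Set.Icc (-R) R, ℝ)) = r • polyOn p := by
        ext t; simp [polyOn_apply]
      rw [this, map_smul, map_smul, hp]
  have hlim := tendsto_evalSum_bump c hc x x₀
  rw [hall] at hlim
  have hΦlim : Tendsto (fun n => Φ (bump x₀ n)) atTop (𝓝 0) := by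
    simp only [hΦa]
    have t1 : Tendsto (fun n => bump x₀ n p2) atTop (𝓝 0) := by
      have := tendsto_bump x₀ p2
      rwa [if_neg] at this
      intro h; apply h2; rw [hp2, hx0] at h; exact (congrArg Subtype.val h).symm
    have t2 : Tendsto (fun n => bump x₀ n m2) atTop (𝓝 0) := by
      have := tendsto_bump x₀ m2
      rwa [if_neg] at this
      intro h; apply h2'; rw [hm2, hx0] at h; exact (congrArg Subtype.val h).symm
    have t3 := tendsto_sumCLM e' hes (fun n => coefCLM hR n) (fun n => norm_coefCLM_le hR n)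
      (bump x₀) (norm_bump_le x₀) (fun _ => 0) (fun n => tendsto_coefCLM_bump hR n x₀)
    have t1' := ((Complex.continuous_ofReal.tendsto _).comp t1).const_mul (a / 2)
    have t2' := ((Complex.continuous_ofReal.tendsto _).comp t2).const_mul (b / 2)
    have := (t1'.add t2').add t3
    simpa [sumCLM_apply] using this
  have hfin := tendsto_nhds_unique hlim hΦlim
  refine Eq.trans (tsum_congr fun j => ?_) hfin
  have : (x j = x₀) ↔ w j = w₀ := by
    rw [hx, hx0]
    exact Subtype.mk_eq_mk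
  simp only [this]

end Chebyshev

/-! ### the multi-variable isolation statement -/

section Multi

variable {S : Type*} (R' : S → ℝ)

/-- the box `∏ [-R'_v, R'_v]`. -/
abbrev Box : Type _ := ∀ v : S, Set.Icc (-(R' v)) (R' v)

/-- a polynomial as a continuous function on the box. -/
noncomputable def mvOn (P : MvPolynomial S ℝ) : C(Box R', ℝ) :=
  ⟨fun t => MvPolynomial.eval (fun v => ((t v : ℝ))) P, by
    induction P using MvPolynomial.induction_on with
    | C a => simpa using continuous_const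
    | add p q hp hq =>
      simp only [map_add]
      exact hp.add hq
    | mul_X p v hp =>
      simp only [map_mul, MvPolynomial.eval_X]
      exact hp.mul (continuous_subtype_val.comp (continuous_apply v))⟩

lemma mvOn_apply (P : MvPolynomial S ℝ) (t : Box R') :
    mvOn R' P t = MvPolynomial.eval (fun v => ((t v : ℝ))) P := rfl

/-- `mvOn` as an algebra homomorphism. -/
noncomputable def mvOnHom : MvPolynomial S ℝ →ₐ[ℝ] C(Box R', ℝ) where
  toFun := mvOn R'
  map_one' := by ext t; simp [mvOn_apply]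
  map_mul' p q := by ext t; simp [mvOn_apply]
  map_zero' := by ext t; simp [mvOn_apply]
  map_add' p q := by ext t; simp [mvOn_apply]
  commutes' r := by ext t; simp [mvOn_apply, MvPolynomial.algebraMap_eq]

lemma mvOnHom_separates : (mvOnHom R').range.SeparatesPoints := by
  intro s t hst
  obtain ⟨v, hv⟩ := Function.ne_iff.mp hst
  refine ⟨mvOn R' (MvPolynomial.X v), ⟨_, ⟨MvPolynomial.X v, rfl⟩, rfl⟩, ?_⟩
  intro h
  apply hv
  simp only [mvOn_apply, MvPolynomial.eval_X] at h
  exact Subtype.ext h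

variable {R'}

/-- a point of the box. -/
def boxPt (y : S → ℝ) (hy : ∀ v, |y v| ≤ R' v) : Box R' := fun v => ⟨y v, abs_le.mp (hy v)⟩

lemma abs_eval_le (P : MvPolynomial S ℝ) (y : S → ℝ) (hy : ∀ v, |y v| ≤ R' v) :
    |MvPolynomial.eval y P| ≤ ‖mvOn R' P‖ := (mvOn R' P).norm_coe_le_norm (boxPt y hy)

lemma summable_eval_mv {J : Type*} {c : J → ℂ} (hc : Summable fun j => ‖c j‖) {y : J → S → ℝ}
    (hy : ∀ j v, |y j v| ≤ R' v) (P : MvPolynomial S ℝ) :
    Summable fun j => ‖c j * ((MvPolynomial.eval (y j) P : ℝ) : ℂ)‖ := by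
  refine Summable.of_nonneg_of_le (fun j => norm_nonneg _) (fun j => ?_)
    (hc.mul_right ‖mvOn R' P‖)
  rw [norm_mul, Complex.norm_real]
  exact mul_le_mul_of_nonneg_left (abs_eval_le P (y j) (hy j)) (norm_nonneg _)

open Classical in
/-- **Isolation in several variables**: if `∑ c_j P(y_j) = 0` for all polynomials `P`, then the
sum of `c_j` over each fibre of `y` vanishes. -/
theorem isolation_poly {J : Type*} {c : J → ℂ} (hc : Summable fun j => ‖c j‖) {y : J → S → ℝ}
    (hy : ∀ j v, |y j v| ≤ R' v)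
    (H : ∀ P : MvPolynomial S ℝ, ∑' j, c j * ((MvPolynomial.eval (y j) P : ℝ) : ℂ) = 0)
    (y₀ : S → ℝ) : ∑' j, (if y j = y₀ then c j else 0) = 0 := by
  by_cases hy0 : ∀ v, |y₀ v| ≤ R' v
  swap
  · push Not at hy0
    obtain ⟨v, hv⟩ := hy0
    have : ∀ j, (if y j = y₀ then c j else 0) = 0 := by
      intro j
      rw [if_neg]
      rintro rfl
      exact absurd (hy j v) (not_le.mpr hv)
    simp [this]
  have hcount : (Function.support c).Countable := (hc.of_norm).countable_support
  set J0 : Set J := {j | c j ≠ 0 ∧ y j ≠ y₀} with hJ0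
  have hJ0c : J0.Countable := hcount.mono fun j hj => hj.1
  have hsep : ∀ j : J0, ∃ v, y j v ≠ y₀ v := fun j => Function.ne_iff.mp j.2.2
  choose v hv using hsep
  have : Countable J0 := hJ0c.to_subtype
  set S0 : Set S := Set.range v with hS0
  have hS0c : Countable S0 := (Set.countable_range v).to_subtype
  set Q : S0 → ℝ := fun s => R' s with hQ
  let _ : MetricSpace (Box Q) := TopologicalSpace.metrizableSpaceMetric (Box Q)
  set x : J → Box Q := fun j => boxPt (fun s : S0 => y j s) (fun s => hy j s) with hx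
  set x₀ : Box Q := boxPt (fun s : S0 => y₀ s) (fun s => hy0 s) with hx0
  have key := fiber_sum_eq_zero hc x (mvOnHom Q).range (mvOnHom_separates Q) (by
    rintro f ⟨P, rfl⟩
    have h1 := H (MvPolynomial.rename Subtype.val P)
    simp only [MvPolynomial.eval_rename] at h1
    exact h1) x₀
  refine Eq.trans (tsum_congr fun j => ?_) key
  by_cases hcj : c j = 0
  · simp [hcj]
  · have : (x j = x₀) ↔ y j = y₀ := by
      constructor
      · intro h
        by_contra hne
        have hj : j ∈ J0 := ⟨hcj, hne⟩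
        apply hv ⟨j, hj⟩
        have := congrFun h ⟨v ⟨j, hj⟩, ⟨_, rfl⟩⟩
        exact congrArg Subtype.val this
      · intro h
        funext s
        exact Subtype.ext (congrFun h s)
    simp only [this]

open Classical in
/-- **Isolation** (moments in one variable, polynomials in the others).  -/
theorem isolation {R : ℝ} (hR : 2 ≤ R) {J : Type*} {c : J → ℂ} (hc : Summable fun j => ‖c j‖)
    {w : J → ℝ} (hw : ∀ j, |w j| ≤ R) {y : J → S → ℝ} (hy : ∀ j v, |y j v| ≤ R' v)
    (H : ∀ P : MvPolynomial S ℝ, ∃ (a b : ℂ) (e : ℕ → ℂ), Summable (fun n => ‖e n‖) ∧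
      ∀ m : ℕ, ∑' j, (c j * ((MvPolynomial.eval (y j) P : ℝ) : ℂ)) *
        (((Polynomial.Chebyshev.C ℝ m).eval (w j) : ℝ) : ℂ) = a + b * (-1) ^ m + e m)
    {w₀ : ℝ} (h2 : w₀ ≠ 2) (h2' : w₀ ≠ -2) (y₀ : S → ℝ) :
    ∑' j, (if w j = w₀ ∧ y j = y₀ then c j else 0) = 0 := by
  set c2 : J → ℂ := fun j => if w j = w₀ then c j else 0 with hc2
  have hc2s : Summable fun j => ‖c2 j‖ := by
    refine Summable.of_nonneg_of_le (fun j => norm_nonneg _) (fun j => ?_) hc
    simp only [hc2]
    split_ifs <;> simp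
  have h1 : ∀ P : MvPolynomial S ℝ,
      ∑' j, c2 j * ((MvPolynomial.eval (y j) P : ℝ) : ℂ) = 0 := by
    intro P
    obtain ⟨a, b, e, he, h⟩ := H P
    have := moment_atoms hR (summable_eval_mv hc hy P) hw he h h2 h2'
    refine Eq.trans (tsum_congr fun j => ?_) this
    simp only [hc2]
    split_ifs <;> simp
  have := isolation_poly hc2s hy h1 y₀
  refine Eq.trans (tsum_congr fun j => ?_) this
  simp only [hc2]
  by_cases ha : w j = w₀ <;> by_cases hb : y j = y₀ <;> simp [ha, hb]

open Classical in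
/-- **Isolation**, with the hypothesis only for monomials, and only for large `m`. -/
theorem isolation_monomial {R : ℝ} (hR : 2 ≤ R) {J : Type*} {c : J → ℂ}
    (hc : Summable fun j => ‖c j‖)
    {w : J → ℝ} (hw : ∀ j, |w j| ≤ R) {y : J → S → ℝ} (hy : ∀ j v, |y j v| ≤ R' v)
    (H : ∀ k : S →₀ ℕ, ∃ (a b : ℂ) (e : ℕ → ℂ) (M : ℕ), Summable (fun n => ‖e n‖) ∧
      ∀ m : ℕ, M ≤ m → ∑' j, (c j * ((k.prod fun v i => y j v ^ i : ℝ) : ℂ)) *
        (((Polynomial.Chebyshev.C ℝ m).eval (w j) : ℝ) : ℂ) = a + b * (-1) ^ m + e m)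
    {w₀ : ℝ} (h2 : w₀ ≠ 2) (h2' : w₀ ≠ -2) (y₀ : S → ℝ) :
    ∑' j, (if w j = w₀ ∧ y j = y₀ then c j else 0) = 0 := by
  have hCb : ∀ m : ℕ, ∃ B : ℝ, ∀ j, |(Polynomial.Chebyshev.C ℝ m).eval (w j)| ≤ B := by
    intro m
    refine ⟨‖(polyOn (Polynomial.Chebyshev.C ℝ m) : C(Set.Icc (-R) R, ℝ))‖, fun j => ?_⟩
    exact (polyOn (Polynomial.Chebyshev.C ℝ m) : C(Set.Icc (-R) R, ℝ)).norm_coe_le_norm
      ⟨w j, abs_le.mp (hw j)⟩
  have hsum : ∀ (P : MvPolynomial S ℝ) (m : ℕ),
      Summable fun j => (c j * ((MvPolynomial.eval (y j) P : ℝ) : ℂ)) *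
        (((Polynomial.Chebyshev.C ℝ m).eval (w j) : ℝ) : ℂ) := by
    intro P m
    obtain ⟨B, hB⟩ := hCb m
    refine Summable.of_norm (Summable.of_nonneg_of_le (fun j => norm_nonneg _) (fun j => ?_)
      ((summable_eval_mv hc hy P).mul_right B))
    rw [norm_mul, Complex.norm_real]
    exact mul_le_mul_of_nonneg_left (hB j) (norm_nonneg _)
  refine isolation hR hc hw hy (fun P => ?_) h2 h2' y₀
  induction P using MvPolynomial.induction_on' with
  | monomial k r =>
    obtain ⟨a, b, e, M, he, h⟩ := H k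
    set F : ℕ → ℂ := fun m => ∑' j, (c j * ((k.prod fun v i => y j v ^ i : ℝ) : ℂ)) *
        (((Polynomial.Chebyshev.C ℝ m).eval (w j) : ℝ) : ℂ) with hF
    refine ⟨r * a, r * b, fun m => r * (F m - a - b * (-1) ^ m), ?_, fun m => ?_⟩
    · have h1 : Summable fun m => ‖F m - a - b * (-1) ^ m‖ := by
        rw [← summable_nat_add_iff M]
        refine ((summable_nat_add_iff M).mpr he).congr fun m => ?_
        rw [show F (m + M) = a + b * (-1) ^ (m + M) + e (m + M) from h _ (by omega)]
        congr 1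
        ring
      refine (h1.mul_left ‖(r : ℂ)‖).congr fun m => ?_
      rw [norm_mul]
    · have h1 : ∑' j, (c j * ((MvPolynomial.eval (y j) (MvPolynomial.monomial k r) : ℝ) : ℂ)) *
        (((Polynomial.Chebyshev.C ℝ m).eval (w j) : ℝ) : ℂ) = r * F m := by
        rw [hF, ← tsum_mul_left]
        refine tsum_congr fun j => ?_
        rw [MvPolynomial.eval_monomial]
        push_cast
        ring
      rw [h1]
      ring
  | add P Q hP hQ =>
    obtain ⟨a, b, e, he, h⟩ := hP
    obtain ⟨a', b', e', he', h'⟩ := hQ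
    refine ⟨a + a', b + b', fun m => e m + e' m, ?_, fun m => ?_⟩
    · exact Summable.of_nonneg_of_le (fun n => norm_nonneg _) (fun n => norm_add_le _ _)
        (he.add he')
    · have : ∑' j, (c j * ((MvPolynomial.eval (y j) (P + Q) : ℝ) : ℂ)) *
        (((Polynomial.Chebyshev.C ℝ m).eval (w j) : ℝ) : ℂ) =
        ∑' j, (c j * ((MvPolynomial.eval (y j) P : ℝ) : ℂ)) *
        (((Polynomial.Chebyshev.C ℝ m).eval (w j) : ℝ) : ℂ) +
        ∑' j, (c j * ((MvPolynomial.eval (y j) Q : ℝ) : ℂ)) *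
        (((Polynomial.Chebyshev.C ℝ m).eval (w j) : ℝ) : ℂ) := by
        rw [← (hsum P m).tsum_add (hsum Q m)]
        refine tsum_congr fun j => ?_
        rw [map_add]
        push_cast
        ring
      rw [this, h m, h' m]
      ring

end Multi

end Fermat.Agent.LT.G
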