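import Fermat.Agent.LT.B.SpecTw
import Fermat.Agent.LT.G.TwEig
import Fermat.Agent.LT.G.InsT
import Fermat.Agent.LT.CArch.Param

/-!
# LT/G: auxiliary results for the spectral side

* `trSub_rank_one`, `exists_of_trSub_ne` : traces on invariant subspaces;
* `hat_re_im`, `isEig_congr_hat` : it suffices to know the archimedean eigenvalues for real test
  functions;
* `opX_comm`, `opT_isFix` : the projectors.
(helper23)
-/

set_option autoImplicit false
set_option linter.unusedSectionVars false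

open NumberField IsDedekindDomain Matrix MeasureTheory Set
open Fermat.LT Fermat.Agent.LT.B Fermat.Agent.LT.CArch
open scoped ComplexConjugate

namespace Fermat.Agent.LT.G

/-! ### Traces -/

section trace

variable {E : Type*} [AddCommGroup E] [Module ℂ E] {V : Submodule ℂ E} {L : E →ₗ[ℂ] E}

theorem trSub_rank_one [FiniteDimensional ℂ V] {v : E} (hv : v ∈ V) (h0 : v ≠ 0)
    (hL : ∀ u ∈ V, ∃ c : ℂ, L u = c • v) {ε : ℂ} (he : L v = ε • v) : trSub V L = ε := by
  have h : ∀ u ∈ V, L u ∈ V := fun u hu => by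
    obtain ⟨c, hc⟩ := hL u hu
    rw [hc]
    exact V.smul_mem c hv
  rw [trSub_of_mem h]
  have h0' : (⟨v, hv⟩ : V) ≠ 0 := fun h' => h0 (congrArg Subtype.val h')
  obtain ⟨f, hf⟩ : ∃ f : Module.Dual ℂ V, f ⟨v, hv⟩ ≠ 0 := by
    by_contra hc
    push Not at hc
    exact h0' ((Module.forall_dual_apply_eq_zero_iff ℂ _).mp hc)
  have e : L.restrict h = (((f ⟨v, hv⟩)⁻¹ • f) ∘ₗ L.restrict h).smulRight ⟨v, hv⟩ := by
    refine LinearMap.ext fun u => ?_
    obtain ⟨c, hc⟩ := hL u.1 u.2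
    have h1 : L.restrict h u = c • (⟨v, hv⟩ : V) := Subtype.ext hc
    rw [LinearMap.smulRight_apply, LinearMap.comp_apply, h1, map_smul, LinearMap.smul_apply,
      smul_eq_mul, smul_eq_mul, inv_mul_cancel₀ hf, mul_one]
  rw [e, LinearMap.trace_smulRight]
  have h2 : L.restrict h ⟨v, hv⟩ = ε • (⟨v, hv⟩ : V) := Subtype.ext he
  rw [LinearMap.comp_apply, h2, map_smul, LinearMap.smul_apply, smul_eq_mul, smul_eq_mul,
    inv_mul_cancel₀ hf, mul_one]

theorem exists_of_trSub_ne (h : trSub V L ≠ 0) :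
    (∀ v ∈ V, L v ∈ V) ∧ ∃ v ∈ V, L v ≠ 0 := by
  have h1 : ∀ v ∈ V, L v ∈ V := by
    by_contra hc
    exact h (trSub_of_not_mem hc)
  refine ⟨h1, ?_⟩
  by_contra hc
  push Not at hc
  apply h
  rw [trSub_of_mem h1]
  have e : L.restrict h1 = 0 := LinearMap.ext fun u => Subtype.ext (hc u.1 u.2)
  rw [e, map_zero]

end trace

/-! ### Real test functions -/

theorem isTest_clm {g g' : ℝ → ℂ} (hg : IsTest g) (A : ℂ →L[ℝ] ℂ) (hA : ∀ u, g' u = A (g u)) :
    IsTest g' := by
  have e : g' = fun u => A (g u) := funext hA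
  subst e
  refine ⟨⟨?_, ?_⟩, ?_⟩
  · exact A.contDiff.comp hg.smooth
  · intro u
    exact congrArg A (hg.even u)
  · exact hg.compact.comp_left (map_zero A)

theorem isTest_re {g : ℝ → ℂ} (hg : IsTest g) : IsTest fun u => ((g u).re : ℂ) :=
  isTest_clm hg (Complex.ofRealCLM ∘L Complex.reCLM) fun _ => rfl

theorem isTest_im {g : ℝ → ℂ} (hg : IsTest g) : IsTest fun u => ((g u).im : ℂ) :=
  isTest_clm hg (Complex.ofRealCLM ∘L Complex.imCLM) fun _ => rfl

theorem hat_re_im {g : ℝ → ℂ} (hg : IsTest g) (s : ℂ) :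
    hat g s = hat (fun u => ((g u).re : ℂ)) s + Complex.I * hat (fun u => ((g u).im : ℂ)) s := by
  have h1 : IsTest fun u => Complex.I * ((g u).im : ℂ) := (isTest_im hg).const_mul Complex.I
  rw [← hat_const_mul, ← hat_add (isTest_re hg) h1]
  congr 1
  funext u
  rw [mul_comm, Complex.re_add_im]

/-- The spectral transform is determined by its values on real test functions. -/
theorem hat_ext {s s' : ℂ} (h : ∀ g, IsTest g → (∀ t, (g t).im = 0) → hat g s = hat g s')
    {g : ℝ → ℂ} (hg : IsTest g) : hat g s = hat g s' := by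
  rw [hat_re_im hg, hat_re_im hg s', h _ (isTest_re hg) fun _ => Complex.ofReal_im _,
    h _ (isTest_im hg) fun _ => Complex.ofReal_im _]

theorem isRealTest_iff {g : ℝ → ℂ} : IsRealTest g ↔ IsTest g ∧ ∀ t, (g t).im = 0 := by
  unfold IsRealTest
  simp only [Complex.conj_eq_iff_im]

section eig

variable {F : Type} [Field F] [NumberField F] {D : Datum F}

/-- Only the values matter. -/
theorem isEig_congr {P : Set (Pl F)} {lam lam' : Pl F → ℂ} {s s' : D.I → ℂ} {φ : X D → ℂ}
    (h : IsEig P lam s φ) (hl : ∀ w ∈ P, lam w = lam' w)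
    (hs : ∀ i g, IsTest g → (∀ t, (g t).im = 0) → hat g (s i) = hat g (s' i)) :
    IsEig P lam' s' φ where
  hecke w hw x := by rw [h.hecke w hw, hl w hw]
  arch i g hg x := by rw [h.arch i g hg, hat_ext (hs i) hg]

theorem isEig_unique {P : Set (Pl F)} {lam lam' : Pl F → ℂ} {s s' : D.I → ℂ} {φ : X D → ℂ}
    (h : IsEig P lam s φ) (h' : IsEig P lam' s' φ) (h0 : φ ≠ 0) :
    (∀ w ∈ P, lam w = lam' w) ∧ ∀ i g, IsTest g → hat g (s i) = hat g (s' i) := by
  obtain ⟨x, hx⟩ := Function.ne_iff.mp h0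
  have hx' : φ x ≠ 0 := hx
  refine ⟨fun w hw => ?_, fun i g hg => ?_⟩
  · have h1 := (h.hecke w hw x).symm.trans (h'.hecke w hw x)
    have h2 := mul_right_cancel₀ hx' h1
    refine mul_left_cancel₀ ?_ h2
    exact_mod_cast (Fermat.Agent.LT.CTree.sq_pos w).ne'
  · exact mul_right_cancel₀ hx' ((h.arch i g hg x).symm.trans (h'.arch i g hg x))

theorem isAut_of_isCusp {φ : X D → ℂ} (h : IsCusp φ) : IsAut φ := ⟨h.cont, h.inv⟩

/-- commutation of local operators at different places -/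
theorem opX_comm {w w' : Pl F} (h : w ≠ w') {t t' : G2 F → ℂ} (ht : BiInv (D.H w) t)
    (hs : FinS (D.H w) t) (ht' : BiInv (D.H w') t') (hs' : FinS (D.H w') t') (φ : X D → ℂ) :
    opX w t (opX w' t' φ) = opX w' t' (opX w t φ) := by
  funext x
  rw [opX_eq_sum ht hs, opX_eq_sum ht' hs']
  have e1 : ∀ z : Yl D.toLevel w, opX w' t' φ (x.1, upd x.2 w z) =
      ∑ z' ∈ (rowFin_kw ht' hs' (x.2 w')).toFinset,
        kw (D.H w') t' (x.2 w') z' * φ (x.1, upd (upd x.2 w z) w' z') := by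
    intro z
    have h1 : ∀ y : Y D.toLevel, y w' = x.2 w' → opX w' t' φ (x.1, y) =
        ∑ z' ∈ (rowFin_kw ht' hs' (x.2 w')).toFinset,
          kw (D.H w') t' (x.2 w') z' * φ (x.1, upd y w' z') := by
      intro y hy
      rw [opX_eq_sum ht' hs']
      change ∑ z' ∈ (rowFin_kw ht' hs' (y w')).toFinset, kw (D.H w') t' (y w') z' * _ = _
      rw [hy]
    exact h1 _ (upd_ne _ h.symm z)
  have e2 : ∀ z' : Yl D.toLevel w', opX w t φ (x.1, upd x.2 w' z') =
      ∑ z ∈ (rowFin_kw ht hs (x.2 w)).toFinset,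
        kw (D.H w) t (x.2 w) z * φ (x.1, upd (upd x.2 w' z') w z) := by
    intro z'
    have h1 : ∀ y : Y D.toLevel, y w = x.2 w → opX w t φ (x.1, y) =
        ∑ z ∈ (rowFin_kw ht hs (x.2 w)).toFinset,
          kw (D.H w) t (x.2 w) z * φ (x.1, upd y w z) := by
      intro y hy
      rw [opX_eq_sum ht hs]
      change ∑ z ∈ (rowFin_kw ht hs (y w)).toFinset, kw (D.H w) t (y w) z * _ = _
      rw [hy]
    exact h1 _ (upd_ne _ h z')
  simp only [e1, e2, Finset.mul_sum]
  rw [Finset.sum_comm]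
  refine Finset.sum_congr rfl fun z' _ => Finset.sum_congr rfl fun z _ => ?_
  rw [upd_comm _ h.symm]
  ring

variable {t : Pl F → G2 F → ℂ}

theorem opX_opT_comm (ht : ∀ w, BiInv (D.H w) (t w)) (hs : ∀ w, FinS (D.H w) (t w))
    {l : List (Pl F)} {w : Pl F} (hw : w ∉ l) {t' : G2 F → ℂ} (ht' : BiInv (D.H w) t')
    (hs' : FinS (D.H w) t') (φ : X D → ℂ) :
    opX w t' (opT t l φ) = opT t l (opX w t' φ) := by
  induction l with
  | nil => rfl
  | cons v l ih =>
    have h1 : w ≠ v := fun h => hw (h ▸ List.mem_cons_self)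
    rw [opT_cons, opT_cons, opX_comm h1 ht' hs' (ht v) (hs v),
      ih fun h => hw (List.mem_cons_of_mem _ h)]

/-- The image of a product of projectors is fixed. -/
theorem opX_opT_of_mem (ht : ∀ w, BiInv (D.H w) (t w)) (hs : ∀ w, FinS (D.H w) (t w))
    {l : List (Pl F)} (hl : l.Nodup) {w : Pl F} (hw : w ∈ l)
    (hi : convF (D.H w) (t w) (t w) = t w) (φ : X D → ℂ) :
    opX w (t w) (opT t l φ) = opT t l φ := by
  induction l with
  | nil => exact absurd hw List.not_mem_nil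
  | cons v l ih =>
    rw [List.nodup_cons] at hl
    rw [opT_cons]
    rcases List.mem_cons.mp hw with rfl | h'
    · rw [← opX_convF (ht w) (hs w) (ht w) (hs w), hi]
    · have h1 : w ≠ v := fun h => hl.1 (h ▸ h')
      rw [opX_comm h1 (ht w) (hs w) (ht v) (hs v), ih hl.2 h']

/-- archimedean operators commute with local operators -/
theorem RX_opX {w : Pl F} {t : G2 F → ℂ} (ht : BiInv (D.H w) t) (hs : FinS (D.H w) t) (i : D.I)
    {g : ℝ → ℂ} (hg : IsTest g) {φ : X D → ℂ} (hφ : Continuous φ) :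
    RX i g (opX w t φ) = opX w t (RX i g φ) := by
  funext x
  rw [opX_eq_sum ht hs]
  unfold RX kopH
  have e : ∀ R, opX w t φ (updI x i R) = ∑ z ∈ (rowFin_kw ht hs (x.2 w)).toFinset,
      kw (D.H w) t (x.2 w) z * φ (updI (x.1, upd x.2 w z) i R) := by
    intro R
    rw [opX_eq_sum ht hs]
    rfl
  simp only [e, Finset.mul_sum]
  rw [integral_finsetSum]
  · refine Finset.sum_congr rfl fun z _ => ?_
    rw [← integral_const_mul]
    refine integral_congr_ae (Filter.Eventually.of_forall fun R => ?_)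
    change _ * (_ * _) = _ * (_ * _)
    ring
  · intro z _
    have h1 := (integrable_kopH hg (φ := fun R => φ (updI (x.1, upd x.2 w z) i R))
      (hφ.comp (Fermat.Agent.LT.B.continuous_updI _ i)) (x.1 i)).const_mul
        (kw (D.H w) t (x.2 w) z)
    refine h1.congr (Filter.Eventually.of_forall fun R => ?_)
    change _ * (_ * _) = _ * (_ * _)
    ring

theorem isEig_opX {P : Set (Pl F)} {lam : Pl F → ℂ} {s : D.I → ℂ} {φ : X D → ℂ}
    (h : IsEig P lam s φ) (hφ : Continuous φ) {w : Pl F} (hw : w ∉ P) {t : G2 F → ℂ}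
    (ht : BiInv (D.H w) t) (hs : FinS (D.H w) t) : IsEig P lam s (opX w t φ) where
  hecke v hv x := by
    have hne : v ≠ w := fun e => hw (e ▸ hv)
    rw [← opX_T1, opX_comm hne (biInv_T1_of_le (D.le_std v)) (finS_T1_lvl _ v) ht hs, opX_T1]
    have e : TX v φ = fun x => ((Fermat.Agent.LT.CTree.sq v : ℂ) * lam v) * φ x :=
      funext fun x => h.hecke v hv x
    rw [e, opX_smul]
  arch i g hg x := by
    rw [RX_opX ht hs i hg hφ]
    have e : RX i g φ = fun x => hat g (s i) * φ x := funext fun x => h.arch i g hg x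
    rw [e, opX_smul]

theorem isEig_opT {P : Set (Pl F)} {lam : Pl F → ℂ} {s : D.I → ℂ} {φ : X D → ℂ}
    (h : IsEig P lam s φ) (hφ : Continuous φ) (ht : ∀ w, BiInv (D.H w) (t w))
    (hs : ∀ w, FinS (D.H w) (t w)) {l : List (Pl F)} (hl : ∀ w ∈ l, w ∉ P) :
    Continuous (opT t l φ) ∧ IsEig P lam s (opT t l φ) := by
  induction l with
  | nil => exact ⟨hφ, h⟩
  | cons w l ih =>
    obtain ⟨h1, h2⟩ := ih fun v hv => hl v (List.mem_cons_of_mem _ hv)
    exact ⟨continuous_opX (ht w) (hs w) h1,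
      isEig_opX h2 h1 (hl w List.mem_cons_self) (ht w) (hs w)⟩

end eig

end Fermat.Agent.LT.G
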