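import Fermat.Agent.LT.G.SpecAux
import Fermat.Agent.LT.G.FamilyRam

/-!
# LT/G: the spectral side on `L`

* `SpecI D P` : what is used of the spectral decomposition;
* `exists_comp_eq` : `φ ∘ σ = ε • φ`;
* `trSub_ne_zero` : the twisted trace at `π_L` does not vanish;
* `eq_of_trSub_ne` : `π_L` is alone in its family.
(helper23)
-/

set_option autoImplicit false
set_option linter.unusedSectionVars false

open NumberField IsDedekindDomain Matrix MeasureTheory Set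
open Fermat.LT Fermat.LT.GeoDatum Fermat.Agent.LT.B Fermat.Agent.LT.CArch Fermat.Agent.LT.D
  Fermat.Agent.LT.Top
open scoped ComplexConjugate

namespace Fermat.Agent.LT.G

section spec

variable {F : Type} [Field F] [NumberField F]

/-- What is used of the spectral decomposition. -/
structure SpecI (D : Datum F) (P : Set (Pl F)) where
  /-- index type -/
  Ξ : Type
  /-- the joint eigenspaces -/
  V : Ξ → Submodule ℂ (X D → ℂ)
  /-- eigenvalues -/
  lam : Ξ → Pl F → ℂ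
  /-- archimedean parameters -/
  sp : Ξ → D.I → ℂ
  /-- eigenvalues of spherical kernels -/
  ev : Ξ → (X D → X D → ℂ) → ℂ
  finV : ∀ ξ, FiniteDimensional ℂ (V ξ)
  ne : ∀ ξ, ∃ φ ∈ V ξ, φ ≠ 0
  cusp : ∀ ξ, ∀ φ ∈ V ξ, IsCusp φ
  eig : ∀ ξ, ∀ φ ∈ V ξ, IsEig P (lam ξ) (sp ξ) φ
  mem : ∀ ξ φ, IsCusp φ → IsEig P (lam ξ) (sp ξ) φ → φ ∈ V ξ
  ex : ∀ φ, IsCusp φ → ∀ lam' s', IsEig P lam' s' φ →
    (∃ k, IsKS P k ∧ ∃ x, appK volume k φ x ≠ 0) → ∃ ξ, φ ∈ V ξ
  uniq : ∀ ξ ξ' φ, φ ≠ 0 → φ ∈ V ξ → φ ∈ V ξ' → ξ = ξ'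
  ev_spec : ∀ ξ k, k ∈ Sph D P → ∀ φ ∈ V ξ, ∀ x, appK volume k φ x = ev ξ k * φ x
  stab : ∀ (t : Pl F → G2 F → ℂ), (∀ w, BiInv (D.H w) (t w)) → (∀ w, FinS (D.H w) (t w)) →
    ∀ l : List (Pl F), (∀ w ∈ l, w ∉ P) → ∀ ξ, ∀ φ ∈ V ξ, opT t l φ ∈ V ξ

end spec

section twisted

variable {K L : Type} [Field K] [NumberField K] [Field L] [NumberField L] [Algebra K L]
variable {C : Cub K L} {G : GeoDatum C} {M : ℕ} {lam : Pl L → ℝ} {φ : X G.DL.toDatum → ℂ}

/-- the inverse twist -/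
theorem σX_σX_σX (x : X G.DL.toDatum) : G.DL.σX (G.DL.σX (G.DL.σX x)) = x := G.DL.σX_cube x

theorem lev' (h : DescHyp G M lam φ) (w : Pl L) (hw : G.DL.n w ≠ 0) : G.DL.H w = HT w M :=
  ((h.lev w).resolve_left hw).1

/-- `lam` is `σ`-invariant, so `ψ ∘ σ²` has the same eigenvalues. -/
theorem eForm_σσ (h : DescHyp G M lam φ) {ψ : X G.DL.toDatum → ℂ}
    (hψ : EForm G.DL.toDatum lam ψ) :
    EForm G.DL.toDatum lam fun x => ψ (G.DL.σX (G.DL.σX x)) := by
  have h1 := G.DL.eForm_comp_σX (lev' h) (G.DL.eForm_comp_σX (lev' h) hψ)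
  refine ⟨h1.cusp, ⟨fun w hw x => ?_, h1.eig.arch⟩, h1.ne⟩
  have h2 := h1.eig.hecke w hw x
  have e : lam (pl C (pl C w)) = lam w := by
    rw [h.lam_pl _ ((G.DL.n_pl_iff (lev' h) w).mpr hw), h.lam_pl w hw]
  rw [e] at h2
  exact h2

theorem sType_σσ (h : DescHyp G M lam φ) {ψ : X G.DL.toDatum → ℂ}
    (hψ : SType G.DL.toDatum M ψ) :
    SType G.DL.toDatum M fun x => ψ (G.DL.σX (G.DL.σX x)) :=
  G.DL.sType_comp_σX (lev' h) (G.DL.sType_comp_σX (lev' h) hψ)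

/-- `φ ∘ σ² = ε φ` with `ε ≠ 0`. -/
theorem exists_comp_eq (h : DescHyp G M lam φ) :
    ∃ ε : ℂ, ε ≠ 0 ∧ (fun x => φ (G.DL.σX (G.DL.σX x))) = ε • φ := by
  obtain ⟨ε, hε⟩ := h.uniq lam _ (eForm_σσ h h.form) (sType_σσ h h.styp) fun _ _ _ => rfl
  refine ⟨ε, ?_, hε⟩
  rintro rfl
  apply (eForm_σσ h h.form).ne
  rw [hε, zero_smul]

/-- The twisted operator `e ∘ U_σ`. -/
noncomputable def Lop (G : GeoDatum C) {t : Pl L → G2 L → ℂ}
    (ht : ∀ w, BiInv (G.DL.H w) (t w)) (hs : ∀ w, FinS (G.DL.H w) (t w)) (l : List (Pl L)) :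
    (X G.DL.toDatum → ℂ) →ₗ[ℂ] (X G.DL.toDatum → ℂ) where
  toFun ψ := opT t l fun x => ψ (G.DL.σX (G.DL.σX x))
  map_add' _ _ := opT_add ht hs l _ _
  map_smul' c _ := opT_smul t l c _

variable {t : Pl L → G2 L → ℂ} {ht : ∀ w, BiInv (G.DL.H w) (t w)}
  {hs : ∀ w, FinS (G.DL.H w) (t w)} {l : List (Pl L)}

theorem Lop_apply (ψ : X G.DL.toDatum → ℂ) :
    Lop G ht hs l ψ = opT t l fun x => ψ (G.DL.σX (G.DL.σX x)) := rfl

/-- the list of bad places with the shell projectors -/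
structure BadL (h : DescHyp G M lam φ) (t : Pl L → G2 L → ℂ) (l : List (Pl L)) : Prop where
  nodup : l.Nodup
  mem : ∀ w, w ∈ l ↔ G.DL.n w ≠ 0
  eq : ∀ w ∈ l, t w = ew w M

variable {h : DescHyp G M lam φ}

theorem BadL.sType (hb : BadL h t l) (ht : ∀ w, BiInv (G.DL.H w) (t w))
    (hs : ∀ w, FinS (G.DL.H w) (t w)) (ψ : X G.DL.toDatum → ℂ) :
    SType G.DL.toDatum M (opT t l ψ) := by
  intro w hw
  have hwl := (hb.mem w).mpr hw
  have h1 := opX_opT_of_mem (D := G.DL.toDatum) ht hs hb.nodup hwl (by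
    rw [hb.eq w hwl, lev' h w hw]
    exact convF_ew w M) ψ
  rwa [hb.eq w hwl] at h1

theorem BadL.fix (hb : BadL h t l) {ψ : X G.DL.toDatum → ℂ} (hψ : SType G.DL.toDatum M ψ) :
    opT t l ψ = ψ :=
  opT_fix fun w hw => by rw [hb.eq w hw]; exact hψ w ((hb.mem w).mp hw)

variable (S : SpecI G.DL.toDatum (goodPl G.DL.toDatum))

theorem stab_opT (hb : BadL h t l) (ht : ∀ w, BiInv (G.DL.H w) (t w))
    (hs : ∀ w, FinS (G.DL.H w) (t w)) {ξ : S.Ξ} {ψ : X G.DL.toDatum → ℂ} (hψ : ψ ∈ S.V ξ) :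
    opT t l ψ ∈ S.V ξ :=
  S.stab t ht hs l (fun w hw h' => (hb.mem w).mp hw h') ξ ψ hψ

/-- **The twisted trace at `π_L` does not vanish.** -/
theorem trSub_ne_zero (hb : BadL h t l) (ht : ∀ w, BiInv (G.DL.H w) (t w))
    (hs : ∀ w, FinS (G.DL.H w) (t w)) {ξ₀ : S.Ξ} (hφ : φ ∈ S.V ξ₀) :
    trSub (S.V ξ₀) (Lop G ht hs l) ≠ 0 := by
  have := S.finV ξ₀
  obtain ⟨ε, hε0, hε⟩ := exists_comp_eq h
  have hu := isEig_unique h.form.eig (S.eig ξ₀ φ hφ) h.form.ne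
  have key : trSub (S.V ξ₀) (Lop G ht hs l) = ε := by
    refine trSub_rank_one hφ h.form.ne (fun u hu' => ?_) ?_
    · -- `Lop u` is a multiple of `φ`
      by_cases h0 : Lop G ht hs l u = 0
      · exact ⟨0, by rw [h0, zero_smul]⟩
      have hu0 : u ≠ 0 := by
        rintro rfl
        exact h0 (map_zero _)
      have hEu : EForm G.DL.toDatum lam u :=
        ⟨S.cusp ξ₀ u hu', isEig_congr (S.eig ξ₀ u hu') (fun w hw => (hu.1 w hw).symm)
          (fun i g hg _ => (hu.2 i g hg).symm), hu0⟩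
      have h1 := eForm_σσ h hEu
      have h2 : (fun x => u (G.DL.σX (G.DL.σX x))) ∈ S.V ξ₀ :=
        S.mem ξ₀ _ h1.cusp (isEig_congr h1.eig (fun w hw => hu.1 w hw)
          (fun i g hg _ => hu.2 i g hg))
      have h3 : Lop G ht hs l u ∈ S.V ξ₀ := stab_opT S hb ht hs h2
      refine h.uniq lam _ ⟨S.cusp ξ₀ _ h3, ?_, h0⟩ (hb.sType ht hs _) fun _ _ _ => rfl
      exact isEig_congr (S.eig ξ₀ _ h3) (fun w hw => (hu.1 w hw).symm)
        (fun i g hg _ => (hu.2 i g hg).symm)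
    · rw [Lop_apply, hb.fix (sType_σσ h h.styp), hε]
  rw [key]
  exact hε0

theorem split_up {w : Pl L} (hw : pl C w ≠ w) : Split C (G.down w) (G.up (G.down w)) := by
  have h1 : pl C (G.up (G.down w)) ≠ G.up (G.down w) := by
    intro h'
    apply hw
    rcases G.up_down w with e | e | e
    · rw [e, h']
    · rw [e, h', h']
    · rw [e, h', h', h']
  rcases G.typ (G.down w) with h2 | h2 | h2
  · exact h2
  · exact absurd h2.fix h1
  · exact absurd h2.fix h1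

/-- **`π_L` is alone in its family.** -/
theorem eq_of_trSub_ne (hb : BadL h t l) (ht : ∀ w, BiInv (G.DL.H w) (t w))
    (hs : ∀ w, FinS (G.DL.H w) (t w)) {ξ₀ ξ : S.Ξ} (hφ : φ ∈ S.V ξ₀)
    (htr : trSub (S.V ξ) (Lop G ht hs l) ≠ 0)
    (hlam : ∀ v, Split C v (G.up v) → G.DL.n (G.up v) = 0 → S.lam ξ (G.up v) = lam (G.up v))
    (hsp : ∀ g, IsTest g → (∀ t, (g t).im = 0) → hat g (S.sp ξ G.ι) = hat g 0) : ξ = ξ₀ := by
  obtain ⟨h1, v, hv, hv0⟩ := exists_of_trSub_ne htr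
  have hu := h1 v hv
  set u := Lop G ht hs l v with hudef
  have hlev := lev' h
  -- the eigenvalues of `u`
  have e1 : IsEig (goodPl G.DL.toDatum) (fun w => S.lam ξ (pl C (pl C w)))
      (fun i => S.sp ξ (G.DL.perm.symm (G.DL.perm.symm i)))
      (fun x => v (G.DL.σX (G.DL.σX x))) := by
    have hg : ∀ w ∈ goodPl G.DL.toDatum, pl C w ∈ goodPl G.DL.toDatum := fun w hw =>
      (G.DL.n_pl_iff hlev w).mpr hw
    have e0 : IsEig (goodPl G.DL.toDatum) (fun w => S.lam ξ (pl C w))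
        (fun i => S.sp ξ (G.DL.perm.symm i)) (fun x => v (G.DL.σX x)) :=
      G.DL.isEig_comp_σX (S.eig ξ v hv) hg (fun _ _ => rfl) (fun _ => rfl)
    exact G.DL.isEig_comp_σX (φ := fun x => v (G.DL.σX x)) e0 hg (fun _ _ => rfl) (fun _ => rfl)
  have hcont : Continuous fun x => v (G.DL.σX (G.DL.σX x)) :=
    (S.cusp ξ v hv).cont.comp (G.DL.continuous_σX.comp G.DL.continuous_σX)
  have e2 : IsEig (goodPl G.DL.toDatum) (fun w => S.lam ξ (pl C (pl C w)))
      (fun i => S.sp ξ (G.DL.perm.symm (G.DL.perm.symm i))) u :=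
    (isEig_opT e1 hcont ht hs fun w hw h' => (hb.mem w).mp hw h').2
  obtain ⟨e3, e4⟩ := isEig_unique (S.eig ξ u hu) e2 hv0
  -- invariance of the eigenvalues
  have inv1 : ∀ w, G.DL.n w = 0 → S.lam ξ (pl C w) = S.lam ξ w := by
    intro w hw
    have h2 : G.DL.n (pl C w) = 0 := (G.DL.n_pl_iff hlev w).mpr hw
    have h3 := e3 (pl C w) h2
    rw [h3]
    congr 1
    exact pl_cube_eq w
  have inv2 : ∀ g, IsTest g → ∀ i, hat g (S.sp ξ (G.DL.perm i)) = hat g (S.sp ξ i) := by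
    intro g hg i
    have h2 := e4 (G.DL.perm (G.DL.perm i)) g hg
    rw [Equiv.symm_apply_apply, Equiv.symm_apply_apply] at h2
    have h3 := e4 (G.DL.perm i) g hg
    rw [Equiv.symm_apply_apply] at h3
    have h4 : G.DL.perm.symm i = G.DL.perm (G.DL.perm i) := by
      rw [Equiv.symm_apply_eq]
      exact (G.DL.perm_cube i).symm
    rw [h3, h4, h2]
  -- `u` is a form in the family of `φ`
  have hEu : EForm G.DL.toDatum (fun w => (S.lam ξ w).re) u := by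
    refine ⟨S.cusp ξ u hu, isEig_congr (S.eig ξ u hu) (fun w hw => ?_) (fun i g hg hr => ?_), hv0⟩
    · have h2 := (S.eig ξ u hu).lam_real (isAut_of_isCusp (S.cusp ξ u hu))
        (S.cusp ξ u hu).bounded hv0 hw hw
      exact (Complex.conj_eq_iff_re.mp h2).symm
    · have h2 := hsp g hg hr
      rcases G.cover i with rfl | rfl | rfl
      · exact h2
      · rw [inv2 g hg]; exact h2
      · rw [inv2 g hg, inv2 g hg]; exact h2
  obtain ⟨c, hc⟩ := h.uniq _ u hEu (hb.sType ht hs _) fun w hw hn => by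
    have hn' : G.DL.n (G.up (G.down w)) = 0 := by
      rcases G.up_down w with e | e | e
      · rwa [← e]
      · rw [e] at hn; exact (G.DL.n_pl_iff hlev _).mp hn
      · rw [e] at hn
        exact (G.DL.n_pl_iff hlev _).mp ((G.DL.n_pl_iff hlev _).mp hn)
    have h2 := hlam (G.down w) (split_up hw) hn'
    have h3 : G.DL.n (pl C (G.up (G.down w))) = 0 := (G.DL.n_pl_iff hlev _).mpr hn'
    have h4 : S.lam ξ w = S.lam ξ (G.up (G.down w)) ∧ lam w = lam (G.up (G.down w)) := by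
      rcases G.up_down w with e | e | e
      · rw [← e]; exact ⟨rfl, rfl⟩
      · constructor
        · conv_lhs => rw [e]
          exact inv1 _ hn'
        · conv_lhs => rw [e]
          exact h.lam_pl _ hn'
      · constructor
        · conv_lhs => rw [e]
          rw [inv1 _ h3, inv1 _ hn']
        · conv_lhs => rw [e]
          rw [h.lam_pl _ h3, h.lam_pl _ hn']
    rw [h4.1, h2, h4.2, Complex.ofReal_re]
  have hc0 : c ≠ 0 := by
    rintro rfl
    rw [zero_smul] at hc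
    exact hv0 hc
  have h5 : φ ∈ S.V ξ := by
    have h6 : φ = c⁻¹ • u := by rw [hc, smul_smul, inv_mul_cancel₀ hc0, one_smul]
    rw [h6]
    exact (S.V ξ).smul_mem _ hu
  exact S.uniq ξ ξ₀ φ h.form.ne h5 hφ

end twisted

end Fermat.Agent.LT.G
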