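import Fermat.Agent.LT.CTree.SphPoly
import Fermat.Agent.LT.G.PSum
import Fermat.Agent.LT.B.SphOps

/-!
# LT/G: pure tensors and the spherical kernels of piece B

* `CTree.exists_sf_eq` : every function of the distance with finite support is `sf w P`;
* `k1p w t` : the kernel of the local function `t` at `w`; `isFinTest_k1p`, `opF_k1p`
  (`opF (k1p w t) = opX w t`), `ka_k1p_TY` (commutation with the Hecke operators at other places);
* `kL l` : the same for a list of local factors `l : List (LFac U)`;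
* `Pure.insFL l k` : insertion of a list of local factors in a pure tensor;
  `Pure.ker_insFL : (k.insFL l).ker x z = opF (kL l) (fun y => k.ker y z) x`;
* `Pure.eq_insFL` : a pure tensor with components `l` is an insertion of `l`;
* `Pure.mem_Sph`, `PS.mem_Sph` : pure tensors with spherical components are in `Sph D P`.
-/

set_option autoImplicit false
set_option linter.unusedSectionVars false

open NumberField IsDedekindDomain Matrix MeasureTheory

/-! ### All functions of the distance are polynomials in `T₁/√q` -/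

namespace Fermat.Agent.LT.CTree

open Fermat.LT

variable {F : Type} [Field F] [NumberField F]

/-- `sf w` as a linear map -/
noncomputable def sfL (w : Pl F) : Polynomial ℂ →ₗ[ℂ] (ℕ → ℂ) where
  toFun P := sf w P
  map_add' P Q := sf_add w P Q
  map_smul' c P := by
    unfold sf
    rw [map_smul, LinearMap.smul_apply]
    rfl

theorem sfL_apply (w : Pl F) (P : Polynomial ℂ) : sfL w P = sf w P := rfl

theorem delta0_mem_range (w : Pl F) : δ₀ ∈ LinearMap.range (sfL w) := ⟨1, sf_one w⟩

theorem step_mem_range (w : Pl F) {a : ℕ → ℂ} (ha : a ∈ LinearMap.range (sfL w)) :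
    step (qn w) a ∈ LinearMap.range (sfL w) := by
  obtain ⟨P, rfl⟩ := ha
  have hs : (sq w : ℂ) ≠ 0 := by exact_mod_cast (sq_pos w).ne'
  have h := Submodule.smul_mem (LinearMap.range (sfL w)) (sq w : ℂ)
    (LinearMap.mem_range_self (sfL w) (P * Polynomial.X))
  rw [sfL_apply, sf_mul_X, smul_smul, mul_inv_cancel₀ hs, one_smul] at h
  exact h

theorem deltaN_mem_range (w : Pl F) (m : ℕ) : δn m ∈ LinearMap.range (sfL w) := by
  induction m using Nat.strong_induction_on with
  | _ m ih =>
    match m with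
    | 0 => exact delta0_mem_range w
    | 1 =>
      have h := step_mem_range w (delta0_mem_range w)
      have e : step (qn w) δ₀ = δn 1 := by
        funext n
        match n with
        | 0 => simp [step, δ₀, δn]
        | 1 => simp [step, δ₀, δn]
        | n + 2 => simp [step, δ₀, δn]
      rwa [e] at h
    | m + 2 =>
      have h1 := step_mem_range w (ih (m + 1) (by omega))
      by_cases hm : m = 0
      · subst hm
        have e : δn 2 = step (qn w) (δn 1) + (-((qn w : ℂ) + 1)) • δn 0 := by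
          funext n
          rcases n with _ | _ | _ | n
          · simp [step, δn]
          · simp [step, δn]
          · simp [step, δn]
          · simp [step, δn]
        rw [e]
        exact add_mem h1 (Submodule.smul_mem _ _ (ih 0 (by omega)))
      · obtain ⟨m', rfl⟩ : ∃ m', m = m' + 1 := ⟨m - 1, by omega⟩
        have e : δn (m' + 1 + 2) = step (qn w) (δn (m' + 1 + 1)) +
            (-(qn w : ℂ)) • δn (m' + 1) := by
          funext n
          rcases n with _ | n
          · simp only [δn, step, Pi.add_apply, Pi.smul_apply, smul_eq_mul]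
            rw [if_neg (by omega), if_neg (by omega), if_neg (by omega)]
            ring
          · simp only [δn, step, Pi.add_apply, Pi.smul_apply, smul_eq_mul]
            by_cases h2 : n = m' + 1 + 1
            · rw [if_pos (by omega), if_pos h2, if_neg (by omega), if_neg (by omega)]; ring
            · by_cases h3 : n + 2 = m' + 1 + 1
              · rw [if_neg (by omega), if_neg h2, if_pos h3, if_pos (by omega)]; ring
              · rw [if_neg (by omega), if_neg h2, if_neg h3, if_neg (by omega)]; ring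
        rw [e]
        exact add_mem h1 (Submodule.smul_mem _ _ (ih (m' + 1) (by omega)))

/-- Every function of the distance with finite support is a polynomial in `T₁/√q`. -/
theorem exists_sf_eq (w : Pl F) {a : ℕ → ℂ} (ha : a.support.Finite) :
    ∃ P : Polynomial ℂ, sf w P = a := by
  have e : a = ∑ n ∈ ha.toFinset, a n • δn n := by
    funext m
    rw [Finset.sum_apply]
    by_cases hm : m ∈ ha.toFinset
    · rw [Finset.sum_eq_single m]
      · simp [δn]
      · intro n _ hn
        simp [δn, hn.symm]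
      · exact fun h => absurd hm h
    · have h0 : a m = 0 := by
        by_contra hc
        exact hm (ha.mem_toFinset.mpr hc)
      rw [h0]
      symm
      refine Finset.sum_eq_zero fun n hn => ?_
      have hne : m ≠ n := by
        rintro rfl
        exact hm hn
      simp [δn, hne]
  have h : a ∈ LinearMap.range (sfL w) := by
    rw [e]
    exact Submodule.sum_mem _ fun n _ => Submodule.smul_mem _ _ (deltaN_mem_range w n)
  obtain ⟨P, hP⟩ := h
  exact ⟨P, hP⟩

end Fermat.Agent.LT.CTree

namespace Fermat.LT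

open Fermat.Agent.LT.B
open Fermat.Agent.LT.CArch (IsTest kfun)

section one

variable {F : Type} [Field F] [NumberField F] {U : Level F} {w w' : Pl F} {t s : G2 F → ℂ}

/-! ### The kernel of a function at one place -/

open Classical in
/-- The kernel on `Y U` of the local function `t` at the place `w`. -/
noncomputable def k1p (w : Pl F) (t : G2 F → ℂ) (y z : Y U) : ℂ :=
  if ∀ v, v ≠ w → y v = z v then kw (U.H w) t (y w) (z w) else 0

theorem k1p_eq_hkK (ht : BiInv (U.H w) t) (ht' : FinS (U.H w) t) :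
    k1p (U := U) w t = (hkK U w ht ht').ker := by
  funext y z
  rw [LKer.ker_of_unit (fun v hv => hkK_ne U w ht ht' hv), hkK_self]
  rfl

theorem isFinTest_k1p (ht : BiInv (U.H w) t) (ht' : FinS (U.H w) t) :
    IsFinTest (k1p (U := U) w t) := by
  rw [k1p_eq_hkK ht ht']
  exact hkK_isFinTest U w ht ht'

theorem RF_k1p (ht : BiInv (U.H w) t) (ht' : FinS (U.H w) t) : RF (k1p (U := U) w t) :=
  (isFinTest_k1p ht ht').fin

theorem ka_k1p (ht : BiInv (U.H w) t) (ht' : FinS (U.H w) t) (φ : Y U → ℂ) (y : Y U) :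
    ka (k1p w t) φ y = ∑ᶠ z, kw (U.H w) t (y w) z * φ (upd y w z) := by
  have h := LKer.finsum_ker_of_unit' (fun v hv => hkK_ne U w ht ht' hv) φ y
  rw [hkK_self] at h
  rw [k1p_eq_hkK ht ht']
  exact h

theorem ka_k1p_sum (ht : BiInv (U.H w) t) (ht' : FinS (U.H w) t) (φ : Y U → ℂ) (y : Y U) :
    ka (k1p w t) φ y = ∑ z ∈ (rowFin_kw ht ht' (y w)).toFinset,
      kw (U.H w) t (y w) z * φ (upd y w z) := by
  rw [ka_k1p ht ht']
  refine finsum_eq_sum_of_support_subset _ fun z hz => ?_
  rw [Finset.mem_coe, Set.Finite.mem_toFinset]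
  exact left_ne_zero_of_mul hz

/-- operators at different places commute -/
theorem ka_k1p_comm (h : w' ≠ w) (ht : BiInv (U.H w) t) (ht' : FinS (U.H w) t)
    (hs : BiInv (U.H w') s) (hs' : FinS (U.H w') s) (φ : Y U → ℂ) :
    ka (k1p w t) (ka (k1p w' s) φ) = ka (k1p w' s) (ka (k1p w t) φ) := by
  funext y
  rw [ka_k1p_sum ht ht', ka_k1p_sum hs hs']
  have e1 : ∀ z, ka (k1p w' s) φ (upd y w z) = ∑ z' ∈ (rowFin_kw hs hs' (y w')).toFinset,
      kw (U.H w') s (y w') z' * φ (upd (upd y w z) w' z') := by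
    intro z
    rw [ka_k1p_sum hs hs', upd_ne y h]
  have e2 : ∀ z', ka (k1p w t) φ (upd y w' z') = ∑ z ∈ (rowFin_kw ht ht' (y w)).toFinset,
      kw (U.H w) t (y w) z * φ (upd (upd y w' z') w z) := by
    intro z'
    rw [ka_k1p_sum ht ht', upd_ne y h.symm]
  simp_rw [e1, e2, Finset.mul_sum]
  rw [Finset.sum_comm]
  refine Finset.sum_congr rfl fun z' _ => Finset.sum_congr rfl fun z _ => ?_
  rw [upd_comm y h]
  ring

theorem k1p_T1 : k1p (U := U) w (T1 w) = tk w := by
  classical
  funext y z
  unfold k1p tk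
  rw [T1_eq_sphF, kw_sphF]
  unfold Fermat.Agent.LT.CTree.δ₁
  by_cases h : ∀ v, v ≠ w → y v = z v
  · by_cases h2 : Fermat.Agent.LT.CTree.dY w (y w) (z w) = 1
    · rw [if_pos h, if_pos h2, if_pos ⟨h, h2⟩]
    · rw [if_pos h, if_neg h2, if_neg fun h' => h2 h'.2]
  · rw [if_neg h, if_neg fun h' => h h'.1]

/-- commutation with the Hecke operators at the other places -/
theorem ka_k1p_TY (h : w' ≠ w) (hw' : U.n w' = 0) (ht : BiInv (U.H w) t)
    (ht' : FinS (U.H w) t) (φ : Y U → ℂ) :
    ka (k1p w t) (TY w' φ) = TY w' (ka (k1p w t) φ) := by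
  rw [← ka_tk hw', ← ka_tk hw', ← k1p_T1,
    ka_k1p_comm h ht ht' (biInv_T1_of_le (U.le_std w')) (finS_T1_lvl U w')]

theorem k1p_unitF : k1p (U := U) w (unitF (U.H w)) = fun y z => Fermat.Agent.LT.B.dl z y := by
  classical
  funext y z
  unfold k1p Fermat.Agent.LT.B.dl
  rw [← unitK_eq_kw]
  unfold unitK
  by_cases h : y = z
  · subst h
    rw [if_pos fun _ _ => rfl, if_pos rfl, if_pos rfl]
  · rw [if_neg h]
    by_cases h1 : ∀ v, v ≠ w → y v = z v
    · rw [if_pos h1, if_neg]
      intro h2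
      apply h
      refine Y.ext' fun v => ?_
      by_cases hv : v = w
      · rw [hv]; exact h2
      · exact h1 v hv
    · rw [if_neg h1]

/-- multiplicativity -/
theorem kc_k1p (ht : BiInv (U.H w) t) (ht' : FinS (U.H w) t) (hs : BiInv (U.H w) s) :
    kc (k1p (U := U) w t) (k1p w s) = k1p w (convF (U.H w) t s) := by
  classical
  funext y z
  rw [kc_eq_ka, ka_k1p ht ht']
  by_cases h : ∀ v, v ≠ w → y v = z v
  · have e : ∀ x, k1p w s (upd y w x) z = kw (U.H w) s x (z w) := by
      intro x
      unfold k1p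
      rw [if_pos fun v hv => by rw [upd_ne y hv, h v hv], upd_same]
    simp only [e]
    unfold k1p
    rw [if_pos h, kw_convF ht hs]
    rfl
  · have e : ∀ x, k1p w s (upd y w x) z = 0 := by
      intro x
      unfold k1p
      rw [if_neg]
      intro h'
      apply h
      intro v hv
      rw [← h' v hv, upd_ne y hv]
    simp only [e, mul_zero, finsum_zero]
    unfold k1p
    rw [if_neg h]

/-! ### Finite spherical kernels -/

/-- The finite spherical kernels for the set `P` of places. -/
def FSph (U : Level F) (P : Set (Pl F)) : Submodule ℂ (Y U → Y U → ℂ) :=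
  Submodule.span ℂ {κ | ∃ l : List (Pl F), (∀ w ∈ l, w ∈ P) ∧ κ = wk l}

variable {P : Set (Pl F)}

theorem wk_mem_FSph {l : List (Pl F)} (hl : ∀ w ∈ l, w ∈ P) : wk l ∈ FSph U P :=
  Submodule.subset_span ⟨l, hl, rfl⟩

theorem RF_add {κ κ' : Y U → Y U → ℂ} (h : RF κ) (h' : RF κ') : RF (κ + κ') := by
  intro a
  refine ((h a).union (h' a)).subset fun x hx => ?_
  by_contra hc
  simp only [Set.mem_union, Set.mem_ofPred_eq, not_or, not_not] at hc
  apply hx
  change κ a x + κ' a x = 0
  rw [hc.1, hc.2, add_zero]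

theorem RF_smul {κ : Y U → Y U → ℂ} (c : ℂ) (h : RF κ) : RF (c • κ) := fun a =>
  (h a).subset fun _ hx => right_ne_zero_of_mul hx

theorem RF_of_mem_FSph (hP : ∀ w ∈ P, U.n w = 0) {κ : Y U → Y U → ℂ} (h : κ ∈ FSph U P) :
    RF κ := by
  refine Submodule.span_induction (p := fun κ _ => RF κ) ?_ ?_ ?_ ?_ h
  · rintro _ ⟨l, hl, rfl⟩
    exact RF_wk fun w hw => hP w (hl w hw)
  · intro a
    refine Set.finite_empty.subset fun x hx => ?_
    exact hx rfl
  · exact fun κ κ' _ _ h h' => RF_add h h'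
  · exact fun c κ _ h => RF_smul c h

theorem kc_add_left {κ₁ κ₂ : Y U → Y U → ℂ} (h₁ : RF κ₁) (h₂ : RF κ₂) (κ : Y U → Y U → ℂ) :
    kc (κ₁ + κ₂) κ = kc κ₁ κ + kc κ₂ κ := by
  classical
  funext a b
  change ka (κ₁ + κ₂) (fun x => κ x b) a = ka κ₁ (fun x => κ x b) a + ka κ₂ (fun x => κ x b) a
  rw [ka_eq_sum (s := (h₁ a).toFinset ∪ (h₂ a).toFinset) (κ := κ₁ + κ₂),
    ka_eq_sum (s := (h₁ a).toFinset ∪ (h₂ a).toFinset) (κ := κ₁),
    ka_eq_sum (s := (h₁ a).toFinset ∪ (h₂ a).toFinset) (κ := κ₂), ← Finset.sum_add_distrib]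
  · refine Finset.sum_congr rfl fun x _ => ?_
    exact add_mul _ _ _
  · exact fun x hx => Finset.mem_union_right _ ((Set.Finite.mem_toFinset _).2 hx)
  · exact fun x hx => Finset.mem_union_left _ ((Set.Finite.mem_toFinset _).2 hx)
  · intro x hx
    by_contra hc
    simp only [Finset.mem_union, Set.Finite.mem_toFinset, Set.mem_ofPred_eq, not_or,
      not_not] at hc
    apply hx
    change κ₁ a x + κ₂ a x = 0
    rw [hc.1, hc.2, add_zero]

theorem kc_smul_left (c : ℂ) (κ' κ : Y U → Y U → ℂ) : kc (c • κ') κ = c • kc κ' κ := by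
  funext a b
  change ∑ᶠ x, (c * κ' a x) * κ x b = c • ∑ᶠ x, κ' a x * κ x b
  rw [smul_finsum]
  exact finsum_congr fun x => by rw [smul_eq_mul, mul_assoc]

theorem kc_add_right {κ : Y U → Y U → ℂ} (h : RF κ) (κ₁ κ₂ : Y U → Y U → ℂ) :
    kc κ (κ₁ + κ₂) = kc κ κ₁ + kc κ κ₂ := by
  funext a b
  exact congrFun (h.ka_add (fun x => κ₁ x b) (fun x => κ₂ x b)) a

theorem kc_smul_right {κ : Y U → Y U → ℂ} (h : RF κ) (c : ℂ) (κ' : Y U → Y U → ℂ) :
    kc κ (c • κ') = c • kc κ κ' := by
  funext a b
  exact congrFun (h.ka_smul c (fun x => κ' x b)) a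

theorem kc_mem_FSph (hP : ∀ w ∈ P, U.n w = 0) {κ κ' : Y U → Y U → ℂ} (h : κ ∈ FSph U P)
    (h' : κ' ∈ FSph U P) : kc κ κ' ∈ FSph U P := by
  refine Submodule.span_induction (p := fun κ _ => kc κ κ' ∈ FSph U P) ?_ ?_ ?_ ?_ h
  · rintro _ ⟨l, hl, rfl⟩
    have hgl : Good U l := fun w hw => hP w (hl w hw)
    refine Submodule.span_induction (p := fun κ' _ => kc (wk l) κ' ∈ FSph U P) ?_ ?_ ?_ ?_ h'
    · rintro _ ⟨l', hl', rfl⟩
      rw [← wk_append hgl]
      refine wk_mem_FSph fun w hw => ?_
      rcases List.mem_append.1 hw with h | h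
      · exact hl w h
      · exact hl' w h
    · have e : kc (wk l) (0 : Y U → Y U → ℂ) = 0 := by
        funext a b
        change ∑ᶠ x, wk l a x * 0 = 0
        simp
      rw [e]
      exact zero_mem _
    · intro κ₁ κ₂ _ _ h₁ h₂
      rw [kc_add_right (RF_wk hgl)]
      exact add_mem h₁ h₂
    · intro c κ₁ _ h₁
      rw [kc_smul_right (RF_wk hgl)]
      exact Submodule.smul_mem _ _ h₁
  · have e : kc (0 : Y U → Y U → ℂ) κ' = 0 := by
      funext a b
      change ∑ᶠ x, 0 * κ' x b = 0
      simp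
    rw [e]
    exact zero_mem _
  · intro κ₁ κ₂ h1 h2 h₁ h₂
    rw [kc_add_left (RF_of_mem_FSph hP h1) (RF_of_mem_FSph hP h2)]
    exact add_mem h₁ h₂
  · intro c κ₁ _ h₁
    rw [kc_smul_left]
    exact Submodule.smul_mem _ _ h₁

theorem k1p_sphF_apply (a : ℕ → ℂ) (y z : Y U) [Decidable (∀ v, v ≠ w → y v = z v)] :
    k1p (U := U) w (sphF w a) y z =
      if ∀ v, v ≠ w → y v = z v then a (Fermat.Agent.LT.CTree.dY w (y w) (z w)) else 0 := by
  unfold k1p
  rw [kw_sphF]
  congr

theorem k1p_sphF_add (a b : ℕ → ℂ) : k1p (U := U) w (sphF w (a + b)) =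
    k1p w (sphF w a) + k1p w (sphF w b) := by
  classical
  funext y z
  change _ = k1p w (sphF w a) y z + k1p w (sphF w b) y z
  rw [k1p_sphF_apply, k1p_sphF_apply, k1p_sphF_apply]
  split_ifs
  · rfl
  · rw [add_zero]

theorem k1p_sphF_smul (c : ℂ) (a : ℕ → ℂ) : k1p (U := U) w (sphF w (c • a)) =
    c • k1p w (sphF w a) := by
  classical
  funext y z
  change _ = c * k1p w (sphF w a) y z
  rw [k1p_sphF_apply, k1p_sphF_apply]
  split_ifs
  · rfl
  · rw [mul_zero]

theorem k1p_sphF_step (hw : U.n w = 0) {a : ℕ → ℂ} (ha : a.support.Finite) :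
    k1p (U := U) w (sphF w (Fermat.Agent.LT.CTree.step (Fermat.Agent.LT.CTree.qn w) a)) =
      kc (tk w) (k1p w (sphF w a)) := by
  have hb : ∀ a : ℕ → ℂ, BiInv (U.H w) (sphF w a) := fun a => biInv_sphF (U.le_std w) a
  have e : ∀ {a : ℕ → ℂ} (_ : a.support.Finite) (φ : Y U → ℂ) (y : Y U),
      ka (k1p w (sphF w a)) φ y = Fermat.Agent.LT.CTree.Tl w a (fun z => φ (upd y w z)) (y w) := by
    intro a ha φ y
    rw [ka_k1p (hb a) (finS_sphF U ha)]
    unfold Fermat.Agent.LT.CTree.Tl
    exact finsum_congr fun z => by rw [kw_sphF]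
  refine ext_of_ka fun φ => ?_
  rw [ka_kc (RF_tk hw) (RF_k1p (hb a) (finS_sphF U ha)), ka_tk hw]
  funext y
  rw [e (Fermat.Agent.LT.CTree.step_support ha), ← Fermat.Agent.LT.CTree.Tl_one_Tl hw ha]
  unfold TY
  congr 1
  funext z
  rw [e ha, upd_same]
  congr 1
  funext z'
  rw [upd_upd]

/-- The kernels of the functions of the distance at the places in `P` are spherical. -/
theorem k1p_sphF_mem_FSph (hP : ∀ w ∈ P, U.n w = 0) (hw : w ∈ P) {a : ℕ → ℂ}
    (ha : a.support.Finite) : k1p w (sphF w a) ∈ FSph U P := by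
  obtain ⟨Q, rfl⟩ := Fermat.Agent.LT.CTree.exists_sf_eq w ha
  clear ha
  have h0 : wk [] ∈ FSph U P := wk_mem_FSph fun w hw => absurd hw List.not_mem_nil
  have h1 : k1p w (sphF w Fermat.Agent.LT.CTree.δ₀) ∈ FSph U P := by
    have e : sphF w Fermat.Agent.LT.CTree.δ₀ = unitF (U.H w) := by
      rw [U.H_eq (hP w hw), unitF_stdH_eq]
    rw [e, k1p_unitF]
    exact h0
  have h2 : tk (U := U) w ∈ FSph U P := by
    have e : tk (U := U) w = wk [w] := by
      refine ext_of_ka fun φ => ?_
      rw [ka_wk_cons (fun v hv => by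
        rw [List.mem_singleton] at hv
        rw [hv]
        exact hP w hw), ka_wk_nil, ka_tk (hP w hw)]
    rw [e]
    exact wk_mem_FSph fun v hv => by
      rw [List.mem_singleton] at hv
      rw [hv]
      exact hw
  induction Q using Polynomial.induction_on with
  | C a =>
    rw [Fermat.Agent.LT.CTree.sf_C, k1p_sphF_smul]
    exact Submodule.smul_mem _ _ h1
  | add Q Q' hQ hQ' =>
    rw [Fermat.Agent.LT.CTree.sf_add, k1p_sphF_add]
    exact add_mem hQ hQ'
  | monomial n a h =>
    rw [pow_succ, ← mul_assoc, Fermat.Agent.LT.CTree.sf_mul_X, k1p_sphF_smul,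
      k1p_sphF_step (hP w hw) (Fermat.Agent.LT.CTree.sf_support w _)]
    exact Submodule.smul_mem _ _ (kc_mem_FSph hP h2 h)

end one

section glob

variable {F : Type} [Field F] [NumberField F] {D : Datum F} {w w' : Pl F} {t s : G2 F → ℂ}
  {P : Set (Pl F)}

theorem opF_k1p (ht : BiInv (D.H w) t) (ht' : FinS (D.H w) t) (φ : X D → ℂ) :
    opF (k1p w t) φ = opX w t φ := by
  funext x
  exact ka_k1p ht ht' _ _

/-- the kernel of a left insertion -/
theorem Pure.kerY_insL (k : Pure D) (ht : BiInv (D.H w) t) (ht' : FinS (D.H w) t) :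
    (k.insL w ht ht').kerY = kc (k1p w t) k.kerY := by
  funext x y
  rw [kc_eq_ka, ka_k1p ht ht']
  unfold insL
  rw [kerY_setF, kw_convF ht (k.f_bi w)]
  have e : ∀ z, kw (D.H w) t (x w) z * k.kerY (upd x w z) y =
      kw (D.H w) t (x w) z * kw (D.H w) (k.f w) z (y w) * k.offY w x y := by
    intro z
    rw [k.kerY_eq_off w, upd_same, offY_upd_left, mul_assoc]
  rw [finsum_congr e]
  unfold kcomp
  rw [finsum_mul' _ _ ((rowFin_kw ht ht').mul_right (x w) _)]

theorem Pure.kerY_one {k : Pure D} (h : ∀ w, k.f w = unitF (D.H w)) :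
    k.kerY = fun y z => Fermat.Agent.LT.B.dl z y := by
  classical
  funext y z
  unfold kerY Fermat.Agent.LT.B.dl
  by_cases hyz : y = z
  · subst hyz
    rw [if_pos rfl]
    apply finprod_eq_one_of_forall_eq_one
    intro w
    rw [h w, ← unitK_eq_kw, unitK_self]
  · rw [if_neg hyz]
    obtain ⟨w, hw⟩ : ∃ w, y w ≠ z w := by
      by_contra hc
      push Not at hc
      exact hyz (Y.ext' hc)
    have h1 := k.kerY_eq_off w y z
    unfold kerY at h1
    rw [h1, h w, ← unitK_eq_kw, unitK_ne hw, zero_mul]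

open Classical in
/-- Keep only the finite components in `S`. -/
noncomputable def Pure.resF (k : Pure D) (S : Set (Pl F)) : Pure D where
  a := k.a
  f v := if v ∈ S then k.f v else unitF (D.H v)
  a_inv := k.a_inv
  a_cont := k.a_cont
  a_supp := k.a_supp
  f_bi v := by
    split_ifs
    · exact k.f_bi v
    · exact biInv_unitF _
  f_fin v := by
    split_ifs
    · exact k.f_fin v
    · exact finS_unitF
  f_one := by
    refine k.f_one.subset fun v hv => ?_
    rw [Set.mem_ofPred_eq] at hv ⊢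
    split_ifs at hv with h
    · exact hv
    · exact absurd rfl hv

theorem Pure.resF_a (k : Pure D) (S : Set (Pl F)) : (k.resF S).a = k.a := rfl

theorem Pure.resF_f (k : Pure D) {S : Set (Pl F)} (h : w ∈ S) : (k.resF S).f w = k.f w := by
  classical
  exact if_pos h

theorem Pure.resF_f_not (k : Pure D) {S : Set (Pl F)} (h : w ∉ S) :
    (k.resF S).f w = unitF (D.H w) := by
  classical
  exact if_neg h

theorem Pure.Rad.resF {k : Pure D} (h : k.Rad) (S : Set (Pl F)) : (k.resF S).Rad := h

/-- `resF` and products -/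
theorem Pure.resF_mul (k k' : Pure D) (S : Set (Pl F)) :
    (k.mul k').resF S = (k.resF S).mul (k'.resF S) := by
  refine ext' (by rfl) (?_ : _ = _)
  funext v
  by_cases h : v ∈ S
  · rw [resF_f _ h, mul_f, mul_f, resF_f _ h, resF_f _ h]
  · rw [resF_f_not _ h, mul_f, resF_f_not _ h, resF_f_not _ h, convF_unitF_left (biInv_unitF _)]

/-! ### Spherical pure tensors -/

/-- the spherical condition -/
def Pure.IsSph (P : Set (Pl F)) (k : Pure D) : Prop :=
  ∀ w, k.f w = unitF (D.H w) ∨ (w ∈ P ∧ ∃ a : ℕ → ℂ, a.support.Finite ∧ k.f w = sphF w a)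

theorem Pure.kerY_mem_FSph (hP : ∀ w ∈ P, D.n w = 0) {k : Pure D} (h : k.IsSph P) :
    k.kerY ∈ FSph D.toLevel P := by
  classical
  have key : ∀ (s : Finset (Pl F)) (k : Pure D), k.IsSph P → (∀ w ∉ s, k.f w = unitF (D.H w)) →
      k.kerY ∈ FSph D.toLevel P := by
    intro s
    induction s using Finset.induction_on with
    | empty =>
      intro k _ hk
      rw [Pure.kerY_one fun w => hk w (Finset.notMem_empty w)]
      exact wk_mem_FSph (l := []) fun w hw => absurd hw List.not_mem_nil
    | insert w s hw ih =>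
      intro k hk hs
      rcases hk w with h1 | ⟨hwP, a, ha, h1⟩
      · refine ih k hk fun v hv => ?_
        by_cases hvw : v = w
        · rw [hvw, h1]
        · exact hs v (by rw [Finset.mem_insert, not_or]; exact ⟨hvw, hv⟩)
      · set k₀ : Pure D := k.setF w (unitF (D.H w)) (biInv_unitF _) finS_unitF with hk₀
        have e : k = k₀.insL w (k.f_bi w) (k.f_fin w) := by
          refine ext' (by rfl) (?_ : _ = _)
          funext v
          by_cases hv : v = w
          · subst hv
            rw [insL_f, hk₀, setF_f, convF_unitF_right (k.f_bi v)]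
          · rw [insL_f_ne _ w _ _ hv, hk₀, setF_f_ne _ hv]
        have h2 : k₀.kerY ∈ FSph D.toLevel P := by
          refine ih k₀ (fun v => ?_) fun v hv => ?_
          · by_cases hvw : v = w
            · subst hvw
              exact Or.inl (setF_f k)
            · rw [hk₀, setF_f_ne _ hvw]
              exact hk v
          · by_cases hvw : v = w
            · subst hvw
              exact setF_f k
            · rw [hk₀, setF_f_ne _ hvw]
              exact hs v (by rw [Finset.mem_insert, not_or]; exact ⟨hvw, hv⟩)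
        rw [e, kerY_insL]
        refine kc_mem_FSph hP ?_ h2
        rw [h1]
        exact k1p_sphF_mem_FSph hP hwP ha
  exact key k.f_one.toFinset k h fun w hw => by
    by_contra hc
    exact hw (k.f_one.mem_toFinset.mpr hc)

theorem pk_mul_mem_Sph {g : D.I → ℝ → ℂ} (hg : ∀ i, IsTest (g i))
    {κ : Y D.toLevel → Y D.toLevel → ℂ} (hκ : κ ∈ FSph D.toLevel P) :
    (fun x z : X D => pk g x.1 z.1 * κ x.2 z.2) ∈ Sph D P := by
  refine Submodule.span_induction
    (p := fun κ _ => (fun x z : X D => pk g x.1 z.1 * κ x.2 z.2) ∈ Sph D P) ?_ ?_ ?_ ?_ hκ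
  · rintro _ ⟨l, hl, rfl⟩
    exact bk_mem_Sph hg hl
  · have e : (fun x z : X D => pk g x.1 z.1 * (0 : Y D.toLevel → Y D.toLevel → ℂ) x.2 z.2) =
        0 := by
      funext x z
      exact mul_zero _
    rw [e]
    exact zero_mem _
  · intro κ₁ κ₂ _ _ h₁ h₂
    have e : (fun x z : X D => pk g x.1 z.1 * (κ₁ + κ₂) x.2 z.2) =
        (fun x z : X D => pk g x.1 z.1 * κ₁ x.2 z.2) +
          fun x z : X D => pk g x.1 z.1 * κ₂ x.2 z.2 := by
      funext x z
      exact mul_add _ _ _
    rw [e]
    exact add_mem h₁ h₂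
  · intro c κ₁ _ h₁
    have e : (fun x z : X D => pk g x.1 z.1 * (c • κ₁) x.2 z.2) =
        c • fun x z : X D => pk g x.1 z.1 * κ₁ x.2 z.2 := by
      funext x z
      change pk g x.1 z.1 * (c * κ₁ x.2 z.2) = c * (pk g x.1 z.1 * κ₁ x.2 z.2)
      ring
    rw [e]
    exact Submodule.smul_mem _ _ h₁

/-- **Pure tensors with spherical components are in `Sph D P`.** -/
theorem Pure.mem_Sph (hP : ∀ w ∈ P, D.n w = 0) {k : Pure D} (hr : k.Rad) (h : k.IsSph P) :
    k.ker ∈ Sph D P := by
  choose g hg hga using hr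
  have e : k.ker = fun x z : X D => pk g x.1 z.1 * k.kerY x.2 z.2 := by
    funext x z
    change k.kerI x.1 z.1 * k.kerY x.2 z.2 = _
    congr 1
    unfold kerI pk
    exact Finset.prod_congr rfl fun i _ => by rw [hga i]; rfl
  rw [e]
  exact pk_mul_mem_Sph hg (kerY_mem_FSph hP h)

/-- **Linear combinations of pure tensors with spherical components are in `Sph D P`.** -/
theorem PS.mem_Sph (hP : ∀ w ∈ P, D.n w = 0) {Q : PS D} (hr : Q.Rad)
    (h : ∀ j, (Q.k j).IsSph P) : Q.ker ∈ Sph D P := by
  let _ := Q.fJ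
  have e : Q.ker = ∑ j, Q.c j • (Q.k j).ker := by
    funext x z
    rw [PS.ker_def, Finset.sum_apply, Finset.sum_apply]
    rfl
  rw [e]
  exact Submodule.sum_mem _ fun j _ => Submodule.smul_mem _ _ (Pure.mem_Sph hP (hr j) (h j))

/-- an insertion of a function of the distance preserves `IsSph` -/
theorem Pure.IsSph.insL_T1 (hP : ∀ w ∈ P, D.n w = 0) {k : Pure D} (h : k.IsSph P) (hw : w ∈ P)
    (ht : BiInv (D.H w) (T1 w)) (ht' : FinS (D.H w) (T1 w)) : (k.insL w ht ht').IsSph P := by
  intro v
  by_cases hv : v = w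
  · subst hv
    right
    refine ⟨hw, ?_⟩
    rw [insL_f]
    have key : ∃ Q : Polynomial ℂ, k.f v = Fermat.Agent.LT.CTree.tF D.toLevel v Q := by
      rcases h v with h1 | ⟨_, a, ha, h1⟩
      · exact ⟨1, by rw [h1, Fermat.Agent.LT.CTree.tF_one]⟩
      · obtain ⟨Q, rfl⟩ := Fermat.Agent.LT.CTree.exists_sf_eq v ha
        exact ⟨Q, by rw [h1, Fermat.Agent.LT.CTree.tF_good (hP v hw)]⟩
    obtain ⟨Q, hQ⟩ := key
    obtain ⟨Q', hQ'⟩ := Fermat.Agent.LT.CTree.exists_sf_eq v Fermat.Agent.LT.CTree.δ₁_support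
    have e : T1 v = Fermat.Agent.LT.CTree.tF D.toLevel v Q' := by
      rw [Fermat.Agent.LT.CTree.tF_good (hP v hw), hQ', T1_eq_sphF]
    rw [hQ, e]
    refine ⟨Fermat.Agent.LT.CTree.sf v (Q' * Q), Fermat.Agent.LT.CTree.sf_support v _, ?_⟩
    rw [← Fermat.Agent.LT.CTree.tF_good (hP v hw)]
    exact Fermat.Agent.LT.CTree.convF_tF D.toLevel v Q' Q
  · rw [insL_f_ne k w ht ht' hv]
    exact h v

/-- products preserve `IsSph` -/
theorem Pure.IsSph.mul (hP : ∀ w ∈ P, D.n w = 0) {k k' : Pure D} (h : k.IsSph P)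
    (h' : k'.IsSph P) : (k.mul k').IsSph P := by
  have key : ∀ {k : Pure D} (_ : k.IsSph P) {v : Pl F} (_ : v ∈ P),
      ∃ Q : Polynomial ℂ, k.f v = Fermat.Agent.LT.CTree.tF D.toLevel v Q := by
    intro k h v hv
    rcases h v with h1 | ⟨_, a, ha, h1⟩
    · exact ⟨1, by rw [h1, Fermat.Agent.LT.CTree.tF_one]⟩
    · obtain ⟨Q, rfl⟩ := Fermat.Agent.LT.CTree.exists_sf_eq v ha
      exact ⟨Q, by rw [h1, Fermat.Agent.LT.CTree.tF_good (hP v hv)]⟩
  intro v
  rw [mul_f]
  by_cases hv : v ∈ P
  · right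
    obtain ⟨Q, hQ⟩ := key h hv
    obtain ⟨Q', hQ'⟩ := key h' hv
    refine ⟨hv, Fermat.Agent.LT.CTree.sf v (Q * Q'), Fermat.Agent.LT.CTree.sf_support v _, ?_⟩
    rw [hQ, hQ', ← Fermat.Agent.LT.CTree.tF_good (hP v hv)]
    exact Fermat.Agent.LT.CTree.convF_tF D.toLevel v Q Q'
  · left
    have h1 : k.f v = unitF (D.H v) := (h v).resolve_right fun h => hv h.1
    have h2 : k'.f v = unitF (D.H v) := (h' v).resolve_right fun h => hv h.1
    rw [h1, h2, convF_unitF_left (biInv_unitF _)]

/-! ### Lists of local factors -/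

/-- local factors -/
structure LFac (U : Level F) where
  w : Pl F
  t : G2 F → ℂ
  bi : BiInv (U.H w) t
  fi : FinS (U.H w) t

/-- the kernel of a list of local factors -/
noncomputable def kL {U : Level F} : List (LFac U) → Y U → Y U → ℂ
  | [] => fun y z => Fermat.Agent.LT.B.dl z y
  | p :: l => kc (k1p p.w p.t) (kL l)

/-- the corresponding family of local kernels -/
noncomputable def kLK {U : Level F} : List (LFac U) → LKer U
  | [] => LKer.unit U
  | p :: l => (hkK U p.w p.bi p.fi).comp (kLK l)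

theorem LKer.unit_ker (U : Level F) : (LKer.unit U).ker = fun y z : Y U => Fermat.Agent.LT.B.dl z y := by
  classical
  funext y z
  unfold LKer.ker Fermat.Agent.LT.B.dl
  by_cases hyz : y = z
  · subst hyz
    rw [if_pos rfl]
    apply finprod_eq_one_of_forall_eq_one
    intro w
    exact if_pos rfl
  · rw [if_neg hyz]
    by_contra h0
    apply hyz
    refine Y.ext' fun w => ?_
    by_contra hc
    exact (LKer.unit U).κ_ne_zero h0 w (if_neg hc)

theorem kL_eq_kLK {U : Level F} (l : List (LFac U)) : kL l = (kLK l).ker := by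
  induction l with
  | nil => exact (LKer.unit_ker U).symm
  | cons p l ih =>
    funext y z
    have h := (LKer.ker_comp (hkK U p.w p.bi p.fi) (kLK l) y z).2
    change kc (k1p p.w p.t) (kL l) y z = ((hkK U p.w p.bi p.fi).comp (kLK l)).ker y z
    rw [← h, ih, k1p_eq_hkK p.bi p.fi]
    rfl

/-- The kernel of a list of local factors is a finite test kernel. -/
theorem isFinTest_kL {U : Level F} (l : List (LFac U)) : IsFinTest (kL l) := by
  rw [kL_eq_kLK]
  exact (kLK l).isFinTest

theorem RF_kL {U : Level F} (l : List (LFac U)) : RF (kL l) := (isFinTest_kL l).fin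

theorem ka_kL_nil {U : Level F} (φ : Y U → ℂ) : ka (kL []) φ = φ := ka_id φ

theorem ka_kL_cons {U : Level F} (p : LFac U) (l : List (LFac U)) (φ : Y U → ℂ) :
    ka (kL (p :: l)) φ = ka (k1p p.w p.t) (ka (kL l) φ) :=
  ka_kc (RF_k1p p.bi p.fi) (RF_kL l) φ

/-- commutation with the Hecke operators at the other places -/
theorem ka_kL_TY {U : Level F} {l : List (LFac U)} {w : Pl F} (h : ∀ p ∈ l, w ≠ p.w)
    (hw : U.n w = 0) (φ : Y U → ℂ) : ka (kL l) (TY w φ) = TY w (ka (kL l) φ) := by
  induction l with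
  | nil => rw [ka_kL_nil, ka_kL_nil]
  | cons p l ih =>
    rw [ka_kL_cons, ka_kL_cons, ih fun q hq => h q (List.mem_cons_of_mem _ hq),
      ka_k1p_TY (h p List.mem_cons_self) hw p.bi p.fi]

/-- commutation with an operator at another place -/
theorem ka_kL_k1p {U : Level F} {l : List (LFac U)} {w : Pl F} (h : ∀ p ∈ l, w ≠ p.w)
    {t : G2 F → ℂ} (ht : BiInv (U.H w) t) (ht' : FinS (U.H w) t) (φ : Y U → ℂ) :
    ka (kL l) (ka (k1p w t) φ) = ka (k1p w t) (ka (kL l) φ) := by
  induction l with
  | nil => rw [ka_kL_nil, ka_kL_nil]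
  | cons p l ih =>
    rw [ka_kL_cons, ka_kL_cons, ih fun q hq => h q (List.mem_cons_of_mem _ hq),
      ka_k1p_comm (h p List.mem_cons_self) p.bi p.fi ht ht']

theorem opF_kL_nil (φ : X D → ℂ) : opF (kL []) φ = φ := by
  funext x
  unfold opF
  rw [ka_kL_nil]

theorem opF_kL_cons (p : LFac D.toLevel) (l : List (LFac D.toLevel)) (φ : X D → ℂ) :
    opF (kL (p :: l)) φ = opX p.w p.t (opF (kL l) φ) := by
  rw [← opF_k1p p.bi p.fi, opF_opF (RF_k1p p.bi p.fi) (RF_kL l)]
  rfl

/-- the operator of a list of local factors -/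
noncomputable def opXL (l : List (LFac D.toLevel)) (φ : X D → ℂ) : X D → ℂ :=
  l.foldr (fun p φ => opX p.w p.t φ) φ

theorem opF_kL (l : List (LFac D.toLevel)) (φ : X D → ℂ) : opF (kL l) φ = opXL l φ := by
  induction l with
  | nil => exact opF_kL_nil φ
  | cons p l ih =>
    rw [opF_kL_cons, ih]
    rfl

/-- `opX w t` and `opF (kL l)` commute (`w` not in `l`) -/
theorem opF_kL_opX {l : List (LFac D.toLevel)} {w : Pl F} (h : ∀ p ∈ l, w ≠ p.w)
    {t : G2 F → ℂ} (ht : BiInv (D.H w) t) (ht' : FinS (D.H w) t) (φ : X D → ℂ) :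
    opF (kL l) (opX w t φ) = opX w t (opF (kL l) φ) := by
  rw [← opF_k1p ht ht', ← opF_k1p ht ht']
  funext x
  exact congrFun (ka_kL_k1p h ht ht' fun y => φ (x.1, y)) x.2

namespace Pure

variable (k k' : Pure D)

/-- Insertion (on the left) of a list of local factors. -/
noncomputable def insFL (l : List (LFac D.toLevel)) (k : Pure D) : Pure D :=
  l.foldr (fun p k => k.insL p.w p.bi p.fi) k

@[simp] theorem insFL_nil : insFL [] k = k := rfl

@[simp] theorem insFL_cons (p : LFac D.toLevel) (l : List (LFac D.toLevel)) :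
    insFL (p :: l) k = (insFL l k).insL p.w p.bi p.fi := rfl

theorem insFL_a (l : List (LFac D.toLevel)) : (insFL l k).a = k.a := by
  induction l with
  | nil => rfl
  | cons p l ih => rw [insFL_cons, insL_a, ih]

theorem insFL_f_ne {l : List (LFac D.toLevel)} {w : Pl F} (h : ∀ p ∈ l, w ≠ p.w) :
    (insFL l k).f w = k.f w := by
  induction l with
  | nil => rfl
  | cons p l ih =>
    rw [insFL_cons, insL_f_ne _ p.w p.bi p.fi (h p List.mem_cons_self),
      ih fun q hq => h q (List.mem_cons_of_mem _ hq)]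

theorem insFL_f_mem {l : List (LFac D.toLevel)} (hl : (l.map LFac.w).Nodup)
    {p : LFac D.toLevel} (hp : p ∈ l) :
    (insFL l k).f p.w = convF (D.H p.w) p.t (k.f p.w) := by
  induction l with
  | nil => exact absurd hp List.not_mem_nil
  | cons q l ih =>
    rw [List.map_cons, List.nodup_cons] at hl
    rcases List.mem_cons.1 hp with rfl | h
    · rw [insFL_cons, insL_f, insFL_f_ne k fun q hq hw => hl.1 (by
        rw [hw]
        exact List.mem_map_of_mem hq)]
    · have hne : p.w ≠ q.w := fun hw => hl.1 (by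
        rw [← hw]
        exact List.mem_map_of_mem h)
      rw [insFL_cons, insL_f_ne _ q.w q.bi q.fi hne, ih hl.2 h]

theorem insFL_mul (l : List (LFac D.toLevel)) :
    (insFL l k).mul k' = insFL l (k.mul k') := by
  induction l with
  | nil => rfl
  | cons p l ih => rw [insFL_cons, insFL_cons, insL_mul, ih]

theorem Rad.insFL {k : Pure D} (h : k.Rad) (l : List (LFac D.toLevel)) :
    (insFL l k).Rad := by
  intro i
  rw [insFL_a]
  exact h i

/-- **Insertions and operators.** -/
theorem ker_insFL (l : List (LFac D.toLevel)) (x z : X D) :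
    (insFL l k).ker x z = opF (kL l) (fun y => k.ker y z) x := by
  induction l generalizing x with
  | nil => rw [opF_kL_nil]; rfl
  | cons p l ih =>
    rw [insFL_cons, ker_insL, opF_kL_cons]
    simp only [ih]

/-- **A pure tensor with given components at the places of `l` is an insertion.** -/
theorem eq_insFL {l : List (LFac D.toLevel)} (hl : (l.map LFac.w).Nodup)
    (h : ∀ p ∈ l, k.f p.w = p.t) :
    k = insFL l (k.resF {v | v ∉ l.map LFac.w}) := by
  refine ext' (?_ : _ = _) (?_ : _ = _)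
  · rw [insFL_a]
    rfl
  · funext v
    by_cases hv : v ∈ l.map LFac.w
    · obtain ⟨p, hp, rfl⟩ := List.mem_map.1 hv
      rw [insFL_f_mem _ hl hp, resF_f_not k (by
        rw [Set.mem_ofPred_eq, not_not]
        exact hv), convF_unitF_right p.bi, h p hp]
    · rw [insFL_f_ne _ fun p hp hw => hv (by rw [hw]; exact List.mem_map_of_mem hp),
        resF_f _ hv]

/-- the kernel of a pure tensor with given components at the places of `l` -/
theorem ker_eq_opF {l : List (LFac D.toLevel)} (hl : (l.map LFac.w).Nodup)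
    (h : ∀ p ∈ l, k.f p.w = p.t) (x z : X D) :
    k.ker x z = opF (kL l) (fun y => (k.resF {v | v ∉ l.map LFac.w}).ker y z) x := by
  rw [← ker_insFL, ← eq_insFL k hl h]

end Pure

theorem opF_psum {J : Type*} (S : Finset J) (c : J → ℂ) {κ : Y D.toLevel → Y D.toLevel → ℂ}
    (hκ : RF κ) (φ : J → X D → ℂ) (x : X D) :
    opF κ (fun y => ∑ j ∈ S, c j * φ j y) x = ∑ j ∈ S, c j * opF κ (φ j) x := by
  rw [opF_eq_sum hκ]
  simp only [opF_eq_sum hκ, Finset.mul_sum]
  rw [Finset.sum_comm]
  exact Finset.sum_congr rfl fun j _ => Finset.sum_congr rfl fun y _ => by ring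

namespace PS

/-- **Insertions and operators**, linear combinations. -/
theorem ker_insFL (Q : PS D) (l : List (LFac D.toLevel)) (x z : X D) :
    (Q.map (Pure.insFL l)).ker x z = opF (kL l) (fun y => Q.ker y z) x := by
  let _ := Q.fJ
  have e : (fun y => Q.ker y z) = fun y => ∑ j, Q.c j * (Q.k j).ker y z := rfl
  rw [e, opF_psum Finset.univ Q.c (RF_kL l) (fun j y => (Q.k j).ker y z)]
  exact Finset.sum_congr rfl fun j _ => by rw [← Pure.ker_insFL]; rfl

/-- the kernel of an insertion in a product of linear combinations -/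
theorem ker_insFL_mul (Q R : PS D) (l : List (LFac D.toLevel)) (x z : X D) :
    ((Q.map (Pure.insFL l)).mul R).ker x z =
      opF (kL l) (fun y => ∫ u, Q.ker y u * R.ker u z) x := by
  have e : ((Q.map (Pure.insFL l)).mul R) = (Q.mul R).map (Pure.insFL l) := by
    unfold PS.mul PS.map
    congr 1
    funext j
    exact Pure.insFL_mul _ _ l
  rw [e, ker_insFL]
  congr 1
  funext y
  exact ((PS.ker_mul Q R y z).2).symm

/-- the kernel of an insertion in a product of linear combinations -/
theorem ker_mul_insFL (Q R : PS D) (l : List (LFac D.toLevel)) (x z : X D) :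
    ((Q.mul R).map (Pure.insFL l)).ker x z =
      opF (kL l) (fun y => ∫ u, Q.ker y u * R.ker u z) x := by
  rw [ker_insFL]
  congr 1
  funext y
  exact ((PS.ker_mul Q R y z).2).symm

/-- the kernel of a linear combination of pure tensors with given components at the places
of `l` -/
theorem ker_eq_opF (Q : PS D) {l : List (LFac D.toLevel)} (hl : (l.map LFac.w).Nodup)
    (h : ∀ j, ∀ p ∈ l, (Q.k j).f p.w = p.t) (x z : X D) :
    Q.ker x z = opF (kL l)
      (fun y => (Q.map fun k => k.resF {v | v ∉ l.map LFac.w}).ker y z) x := by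
  rw [← ker_insFL]
  rw [PS.ker_def, PS.ker_def]
  exact Finset.sum_congr rfl fun j _ => by
    change _ = Q.c j * (Pure.insFL l ((Q.k j).resF {v | v ∉ l.map LFac.w})).ker x z
    rw [← Pure.eq_insFL (Q.k j) hl (h j)]

/-- the kernel of a product, where the first factor has given components at the places of `l` -/
theorem ker_mul_eq_opF (Q R : PS D) {l : List (LFac D.toLevel)} (hl : (l.map LFac.w).Nodup)
    (h : ∀ j, ∀ p ∈ l, (Q.k j).f p.w = p.t) (x z : X D) :
    (Q.mul R).ker x z = opF (kL l) (fun y =>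
      ∫ u, (Q.map fun k => k.resF {v | v ∉ l.map LFac.w}).ker y u * R.ker u z) x := by
  rw [← ker_insFL_mul]
  have e : Q = (Q.map fun k => k.resF {v | v ∉ l.map LFac.w}).map (Pure.insFL l) := by
    cases Q with
    | mk J fJ c k =>
      unfold PS.map
      congr 1
      funext j
      exact Pure.eq_insFL (k j) hl (h j)
  rw [← e]

end PS

end glob

end Fermat.LT
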